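/-
S20 Frame route, piece ARITH: the linear algebra of the weight counts.
-/
import Mathlib

set_option autoImplicit false

namespace Fermat.Agent.S20.Frame

namespace ArithAux

/-- The pointwise identity behind `arith`. -/
theorem pointwise (x : ℤ) (h0 : 0 ≤ x) (h10 : x ≤ 10) (hev : Even x) :
    (12 : ℤ) * (if x = 10 then 1 else 0) =
      x + 6 * (if x % 4 = 2 then 1 else 0) + 8 * (if x % 6 = 4 then 1 else 0)
        + 4 * (if x % 6 = 2 then 1 else 0) - 12 + 12 * (if x = 0 then 1 else 0) := by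
  interval_cases x <;> first | rfl | (exact absurd hev (by decide))

theorem card_filter_cast {n : ℕ} (p : Fin n → Prop) [DecidablePred p] :
    (((Finset.univ.filter p).card : ℕ) : ℤ) = ∑ i, (if p i then (1 : ℤ) else 0) := by
  rw [Finset.card_filter]
  push_cast
  rfl

end ArithAux

theorem arith (n : ℕ) (w : Fin n → ℤ) (μ ν₂ ν₃ c : ℕ) (h0 : ∀ i, 0 ≤ w i) (h10 : ∀ i, w i ≤ 10)
    (hev : ∀ i, Even (w i)) (hz : (Finset.univ.filter fun i => w i = 0).card = 1) (hn : n = μ)
    (h4 : 2 * (Finset.univ.filter fun i => w i % 4 = 2).card + ν₂ = μ)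
    (h62 : 3 * (Finset.univ.filter fun i => w i % 6 = 2).card + ν₃ = μ)
    (h64 : 3 * (Finset.univ.filter fun i => w i % 6 = 4).card + ν₃ = μ)
    (hsum : ∑ i, w i = 6 * ((μ : ℤ) - c)) :
    (((Finset.univ.filter fun i => w i = 10).card : ℕ) : ℚ) =
      1 + (μ : ℚ) / 12 - (ν₂ : ℚ) / 4 - (ν₃ : ℚ) / 3 - (c : ℚ) / 2 := by
  have key : (12 : ℤ) * ((Finset.univ.filter fun i => w i = 10).card : ℤ) =
      ∑ i, w i + 6 * ((Finset.univ.filter fun i => w i % 4 = 2).card : ℤ)
        + 8 * ((Finset.univ.filter fun i => w i % 6 = 4).card : ℤ)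
        + 4 * ((Finset.univ.filter fun i => w i % 6 = 2).card : ℤ) - 12 * (n : ℤ)
        + 12 * ((Finset.univ.filter fun i => w i = 0).card : ℤ) := by
    rw [ArithAux.card_filter_cast, ArithAux.card_filter_cast, ArithAux.card_filter_cast,
      ArithAux.card_filter_cast, ArithAux.card_filter_cast]
    have hn' : (12 : ℤ) * (n : ℤ) = ∑ _i : Fin n, (12 : ℤ) := by
      simp [mul_comm]
    rw [hn', Finset.mul_sum, Finset.mul_sum, Finset.mul_sum, Finset.mul_sum, Finset.mul_sum,
      ← Finset.sum_add_distrib, ← Finset.sum_add_distrib, ← Finset.sum_add_distrib,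
      ← Finset.sum_sub_distrib, ← Finset.sum_add_distrib]
    exact Finset.sum_congr rfl fun i _ => ArithAux.pointwise (w i) (h0 i) (h10 i) (hev i)
  have hzZ : ((Finset.univ.filter fun i => w i = 0).card : ℤ) = 1 := by exact_mod_cast hz
  have h4Z : 2 * ((Finset.univ.filter fun i => w i % 4 = 2).card : ℤ) + ν₂ = μ := by
    exact_mod_cast h4
  have h62Z : 3 * ((Finset.univ.filter fun i => w i % 6 = 2).card : ℤ) + ν₃ = μ := by
    exact_mod_cast h62
  have h64Z : 3 * ((Finset.univ.filter fun i => w i % 6 = 4).card : ℤ) + ν₃ = μ := by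
    exact_mod_cast h64
  have hnZ : (n : ℤ) = μ := by exact_mod_cast hn
  have final : (12 : ℤ) * ((Finset.univ.filter fun i => w i = 10).card : ℤ) =
      12 + μ - 3 * ν₂ - 4 * ν₃ - 6 * c := by
    rw [key, hsum, hzZ, hnZ]
    linarith
  have finalQ : (12 : ℚ) * ((Finset.univ.filter fun i => w i = 10).card : ℚ) =
      12 + μ - 3 * ν₂ - 4 * ν₃ - 6 * c := by exact_mod_cast final
  linarith

end Fermat.Agent.S20.Frame
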