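/-
S20 (dimension of S₂(Γ₀(N)) = genus formula): common definitions.

Route (no Riemann-Roch): the graded module `M = ⊕ M_k(Γ₀(N))` is free of rank `μ = [SL₂(ℤ) : Γ₀(N)]`
over `ℂ[E₄, E₆]` with a homogeneous basis `F i` of weights `w i` (a "frame"); the matrix of
translates `Φ = (F i ∣ q)` has nowhere vanishing determinant, `det Φ ^ 2 = c Δ ^ (μ - #cusps)`,
the columns of `Δ Φ⁻¹` are a basis of the module of cusp forms (weights `12 - w i`), and the
residues of the `w i` mod 4 and mod 6 are read off at the elliptic points.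
-/
import Mathlib

set_option autoImplicit false

open UpperHalfPlane ModularForm CongruenceSubgroup Matrix.SpecialLinearGroup

open scoped MatrixGroups ModularForm Manifold Topology

noncomputable section

namespace Fermat.Agent.S20.Frame

/-- `Γ₀(N)` inside `GL(2, ℝ)` (this is what the coercion in `ModularForm (Gamma0 N) k` unfolds
to). -/
abbrev G0 (N : ℕ) : Subgroup (GL (Fin 2) ℝ) := Subgroup.map (mapGL ℝ) (Gamma0 N)

/-- The coset space `SL(2,ℤ) / Γ₀(N)` (inside `GL(2,ℝ)`), as used by Mathlib's norm and trace;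
`𝒮ℒ` acts on it on the left. -/
abbrev Q (N : ℕ) : Type := 𝒮ℒ ⧸ (G0 N).subgroupOf 𝒮ℒ

/-- The translate of a form by a coset (`tr f ⟦h⟧ = f ∣[k] h⁻¹`). -/
abbrev tr {N : ℕ} {k : ℤ} (f : ModularForm (G0 N) k) (q : Q N) : ℍ → ℂ :=
  SlashInvariantForm.quotientFunc f q

/-- The image of an element of `SL(2, ℤ)` in `𝒮ℒ`. -/
def toSL (g : SL(2, ℤ)) : 𝒮ℒ := ⟨mapGL ℝ g, MonoidHom.mem_range.2 ⟨g, rfl⟩⟩

/-- `S`, `T` and `U = S T` as elements of `𝒮ℒ`. `S` fixes `I`, `U` fixes `ρ`. -/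
def Sg : 𝒮ℒ := toSL ModularGroup.S
def Tg : 𝒮ℒ := toSL ModularGroup.T
def Ug : 𝒮ℒ := toSL (ModularGroup.S * ModularGroup.T)

/-- Number of cosets fixed by `S`. -/
def fixS (N : ℕ) : ℕ := Nat.card {q : Q N // Sg • q = q}

/-- Number of cosets fixed by `U = S T`. -/
def fixU (N : ℕ) : ℕ := Nat.card {q : Q N // Ug • q = q}

/-- Number of orbits of `T` on the cosets (the number of cusps). -/
def orbT (N : ℕ) : ℕ := Nat.card (MulAction.orbitRel.Quotient (Subgroup.zpowers Tg) (Q N))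

/-- The elliptic point `ρ = e^{2πi/3}`. -/
def rho : ℍ := ⟨⟨-1 / 2, Real.sqrt 3 / 2⟩, by positivity⟩

/-- A frame: a homogeneous basis of `⊕ M_k(Γ₀(N))` over the ring of level one forms. -/
structure IsFrame (N : ℕ) {n : ℕ} (w : Fin n → ℤ)
    (F : (i : Fin n) → ModularForm (G0 N) (w i)) : Prop where
  span : ∀ (k : ℤ) (f : ModularForm (G0 N) k),
    ∃ r : (i : Fin n) → ModularForm 𝒮ℒ (k - w i), ∀ z, f z = ∑ i, r i z * F i z
  indep : ∀ (k : ℤ) (r : (i : Fin n) → ModularForm 𝒮ℒ (k - w i)),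
    (∀ z, ∑ i, r i z * F i z = 0) → ∀ i, r i = 0

/-- The matrix of translates of a frame. -/
def Phi {N n : ℕ} {w : Fin n → ℤ} (F : (i : Fin n) → ModularForm (G0 N) (w i))
    (e : Fin n ≃ Q N) (z : ℍ) : Matrix (Fin n) (Fin n) ℂ :=
  Matrix.of fun i j => tr (F i) (e j) z

end Fermat.Agent.S20.Frame
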