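/-
S20, Frame route, piece BASIC: elementary facts on the weights of a frame.

* `weight_nonneg`  : all weights are `≥ 0` (no forms of negative weight);
* `weight_even`    : all weights are even (`-1 ∈ Γ₀(N)`);
* `card_weight_zero` : exactly one frame element has weight `0` (`M₀ = ℂ`).
-/
import Mathlib
import Fermat.Agent.S20.Frame.Defs
import Fermat.Prelude.Def_ModularCurve_GenusNumerics

set_option autoImplicit false

open UpperHalfPlane ModularForm CongruenceSubgroup Matrix.SpecialLinearGroup EisensteinSeries
open scoped MatrixGroups ModularForm Manifold Topology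

noncomputable section

namespace Fermat.Agent.S20.Frame

variable {N : ℕ} [NeZero N]

section frame

variable {n : ℕ} {w : Fin n → ℤ} {F : (i : Fin n) → ModularForm (G0 N) (w i)}

namespace Basic

omit [NeZero N] in
/-- A coefficient family supported at the single index `i`. -/
theorem sum_single (k : ℤ) (i : Fin n) (r : ModularForm 𝒮ℒ (k - w i)) (z : ℍ) :
    ∑ j, (Pi.single (M := fun j => ModularForm 𝒮ℒ (k - w j)) i r j) z * F j z
      = r z * F i z := by
  rw [Finset.sum_eq_single i]
  · rw [Pi.single_eq_same]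
  · intro j _ hj
    rw [Pi.single_eq_of_ne hj]
    simp
  · intro h
    exact absurd (Finset.mem_univ i) h

omit [NeZero N] in
/-- The elements of a frame are nonzero. -/
theorem ne_zero (hF : IsFrame N w F) (i : Fin n) : F i ≠ 0 := by
  intro h
  have h1 := hF.indep (w i)
    (Pi.single i (ModularForm.mcast (sub_self (w i)).symm (1 : ModularForm 𝒮ℒ 0))) ?_ i
  · rw [Pi.single_eq_same] at h1
    have h2 := congrArg (fun f : ModularForm 𝒮ℒ (w i - w i) => f I) h1
    simp [ModularForm.mcast_apply, ModularForm.one_coe_eq_one] at h2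
  · intro z
    rw [sum_single, h]
    simp

theorem neg_one_mem (N : ℕ) : mapGL ℝ (-1 : SL(2, ℤ)) ∈ G0 N :=
  ⟨-1, by simp [Gamma0_mem], rfl⟩

omit [NeZero N] in
/-- A form of odd weight for `Γ₀(N)` vanishes. -/
theorem eq_zero_of_odd {k : ℤ} (hk : Odd k) (f : ModularForm (G0 N) k) : f = 0 := by
  ext z
  have h : f ((-1 : SL(2, ℤ)) • z) = denom (-1 : SL(2, ℤ)) z ^ k * f z :=
    SlashInvariantForm.slash_action_eqn'' f (γ := mapGL ℝ (-1 : SL(2, ℤ))) (neg_one_mem N) z
  have h1 : (-1 : SL(2, ℤ)) • z = z := by simp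
  have h2 : denom (-1 : SL(2, ℤ)) z = -1 := by
    rw [ModularGroup.denom_apply]
    simp
  rw [h1, h2, hk.neg_one_zpow] at h
  have h3 : (2 : ℂ) * f z = 0 := by linear_combination h
  simpa using h3

/-- A frame element of weight zero is a nonzero constant. -/
theorem exists_const (hF : IsFrame N w F) (i : Fin n) (hi : w i = 0) :
    ∃ c : ℂ, c ≠ 0 ∧ ∀ z, F i z = c := by
  obtain ⟨c, hc⟩ := ModularForm.eq_const_of_weight_zero (ModularForm.mcast hi (F i))
  have hc' : ∀ z, F i z = c := fun z => by
    have := congrFun hc z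
    simpa [ModularForm.mcast_apply] using this
  refine ⟨c, ?_, hc'⟩
  rintro rfl
  exact ne_zero hF i (by ext z; simpa using hc' z)

/-- Some frame element has weight zero. -/
theorem exists_weight_zero (hF : IsFrame N w F) (hnn : ∀ i, 0 ≤ w i) : ∃ i, w i = 0 := by
  by_contra hne
  push Not at hne
  obtain ⟨r, hr⟩ := hF.span 0 (1 : ModularForm (G0 N) 0)
  have hr0 : ∀ i, r i = 0 := fun i =>
    ModularForm.isZero_of_neg_weight
      (by have := hnn i; have := hne i; omega) (r i)
  have := hr I
  simp [hr0, ModularForm.one_coe_eq_one] at this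

/-- Two frame elements of weight zero coincide. -/
theorem eq_of_weight_zero (hF : IsFrame N w F) {i j : Fin n} (hi : w i = 0) (hj : w j = 0) :
    i = j := by
  by_contra hij
  obtain ⟨ci, hci0, hci⟩ := exists_const hF i hi
  obtain ⟨cj, hcj0, hcj⟩ := exists_const hF j hj
  have hwi : (0 : ℤ) = 0 - w i := by rw [hi]; ring
  have hwj : (0 : ℤ) = 0 - w j := by rw [hj]; ring
  have h1 := hF.indep 0
    (Pi.single i (ModularForm.mcast hwi (ModularForm.const (Γ := 𝒮ℒ) cj)) +
      Pi.single j (ModularForm.mcast hwj (ModularForm.const (Γ := 𝒮ℒ) (-ci)))) ?_ i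
  · rw [Pi.add_apply, Pi.single_eq_same, Pi.single_eq_of_ne hij, add_zero] at h1
    have h2 := congrArg (fun f : ModularForm 𝒮ℒ (0 - w i) => f I) h1
    simp [ModularForm.mcast_apply] at h2
    exact hcj0 h2
  · intro z
    simp only [Pi.add_apply, _root_.add_apply, add_mul, Finset.sum_add_distrib]
    rw [sum_single, sum_single]
    simp only [ModularForm.mcast_apply, ModularForm.const_apply, hci, hcj]
    ring

end Basic

theorem weight_nonneg (hF : IsFrame N w F) (i : Fin n) : 0 ≤ w i := by
  by_contra h
  exact Basic.ne_zero hF i (ModularForm.isZero_of_neg_weight (not_le.mp h) (F i))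

theorem weight_even (hF : IsFrame N w F) (i : Fin n) : Even (w i) := by
  by_contra h
  exact Basic.ne_zero hF i (Basic.eq_zero_of_odd (Int.not_even_iff_odd.mp h) (F i))

theorem card_weight_zero (hF : IsFrame N w F) :
    (Finset.univ.filter fun i => w i = 0).card = 1 := by
  obtain ⟨i, hi⟩ := Basic.exists_weight_zero hF (weight_nonneg hF)
  rw [Finset.card_eq_one]
  refine ⟨i, ?_⟩
  ext j
  simp only [Finset.mem_filter, Finset.mem_univ, true_and, Finset.mem_singleton]
  constructor
  · intro hj
    exact Basic.eq_of_weight_zero hF hj hi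
  · rintro rfl
    exact hi

end frame

end Fermat.Agent.S20.Frame
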