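/-
S20 Frame route, piece CARD (core): the number of elements of a frame is the index
`μ = #(SL(2,ℤ) / Γ₀(N))`.

* `n ≤ μ`: the rows `(tr (F i) q z₀)_q` are linearly independent at a generic point
  (this is GEN's `indep_generic`, taken here as a hypothesis).
* `μ ≤ n`: Vandermonde argument with the forms `u ^ a * v ^ (μ - 1 - a)`, `u = E₄(N z) ^ 3`,
  `v = Δ(N z)`, at a point where the `μ` points `(u_q : v_q)` are pairwise distinct.
-/
import Mathlib
import Fermat.Agent.S20.Frame.Defs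
import Fermat.Agent.S23.UV
import Fermat.Agent.S23.Dist
import Fermat.Agent.S23.Lagrange
import Fermat.Agent.S23.JN

set_option autoImplicit false

open UpperHalfPlane ModularForm CongruenceSubgroup Matrix.SpecialLinearGroup EisensteinSeries
open scoped MatrixGroups ModularForm Manifold Topology

noncomputable section

namespace Fermat.Agent.S20.Frame

namespace Card

open Fermat.Agent.S23

variable {N : ℕ}

/-! ### Translates as slashes -/

/-- Every coset is the class of some `toSL g⁻¹`, and the translate by it is the slash by `g`,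
simultaneously for all forms. -/
theorem exists_tr_eq (q : Q N) : ∃ g : SL(2, ℤ), q = (⟦toSL g⁻¹⟧ : Q N) ∧
    ∀ {k : ℤ} (f : ModularForm (G0 N) k), tr f q = (⇑f : ℍ → ℂ) ∣[k] g := by
  induction q using Quotient.inductionOn with
  | h r =>
    obtain ⟨r, g, rfl⟩ := r
    refine ⟨g⁻¹, ?_, ?_⟩
    · rw [inv_inv]
      rfl
    · intro k f
      show SlashInvariantForm.quotientFunc f ⟦_⟧ = _
      rw [SlashInvariantForm.quotientFunc_mk]
      show (⇑f : ℍ → ℂ) ∣[k] (mapGL ℝ g)⁻¹ = (⇑f : ℍ → ℂ) ∣[k] (mapGL ℝ g⁻¹)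
      rw [map_inv]

theorem mk_toSL_eq {a b : SL(2, ℤ)} (h : a⁻¹ * b ∈ Gamma0 N) :
    (⟦toSL a⟧ : Q N) = ⟦toSL b⟧ := by
  refine QuotientGroup.eq.2 ?_
  rw [Subgroup.mem_subgroupOf]
  refine ⟨a⁻¹ * b, h, ?_⟩
  simp [toSL, map_mul, map_inv]

/-- Level one forms are invariant under every `g : SL(2, ℤ)`. -/
theorem levelOne_smul {k : ℤ} (r : ModularForm 𝒮ℒ k) (g : SL(2, ℤ)) (z : ℍ) :
    r (g • z) * denom g z ^ (-k) = r z := by
  have h : (⇑r : ℍ → ℂ) ∣[k] g = ⇑r :=
    SlashInvariantForm.slash_action_eqn r (mapGL ℝ g) ⟨g, rfl⟩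
  have h2 := congrFun h z
  rwa [ModularForm.SL_slash_apply] at h2

/-- Translates of a combination `∑ r i * F i` with level one coefficients. -/
theorem tr_sum {n : ℕ} {w : Fin n → ℤ} (F : (i : Fin n) → ModularForm (G0 N) (w i)) {k : ℤ}
    (f : ModularForm (G0 N) k) (r : (i : Fin n) → ModularForm 𝒮ℒ (k - w i))
    (hr : ∀ z, f z = ∑ i, r i z * F i z) (q : Q N) (z : ℍ) :
    tr f q z = ∑ i, r i z * tr (F i) q z := by
  obtain ⟨g, -, hg⟩ := exists_tr_eq q
  rw [hg f, ModularForm.SL_slash_apply, hr, Finset.sum_mul]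
  refine Finset.sum_congr rfl fun i _ => ?_
  rw [hg (F i), ModularForm.SL_slash_apply, ← levelOne_smul (r i) g z]
  have hd : denom g z ≠ 0 := denom_ne_zero _ z
  have : denom g z ^ (-k) = denom g z ^ (-(k - w i)) * denom g z ^ (-w i) := by
    rw [← zpow_add₀ hd]
    congr 1
    ring
  rw [this]
  ring

/-! ### The forms `u ^ a * v ^ b` -/

variable [NeZero N]

/-- The form `u ^ a * v ^ b` on `Γ₀(N)`, `u = E₄(N z) ^ 3`, `v = Δ(N z)`. -/
def uvForm (N : ℕ) [NeZero N] (a b : ℕ) : ModularForm (G0 N) ((a : ℤ) * 12 + (b : ℤ) * 12) :=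
  (ModularForm.pow (Γ := G0 N) (UV.uForm N) a).mul (ModularForm.pow (Γ := G0 N) (UV.vForm N) b)

theorem uvForm_apply (a b : ℕ) (z : ℍ) :
    uvForm N a b z = UV.uForm N z ^ a * UV.vForm N z ^ b := by
  unfold uvForm
  rw [ModularForm.coe_mul, ModularForm.coe_pow, ModularForm.coe_pow]
  rfl

theorem tr_uvForm (a b : ℕ) (q : Q N) (z : ℍ) :
    tr (uvForm N a b) q z =
      tr (k := 12) (UV.uForm N) q z ^ a * tr (k := 12) (UV.vForm N) q z ^ b := by
  obtain ⟨g, -, hg⟩ := exists_tr_eq q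
  rw [hg (uvForm N a b), hg (k := 12) (UV.uForm N), hg (k := 12) (UV.vForm N),
    ModularForm.SL_slash_apply, ModularForm.SL_slash_apply, ModularForm.SL_slash_apply,
    uvForm_apply]
  have hd : denom g z ≠ 0 := denom_ne_zero _ z
  have : denom g z ^ (-((a : ℤ) * 12 + (b : ℤ) * 12)) =
      (denom g z ^ (-(12 : ℤ))) ^ a * (denom g z ^ (-(12 : ℤ))) ^ b := by
    rw [← zpow_natCast, ← zpow_natCast, ← zpow_mul, ← zpow_mul, ← zpow_add₀ hd]
    congr 1
    ring
  rw [this]
  ring

/-! ### A point where the points `(u_q : v_q)` are pairwise distinct -/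

theorem exists_distinct_pair {q q' : Q N} (hq : q ≠ q') :
    ∃ z : ℍ, tr (k := 12) (UV.uForm N) q z * tr (k := 12) (UV.vForm N) q' z -
      tr (k := 12) (UV.uForm N) q' z * tr (k := 12) (UV.vForm N) q z ≠ 0 := by
  obtain ⟨g, hgq, hg⟩ := exists_tr_eq q
  obtain ⟨g', hgq', hg'⟩ := exists_tr_eq q'
  by_contra hcon
  push Not at hcon
  apply hq
  rw [hgq, hgq']
  refine (mk_toSL_eq ?_).symm
  rw [inv_inv]
  apply JN.mem_Gamma0_of_jN_smul
  -- first: `jN (g • z) = jN (g' • z)` for all `z`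
  have key : ∀ z : ℍ, JN.jN N (g • z) = JN.jN N (g' • z) := by
    intro z
    have h := hcon z
    rw [hg (k := 12) (UV.uForm N), hg (k := 12) (UV.vForm N), hg' (k := 12) (UV.uForm N),
      hg' (k := 12) (UV.vForm N), ModularForm.SL_slash_apply, ModularForm.SL_slash_apply,
      ModularForm.SL_slash_apply, ModularForm.SL_slash_apply] at h
    have hd : denom g z ^ (-(12 : ℤ)) ≠ 0 := zpow_ne_zero _ (denom_ne_zero _ z)
    have hd' : denom g' z ^ (-(12 : ℤ)) ≠ 0 := zpow_ne_zero _ (denom_ne_zero _ z)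
    have hv : UV.vForm N (g • z) ≠ 0 := UV.vForm_ne_zero N _
    have hv' : UV.vForm N (g' • z) ≠ 0 := UV.vForm_ne_zero N _
    rw [Dist.jN_eq_uForm_div_vForm, Dist.jN_eq_uForm_div_vForm, div_eq_div_iff hv hv']
    have h2 : (UV.uForm N (g • z) * UV.vForm N (g' • z) -
        UV.uForm N (g' • z) * UV.vForm N (g • z)) *
        (denom g z ^ (-(12 : ℤ)) * denom g' z ^ (-(12 : ℤ))) = 0 := by
      linear_combination h
    have h3 := (mul_eq_zero.1 h2).resolve_right (mul_ne_zero hd hd')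
    linear_combination h3
  intro z
  have := key (g⁻¹ • z)
  rw [← mul_smul, ← mul_smul, mul_inv_cancel, one_smul] at this
  exact this.symm

theorem exists_distinct (N : ℕ) [NeZero N] : ∃ z : ℍ, ∀ q q' : Q N, q ≠ q' →
    tr (k := 12) (UV.uForm N) q z * tr (k := 12) (UV.vForm N) q' z -
      tr (k := 12) (UV.uForm N) q' z * tr (k := 12) (UV.vForm N) q z ≠ 0 := by
  classical
  set fam : Q N × Q N → ℍ → ℂ := fun p =>
    if p.1 = p.2 then fun _ => 1
    else fun z => tr (k := 12) (UV.uForm N) p.1 z * tr (k := 12) (UV.vForm N) p.2 z -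
      tr (k := 12) (UV.uForm N) p.2 z * tr (k := 12) (UV.vForm N) p.1 z with hfam
  have hholo : ∀ p, JN.Holo (fam p) := by
    intro p
    rw [JN.holo_iff_mdiff, hfam]
    beta_reduce
    split_ifs with hp
    · exact mdifferentiable_const
    · exact ((NormPoly.mdiff_quotientFunc 𝒮ℒ (k := 12) (UV.uForm N) p.1).mul
        (NormPoly.mdiff_quotientFunc 𝒮ℒ (k := 12) (UV.vForm N) p.2)).sub
        ((NormPoly.mdiff_quotientFunc 𝒮ℒ (k := 12) (UV.uForm N) p.2).mul
        (NormPoly.mdiff_quotientFunc 𝒮ℒ (k := 12) (UV.vForm N) p.1))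
  have hne : ∀ p, ∃ z, fam p z ≠ 0 := by
    intro p
    rw [hfam]
    beta_reduce
    split_ifs with hp
    · exact ⟨UpperHalfPlane.I, one_ne_zero⟩
    · exact exists_distinct_pair hp
  obtain ⟨z, hz⟩ := JN.exists_common_ne_zero fam hholo hne
  refine ⟨z, fun q q' hqq' => ?_⟩
  have h := hz (q, q')
  rw [hfam] at h
  beta_reduce at h
  rw [if_neg hqq'] at h
  exact h

/-! ### `μ ≤ n` -/

theorem card_le {n : ℕ} {w : Fin n → ℤ} {F : (i : Fin n) → ModularForm (G0 N) (w i)}
    (hF : IsFrame N w F) : Nat.card (Q N) ≤ n := by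
  classical
  by_contra hlt
  push Not at hlt
  obtain ⟨z₀, hz₀⟩ := exists_distinct N
  set μ := Nat.card (Q N) with hμ
  let e : Fin μ ≃ Q N := (Finite.equivFin (Q N)).symm
  -- a non-zero vector orthogonal to all rows
  let A : Matrix (Fin n) (Fin μ) ℂ := Matrix.of fun i j => tr (F i) (e j) z₀
  have hker : LinearMap.ker (Matrix.mulVecLin A) ≠ ⊥ := by
    apply LinearMap.ker_ne_bot_of_finrank_lt
    rw [Module.finrank_fintype_fun_eq_card, Module.finrank_fintype_fun_eq_card,
      Fintype.card_fin, Fintype.card_fin]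
    exact hlt
  obtain ⟨b, hbker, hb0⟩ := (Submodule.ne_bot_iff _).1 hker
  have hb : ∀ i, ∑ j, tr (F i) (e j) z₀ * b j = 0 := by
    intro i
    have h := congrFun (LinearMap.mem_ker.1 hbker) i
    simpa [Matrix.mulVecLin_apply, Matrix.mulVec, dotProduct, A] using h
  -- hence orthogonal to the translates of every form
  have hall : ∀ (k : ℤ) (f : ModularForm (G0 N) k), ∑ j, b j * tr f (e j) z₀ = 0 := by
    intro k f
    obtain ⟨r, hr⟩ := hF.span k f
    calc ∑ j, b j * tr f (e j) z₀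
        = ∑ j, ∑ i, r i z₀ * (tr (F i) (e j) z₀ * b j) := by
          refine Finset.sum_congr rfl fun j _ => ?_
          rw [tr_sum F f r hr, Finset.mul_sum]
          refine Finset.sum_congr rfl fun i _ => ?_
          ring
      _ = ∑ i, r i z₀ * ∑ j, tr (F i) (e j) z₀ * b j := by
          rw [Finset.sum_comm]
          refine Finset.sum_congr rfl fun i _ => ?_
          rw [Finset.mul_sum]
      _ = 0 := by
          refine Finset.sum_eq_zero fun i _ => ?_
          rw [hb i, mul_zero]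
  -- Vandermonde
  set M : Matrix (Fin μ) (Fin μ) ℂ :=
    Matrix.projVandermonde (fun j => tr (k := 12) (UV.uForm N) (e j) z₀)
      (fun j => tr (k := 12) (UV.vForm N) (e j) z₀) with hM
  have hdet : M.det ≠ 0 := by
    rw [hM, Matrix.det_projVandermonde]
    refine Finset.prod_ne_zero_iff.2 fun i _ => Finset.prod_ne_zero_iff.2 fun j hj => ?_
    have hij : e j ≠ e i := by
      intro h
      have := e.injective h
      rw [Finset.mem_Ioi] at hj
      exact hj.ne' this
    exact hz₀ (e j) (e i) hij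
  have hvec : Matrix.vecMul b M = 0 := by
    funext a
    have h := hall _ (uvForm N a a.rev)
    rw [Pi.zero_apply, ← h]
    simp only [Matrix.vecMul, dotProduct]
    refine Finset.sum_congr rfl fun j _ => ?_
    rw [hM, Matrix.projVandermonde_apply, tr_uvForm]
  exact hb0 (Matrix.eq_zero_of_vecMul_eq_zero hdet hvec)

/-! ### `n ≤ μ` from generic independence -/

theorem tendsto_E6 : Filter.Tendsto (fun z : ℍ => ModularForm.E₆ z) atImInfty (𝓝 1) := by
  have hper : Function.Periodic (⇑ModularForm.E₆ ∘ ofComplex) 1 :=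
    SlashInvariantFormClass.periodic_comp_ofComplex ModularForm.E₆ one_mem_strictPeriods_SL
  have han : AnalyticAt ℂ (cuspFunction 1 ModularForm.E₆) 0 :=
    ModularFormClass.analyticAt_cuspFunction_zero ModularForm.E₆ one_pos one_mem_strictPeriods_SL
  have h0 : cuspFunction 1 ModularForm.E₆ 0 = 1 := by
    have := EisensteinSeries.E_qExpansion_coeff_zero (k := 6) (by norm_num) (by decide)
    simpa [qExpansion_coeff] using this
  have := han.continuousAt.tendsto.comp (qParam_tendsto_atImInfty one_pos)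
  rw [h0] at this
  refine this.congr ?_
  intro τ
  simpa using eq_cuspFunction τ one_ne_zero hper

/-- A point where neither `E₄` nor `E₆` vanishes. -/
theorem exists_E4_E6_ne_zero : ∃ z : ℍ, E₄ z ≠ 0 ∧ E₆ z ≠ 0 := by
  have h4 : ∀ᶠ z in atImInfty, E₄ z ≠ 0 :=
    JN.tendsto_E4.eventually_ne one_ne_zero
  have h6 : ∀ᶠ z in atImInfty, E₆ z ≠ 0 :=
    tendsto_E6.eventually_ne one_ne_zero
  exact (h4.and h6).exists

theorem le_card_of_indep {n : ℕ} {w : Fin n → ℤ} {F : (i : Fin n) → ModularForm (G0 N) (w i)}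
    (hgen : ∀ z₀ : ℍ, E₄ z₀ ≠ 0 → E₆ z₀ ≠ 0 → ∀ c : Fin n → ℂ,
      (∀ q : Q N, ∑ i, c i * tr (F i) q z₀ = 0) → c = 0) :
    n ≤ Nat.card (Q N) := by
  classical
  obtain ⟨z₀, h4, h6⟩ := exists_E4_E6_ne_zero
  let _ := Fintype.ofFinite (Q N)
  have hli : LinearIndependent ℂ (fun i : Fin n => fun q : Q N => tr (F i) q z₀) := by
    rw [Fintype.linearIndependent_iff]
    intro c hc
    have h0 := hgen z₀ h4 h6 c (fun q => by
      have := congrFun hc q
      simpa [Finset.sum_apply, smul_eq_mul] using this)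
    intro i
    rw [h0]
    rfl
  have := hli.fintype_card_le_finrank
  rwa [Fintype.card_fin, Module.finrank_fintype_fun_eq_card, ← Nat.card_eq_fintype_card] at this

/-- CARD, with GEN's `indep_generic` as a hypothesis. -/
theorem frame_card_of_indep {n : ℕ} {w : Fin n → ℤ}
    {F : (i : Fin n) → ModularForm (G0 N) (w i)} (hF : IsFrame N w F)
    (hgen : ∀ z₀ : ℍ, E₄ z₀ ≠ 0 → E₆ z₀ ≠ 0 → ∀ c : Fin n → ℂ,
      (∀ q : Q N, ∑ i, c i * tr (F i) q z₀ = 0) → c = 0) :
    n = Nat.card (Q N) :=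
  le_antisymm (le_card_of_indep hgen) (card_le hF)

end Card

end Fermat.Agent.S20.Frame

end
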