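/-
S20, Frame route, piece GEN (core): homogeneous combinations `∑ P i * F i` of a frame with level one
coefficients, their translates, evenness of the weights of a frame, level one monomials
`E₄ ^ a * E₆ ^ b` of prescribed weight, and the abstract independence statement:
if every `Γ₀(N)`-form all of whose translates vanish at `z₀` is divisible by a level one form `v`
with `v z₀ = 0`, then the rows `(tr (F i) q z₀)_q` of a frame are linearly independent.
-/
import Mathlib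
import Fermat.Agent.S20.Frame.Defs
import Fermat.Agent.S23.Dilate

set_option autoImplicit false

open UpperHalfPlane ModularForm CongruenceSubgroup Matrix.SpecialLinearGroup EisensteinSeries
open scoped MatrixGroups ModularForm Manifold Topology

noncomputable section

namespace Fermat.Agent.S20.Frame

variable {N : ℕ}

namespace Generic

theorem G0_le (N : ℕ) : G0 N ≤ 𝒮ℒ := Subgroup.map_le_range (mapGL ℝ) (Gamma0 N)

theorem neg_one_mem_G0 (N : ℕ) : (-1 : GL (Fin 2) ℝ) ∈ G0 N := by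
  refine ⟨-1, ?_, ?_⟩
  · show (-1 : SL(2, ℤ)) ∈ Gamma0 N
    rw [Gamma0_mem]; simp
  · ext i j; simp

/-- A level one form, seen as a form on `Γ₀(N)`. -/
def lvl (N : ℕ) {k : ℤ} (r : ModularForm 𝒮ℒ k) : ModularForm (G0 N) k :=
  Fermat.Agent.S23.Dilate.restrict (G0_le N) r

@[simp] theorem lvl_apply (N : ℕ) {k : ℤ} (r : ModularForm 𝒮ℒ k) (z : ℍ) : lvl N r z = r z := rfl

theorem coe_lvl (N : ℕ) {k : ℤ} (r : ModularForm 𝒮ℒ k) : (⇑(lvl N r) : ℍ → ℂ) = ⇑r := rfl

theorem sum_apply' {Γ : Subgroup (GL (Fin 2) ℝ)} {k : ℤ} {ι : Type*} (s : Finset ι)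
    (f : ι → ModularForm Γ k) (z : ℍ) : (∑ i ∈ s, f i) z = ∑ i ∈ s, f i z := by
  classical
  induction s using Finset.induction_on with
  | empty => simp
  | insert a s ha ih => rw [Finset.sum_insert ha, Finset.sum_insert ha, ← ih]; rfl

theorem coe_sum' {Γ : Subgroup (GL (Fin 2) ℝ)} {k : ℤ} {ι : Type*} (s : Finset ι)
    (f : ι → ModularForm Γ k) : (⇑(∑ i ∈ s, f i) : ℍ → ℂ) = ∑ i ∈ s, ⇑(f i) := by
  funext z
  rw [sum_apply', Finset.sum_apply]

variable {n : ℕ} {w : Fin n → ℤ}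

/-- The homogeneous combination `∑ P i * F i` of weight `K`. -/
def comb (F : (i : Fin n) → ModularForm (G0 N) (w i)) (K : ℤ)
    (P : (i : Fin n) → ModularForm 𝒮ℒ (K - w i)) : ModularForm (G0 N) K :=
  ∑ i, ModularForm.mcast (sub_add_cancel K (w i)) ((lvl N (P i)).mul (F i))

theorem comb_apply (F : (i : Fin n) → ModularForm (G0 N) (w i)) (K : ℤ)
    (P : (i : Fin n) → ModularForm 𝒮ℒ (K - w i)) (z : ℍ) :
    comb F K P z = ∑ i, P i z * F i z := by
  rw [comb, sum_apply']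
  rfl

theorem coe_comb (F : (i : Fin n) → ModularForm (G0 N) (w i)) (K : ℤ)
    (P : (i : Fin n) → ModularForm 𝒮ℒ (K - w i)) :
    (⇑(comb F K P) : ℍ → ℂ) = ∑ i, (⇑(P i) : ℍ → ℂ) * ⇑(F i) := by
  funext z
  rw [comb_apply, Finset.sum_apply]
  rfl

theorem mul_slash_of_eq {k1 k2 K : ℤ} (hK : k1 + k2 = K) (A : SL(2, ℤ)) (f g : ℍ → ℂ) :
    (f * g) ∣[K] A = f ∣[k1] A * g ∣[k2] A := by
  subst hK
  exact ModularForm.mul_slash_SL2 k1 k2 A f g

/-- Translates of a homogeneous combination. -/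
theorem tr_comb (F : (i : Fin n) → ModularForm (G0 N) (w i)) (K : ℤ)
    (P : (i : Fin n) → ModularForm 𝒮ℒ (K - w i)) (q : Q N) (z : ℍ) :
    tr (comb F K P) q z = ∑ i, P i z * tr (F i) q z := by
  induction q using Quotient.inductionOn with
  | h h =>
    obtain ⟨γ, hγ⟩ : ∃ γ : SL(2, ℤ), mapGL ℝ γ = (h : GL (Fin 2) ℝ)⁻¹ := (h⁻¹).2
    simp only [tr, SlashInvariantForm.quotientFunc_mk]
    rw [← hγ, coe_comb, SlashAction.sum_slash, Finset.sum_apply]
    refine Finset.sum_congr rfl fun i _ => ?_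
    have h1 : ((⇑(P i) : ℍ → ℂ) * ⇑(F i)) ∣[K] (mapGL ℝ γ) =
        ((⇑(P i) : ℍ → ℂ) ∣[K - w i] γ) * ((⇑(F i) : ℍ → ℂ) ∣[w i] γ) :=
      mul_slash_of_eq (sub_add_cancel K (w i)) γ _ _
    have h2 : (⇑(P i) : ℍ → ℂ) ∣[K - w i] γ = ⇑(P i) :=
      SlashInvariantFormClass.slash_action_eq (P i) _ ⟨γ, rfl⟩
    rw [h1, h2]
    rfl

variable {F : (i : Fin n) → ModularForm (G0 N) (w i)}

/-- The members of a frame are nonzero. -/
theorem ne_zero (hF : IsFrame N w F) (i : Fin n) : F i ≠ 0 := by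
  intro h0
  let r : (j : Fin n) → ModularForm 𝒮ℒ (w i - w j) := fun j =>
    if h : j = i then ModularForm.mcast (by rw [h, sub_self]) (1 : ModularForm 𝒮ℒ 0) else 0
  have hr : ∀ z, ∑ j, r j z * F j z = 0 := by
    intro z
    rw [Finset.sum_eq_single i]
    · rw [h0]; simp
    · intro j _ hj
      have : r j = 0 := dif_neg hj
      rw [this]; simp
    · intro hi; exact absurd (Finset.mem_univ i) hi
  have h1 := hF.indep (w i) r hr i
  have h2 : r i I = 1 := by
    have : r i = ModularForm.mcast (by rw [sub_self]) (1 : ModularForm 𝒮ℒ 0) := dif_pos rfl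
    rw [this]; rfl
  rw [h1] at h2
  simp at h2

/-- The weights of a frame are even. -/
theorem weight_even (hF : IsFrame N w F) (i : Fin n) : Even (w i) := by
  by_contra hodd
  rw [Int.not_even_iff_odd] at hodd
  exact ne_zero hF i (ModularForm.eq_zero_of_neg_one_mem (neg_one_mem_G0 N) hodd (F i))

/-- Level one monomials `E₄ ^ a * E₆ ^ b` of every even weight `≥ 4`. -/
theorem exists_levelOne_ne_zero (z₀ : ℍ) (h4 : E₄ z₀ ≠ 0) (h6 : E₆ z₀ ≠ 0) (m : ℤ)
    (hm : Even m) (hm4 : 4 ≤ m) : ∃ p : ModularForm 𝒮ℒ m, p z₀ ≠ 0 := by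
  obtain ⟨a, b, hab⟩ : ∃ a b : ℕ, (a : ℤ) * 4 + (b : ℤ) * 6 = m := by
    obtain ⟨t, ht⟩ := hm
    rcases Int.even_or_odd' t with ⟨s, hs | hs⟩
    · exact ⟨s.toNat, 0, by rw [Int.toNat_of_nonneg (by omega)]; omega⟩
    · exact ⟨(s - 1).toNat, 1, by rw [Int.toNat_of_nonneg (by omega)]; omega⟩
  refine ⟨ModularForm.mcast hab ((E₄.pow a).mul (E₆.pow b)), ?_⟩
  show (⇑((E₄.pow a).mul (E₆.pow b)) : ℍ → ℂ) z₀ ≠ 0
  rw [ModularForm.coe_mul, ModularForm.coe_pow, ModularForm.coe_pow]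
  exact mul_ne_zero (pow_ne_zero _ h4) (pow_ne_zero _ h6)

/-- Abstract division step: if a homogeneous combination of a frame is divisible by a level one
form `v` vanishing at `z₀`, then all its coefficients vanish at `z₀`. -/
theorem eval_eq_zero_of_dvd (hF : IsFrame N w F) {kv : ℤ} (v : ModularForm 𝒮ℒ kv) (K : ℤ)
    (P : (i : Fin n) → ModularForm 𝒮ℒ (K - w i)) (g : ModularForm (G0 N) (K - kv))
    (hg : ∀ z, comb F K P z = v z * g z) (z₀ : ℍ) (hv : v z₀ = 0) (i : Fin n) : P i z₀ = 0 := by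
  obtain ⟨s, hs⟩ := hF.span (K - kv) g
  let r : (j : Fin n) → ModularForm 𝒮ℒ (K - w j) := fun j =>
    P j - ModularForm.mcast (by ring) (v.mul (s j))
  have hr : ∀ z, ∑ j, r j z * F j z = 0 := by
    intro z
    have h1 : ∀ j, r j z * F j z = P j z * F j z - v z * (s j z * F j z) := by
      intro j
      have : r j z = P j z - v z * s j z := rfl
      rw [this]; ring
    simp only [h1]
    rw [Finset.sum_sub_distrib, ← Finset.mul_sum, ← hs z, ← comb_apply, hg z, sub_self]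
  have h1 := hF.indep K r hr i
  have h2 : r i z₀ = P i z₀ - v z₀ * s i z₀ := rfl
  rw [h1, hv, zero_mul, sub_zero] at h2
  exact h2.symm

/-- Independence of the rows `(tr (F i) q z₀)_q` of a frame at a point `z₀` with
`E₄ z₀ * E₆ z₀ ≠ 0`, given the divisibility by a level one form `v` vanishing at `z₀` of every form
all of whose translates vanish at `z₀`. -/
theorem indep_generic_of_div (hF : IsFrame N w F) (z₀ : ℍ) (h4 : E₄ z₀ ≠ 0) (h6 : E₆ z₀ ≠ 0)
    {kv : ℤ} (v : ModularForm 𝒮ℒ kv) (hv : v z₀ = 0)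
    (hdiv : ∀ (k : ℤ) (G : ModularForm (G0 N) k), (∀ q : Q N, tr G q z₀ = 0) →
      ∃ g : ModularForm (G0 N) (k - kv), ∀ z, G z = v z * g z)
    (c : Fin n → ℂ) (hc : ∀ q : Q N, ∑ i, c i * tr (F i) q z₀ = 0) : c = 0 := by
  set K : ℤ := 4 + 2 * ∑ j, |w j| with hK
  have hex : ∀ i, ∃ p : ModularForm 𝒮ℒ (K - w i), p z₀ ≠ 0 := by
    intro i
    refine exists_levelOne_ne_zero z₀ h4 h6 _ ?_ ?_
    · exact (Even.add (by decide) (even_two_mul _)).sub (weight_even hF i)
    · have h1 : |w i| ≤ ∑ j, |w j| :=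
        Finset.single_le_sum (f := fun j => |w j|) (fun j _ => abs_nonneg _) (Finset.mem_univ i)
      have h2 : w i ≤ |w i| := le_abs_self _
      have h3 : 0 ≤ |w i| := abs_nonneg _
      rw [hK]; linarith
  choose p hp using hex
  let P : (i : Fin n) → ModularForm 𝒮ℒ (K - w i) := fun i => (c i / p i z₀) • p i
  have hP : ∀ i, P i z₀ = c i := by
    intro i
    show (c i / p i z₀) • p i z₀ = c i
    rw [smul_eq_mul, div_mul_cancel₀ _ (hp i)]
  have htr : ∀ q : Q N, tr (comb F K P) q z₀ = 0 := by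
    intro q
    rw [tr_comb]
    simp only [hP]
    exact hc q
  obtain ⟨g, hg⟩ := hdiv K (comb F K P) htr
  funext i
  have := eval_eq_zero_of_dvd hF v K P g hg z₀ hv i
  rw [hP] at this
  exact this

end Generic

end Fermat.Agent.S20.Frame
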