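/-
S20 (frame route), piece LVL1: level one toolkit.

* `Lz z₀ = E₆(z₀)² E₄³ - E₄(z₀)³ E₆²`, the weight 12 level one form vanishing at `z₀`;
* the values of `E₄`, `E₆` at the elliptic points `i`, `ρ`;
* divisibility of level one forms by powers of `Lz z₀` (generic `z₀`), `E₆` (at `i`),
  `E₄` (at `ρ`) in terms of the vanishing order;
* every weight 12 form `E₄³ - x Δ` has a zero (`j` is surjective).
-/
import Mathlib
import Fermat.Agent.S20.Frame.Defs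
import Fermat.Agent.S23.LevelOne
import Fermat.Agent.S24.JLocal
import Fermat.Prelude.Def_ModularCurve_GenusNumerics

set_option autoImplicit false

open UpperHalfPlane ModularForm CongruenceSubgroup Matrix.SpecialLinearGroup EisensteinSeries
open scoped MatrixGroups ModularForm Manifold Topology

noncomputable section

namespace Fermat.Agent.S20.Frame

local notation "Δ" => ModularForm.discriminant

namespace LevelOneDiv

open Fermat.Agent.S23 Fermat.Agent.S24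

/-- The weight 12 level one form vanishing at `z₀`. -/
def Lz (z₀ : ℍ) : ModularForm 𝒮ℒ 12 :=
  (E₆ z₀ ^ 2) • ModularForm.mcast (by norm_num) (E₄.pow 3) -
    (E₄ z₀ ^ 3) • ModularForm.mcast (by norm_num) (E₆.pow 2)

theorem pow_apply' {k : ℤ} (f : ModularForm 𝒮ℒ k) (n : ℕ) (z : ℍ) : (f.pow n) z = f z ^ n := by
  simp

theorem Lz_apply (z₀ z : ℍ) : Lz z₀ z = E₆ z₀ ^ 2 * E₄ z ^ 3 - E₄ z₀ ^ 3 * E₆ z ^ 2 := by
  simp only [Lz]
  have h4 : (E₄.pow 3) z = E₄ z ^ 3 := pow_apply' E₄ 3 z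
  have h6 : (E₆.pow 2) z = E₆ z ^ 2 := pow_apply' E₆ 2 z
  rw [← h4, ← h6]
  rfl

theorem E6_I : E₆ I = 0 := JLocal.E6_I

theorem E4_I : E₄ I ≠ 0 := by
  intro h4
  have hΔ := ModularForm.discriminant_ne_zero I
  have := ModularForm.discriminant_eq_E₄_cube_sub_E₆_sq I
  rw [E6_I, h4] at this
  exact hΔ (by rw [this]; norm_num)

theorem rho_eq : (rho : ℍ) = JLocal.rho := rfl

theorem E4_rho : E₄ rho = 0 := JLocal.E4_rho

theorem E6_rho : E₆ rho ≠ 0 := by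
  intro h6
  have hΔ := ModularForm.discriminant_ne_zero rho
  have := ModularForm.discriminant_eq_E₄_cube_sub_E₆_sq rho
  rw [E4_rho, h6] at this
  exact hΔ (by rw [this]; norm_num)

/-- `j` is surjective: every weight 12 form `E₄³ - x Δ` has a zero. -/
theorem exists_zero (x : ℂ) : ∃ z : ℍ, E₄ z ^ 3 = x * Δ z := by
  obtain ⟨z, hz⟩ := JLocal.jFun_surjective x
  refine ⟨z, ?_⟩
  rw [JLocal.jFun_eq] at hz
  rw [← hz, div_mul_cancel₀ _ (ModularForm.discriminant_ne_zero z)]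

/-! ### Abstract divisibility machinery -/

/-- Every level one form is `c * P k + V * g` as soon as all monomials are. -/
theorem span_decomp {kV : ℤ} (V : ModularForm 𝒮ℒ kV) (P : ℤ → ℍ → ℂ)
    (hmono : ∀ (k : ℤ) (a b : ℕ), 4 * (a : ℤ) + 6 * (b : ℤ) = k →
      ∃ (c : ℂ) (g : ModularForm 𝒮ℒ (k - kV)),
        ∀ z, LevelOne.monoFun a b z = c * P k z + V z * g z)
    {k : ℤ} (f : ModularForm 𝒮ℒ k) :
    ∃ (c : ℂ) (g : ModularForm 𝒮ℒ (k - kV)), ∀ z, f z = c * P k z + V z * g z := by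
  have key : ∀ φ ∈ Submodule.span ℂ (LevelOne.monoSet k),
      ∃ (c : ℂ) (g : ModularForm 𝒮ℒ (k - kV)), ∀ z, φ z = c * P k z + V z * g z := by
    intro φ hφ
    induction hφ using Submodule.span_induction with
    | mem x hx =>
      obtain ⟨a, b, hab, rfl⟩ := hx
      exact hmono k a b hab
    | zero => exact ⟨0, 0, fun z => by simp⟩
    | add x y _ _ hx hy =>
      obtain ⟨c₁, g₁, h₁⟩ := hx
      obtain ⟨c₂, g₂, h₂⟩ := hy
      refine ⟨c₁ + c₂, g₁ + g₂, fun z => ?_⟩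
      have e : (g₁ + g₂) z = g₁ z + g₂ z := rfl
      rw [Pi.add_apply, h₁, h₂, e]
      ring
    | smul c x _ hx =>
      obtain ⟨c₁, g₁, h₁⟩ := hx
      refine ⟨c * c₁, c • g₁, fun z => ?_⟩
      have e : (c • g₁) z = c * g₁ z := rfl
      rw [Pi.smul_apply, h₁, e, smul_eq_mul]
      ring
  exact key _ (LevelOne.coe_mem_span_monoSet f)

/-- Divisibility by `V` of a form vanishing at `z₀`. -/
theorem dvd_of_eval {kV : ℤ} (V : ModularForm 𝒮ℒ kV) (P : ℤ → ℍ → ℂ) (z₀ : ℍ) (hV : V z₀ = 0)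
    (hP : ∀ k, P k z₀ ≠ 0)
    (hmono : ∀ (k : ℤ) (a b : ℕ), 4 * (a : ℤ) + 6 * (b : ℤ) = k →
      ∃ (c : ℂ) (g : ModularForm 𝒮ℒ (k - kV)),
        ∀ z, LevelOne.monoFun a b z = c * P k z + V z * g z)
    {k : ℤ} (f : ModularForm 𝒮ℒ k) (hf : f z₀ = 0) :
    ∃ g : ModularForm 𝒮ℒ (k - kV), ∀ z, f z = V z * g z := by
  obtain ⟨c, g, h⟩ := span_decomp V P hmono f
  have h0 := h z₀
  rw [hf, hV, zero_mul, add_zero] at h0
  have hc : c = 0 := by
    rcases mul_eq_zero.mp h0.symm with h | h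
    · exact h
    · exact absurd h (hP k)
  exact ⟨g, fun z => by rw [h z, hc, zero_mul, zero_add]⟩

/-- From divisibility at a simple zero to divisibility by powers. -/
theorem dvd_pow_of_order {kV : ℤ} (V : ModularForm 𝒮ℒ kV) (z₀ : ℍ)
    (hV : analyticOrderAt (V ∘ ofComplex) (z₀ : ℂ) = 1)
    (hdvd : ∀ {k : ℤ} (f : ModularForm 𝒮ℒ k), f z₀ = 0 →
      ∃ g : ModularForm 𝒮ℒ (k - kV), ∀ z, f z = V z * g z)
    (m : ℕ) : ∀ {k : ℤ} (f : ModularForm 𝒮ℒ k),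
      (m : ℕ∞) ≤ analyticOrderAt (f ∘ ofComplex) (z₀ : ℂ) →
      ∃ g : ModularForm 𝒮ℒ (k - kV * m), ∀ z, f z = V z ^ m * g z := by
  induction m with
  | zero =>
    intro k f _
    exact ⟨ModularForm.mcast (by simp) f, fun z => by rw [pow_zero, one_mul]; rfl⟩
  | succ m ih =>
    intro k f hf
    have hfan : AnalyticAt ℂ (f ∘ ofComplex) (z₀ : ℂ) :=
      JLocal.analyticAt_comp_ofComplex (ModularFormClass.holo f) z₀
    have hf0 : f z₀ = 0 := by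
      have h1 : analyticOrderAt (f ∘ ofComplex) (z₀ : ℂ) ≠ 0 := by
        intro h0
        rw [h0] at hf
        simp at hf
      have := hfan.analyticOrderAt_ne_zero.mp h1
      simpa [Function.comp_apply, ofComplex_apply] using this
    obtain ⟨g₁, hg₁⟩ := hdvd f hf0
    have hVan := JLocal.analyticAt_comp_ofComplex (ModularFormClass.holo V) z₀
    have hgan := JLocal.analyticAt_comp_ofComplex (ModularFormClass.holo g₁) z₀
    have heq : (f ∘ ofComplex) = (V ∘ ofComplex) * (g₁ ∘ ofComplex) := by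
      ext w
      simp [hg₁]
    have hord : analyticOrderAt (f ∘ ofComplex) (z₀ : ℂ) =
        1 + analyticOrderAt (g₁ ∘ ofComplex) (z₀ : ℂ) := by
      rw [heq, analyticOrderAt_mul hVan hgan, hV]
    have hg₁ord : (m : ℕ∞) ≤ analyticOrderAt (g₁ ∘ ofComplex) (z₀ : ℂ) := by
      rw [hord] at hf
      push_cast at hf
      rw [add_comm (m : ℕ∞) 1] at hf
      exact (ENat.add_le_add_iff_left (ENat.one_ne_top)).mp hf
    obtain ⟨g₂, hg₂⟩ := ih g₁ hg₁ord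
    refine ⟨ModularForm.mcast (by push_cast; ring) g₂, fun z => ?_⟩
    rw [hg₁ z, hg₂ z, pow_succ]
    have : (ModularForm.mcast (by push_cast; ring : k - kV - kV * (m : ℤ) = k - kV * ((m + 1 : ℕ) : ℤ)) g₂) z = g₂ z := rfl
    rw [this]
    ring

/-! ### Simple zeros -/

theorem order_E6_of_eq_zero (z₀ : ℍ) (h : E₆ z₀ = 0) :
    analyticOrderAt (⇑E₆ ∘ ofComplex) (z₀ : ℂ) = 1 := by
  have hΔ := ModularForm.discriminant_ne_zero z₀
  have han6 := JLocal.analyticAt_comp_ofComplex (ModularFormClass.holo E₆) z₀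
  have h4 : E₄ z₀ ≠ 0 := by
    intro h4
    have := ModularForm.discriminant_eq_E₄_cube_sub_E₆_sq z₀
    rw [h, h4] at this
    exact hΔ (by rw [this]; norm_num)
  have hd : deriv (⇑E₆ ∘ ofComplex) (z₀ : ℂ) ≠ 0 := by
    rw [JLocal.deriv_comp_ofComplex, JLocal.ramanujan_E6, h]
    refine mul_ne_zero JLocal.two_pi_I_ne_zero ?_
    have : E₄ z₀ ^ 2 ≠ 0 := pow_ne_zero 2 h4
    simpa using this
  have h6 : (⇑E₆ ∘ ofComplex) (z₀ : ℂ) = 0 := by simp [ofComplex_apply, h]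
  exact han6.analyticOrderAt_eq_one_of_zero_deriv_ne_zero h6 hd

theorem order_E4_of_eq_zero (z₀ : ℍ) (h : E₄ z₀ = 0) :
    analyticOrderAt (⇑E₄ ∘ ofComplex) (z₀ : ℂ) = 1 := by
  have hΔ := ModularForm.discriminant_ne_zero z₀
  have han4 := JLocal.analyticAt_comp_ofComplex (ModularFormClass.holo E₄) z₀
  have h6 : E₆ z₀ ≠ 0 := by
    intro h6
    have := ModularForm.discriminant_eq_E₄_cube_sub_E₆_sq z₀
    rw [h, h6] at this
    exact hΔ (by rw [this]; norm_num)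
  have hd : deriv (⇑E₄ ∘ ofComplex) (z₀ : ℂ) ≠ 0 := by
    rw [JLocal.deriv_comp_ofComplex, JLocal.ramanujan_E4, h]
    refine mul_ne_zero JLocal.two_pi_I_ne_zero ?_
    simpa using h6
  have h4 : (⇑E₄ ∘ ofComplex) (z₀ : ℂ) = 0 := by simp [ofComplex_apply, h]
  exact han4.analyticOrderAt_eq_one_of_zero_deriv_ne_zero h4 hd

/-- `Lz z₀ = -1728 Δ(z₀) Δ (j - j(z₀))`. -/
theorem Lz_eq (z₀ z : ℍ) :
    Lz z₀ z = -1728 * Δ z₀ * (Δ z * (JN.jFun z - JN.jFun z₀)) := by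
  have hΔ := ModularForm.discriminant_ne_zero z
  have hΔ₀ := ModularForm.discriminant_ne_zero z₀
  have h1 := ModularForm.discriminant_eq_E₄_cube_sub_E₆_sq z
  have h2 := ModularForm.discriminant_eq_E₄_cube_sub_E₆_sq z₀
  rw [Lz_apply, JLocal.jFun_eq, JLocal.jFun_eq]
  field_simp
  rw [h1, h2]
  ring

theorem Lz_self (z₀ : ℍ) : Lz z₀ z₀ = 0 := by
  rw [Lz_apply]; ring

theorem order_Lz (z₀ : ℍ) (h4 : E₄ z₀ ≠ 0) (h6 : E₆ z₀ ≠ 0) :
    analyticOrderAt (⇑(Lz z₀) ∘ ofComplex) (z₀ : ℂ) = 1 := by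
  have hΔ₀ := ModularForm.discriminant_ne_zero z₀
  have h0 : JN.jFun z₀ ≠ 0 := fun h => h4 ((JLocal.jFun_eq_zero_iff z₀).mp h)
  have h1 : JN.jFun z₀ ≠ 1728 := fun h => h6 ((JLocal.jFun_eq_iff z₀).mp h)
  have hj := JLocal.order_jFun_generic z₀ h0 h1
  have hanΔ := JLocal.analyticAt_comp_ofComplex JLocal.mdiff_discriminant z₀
  have hanj : AnalyticAt ℂ (fun w : ℂ => JN.jFun (ofComplex w) - JN.jFun z₀) (z₀ : ℂ) :=
    (JLocal.analyticAt_comp_ofComplex JN.mdiff_jFun z₀).sub analyticAt_const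
  have hanc : AnalyticAt ℂ (fun _ : ℂ => (-1728 * Δ z₀ : ℂ)) (z₀ : ℂ) := analyticAt_const
  have hoc : analyticOrderAt (fun _ : ℂ => (-1728 * Δ z₀ : ℂ)) (z₀ : ℂ) = 0 := by
    rw [hanc.analyticOrderAt_eq_zero]
    exact mul_ne_zero (by norm_num) hΔ₀
  have hoΔ : analyticOrderAt (Δ ∘ ofComplex) (z₀ : ℂ) = 0 := by
    rw [hanΔ.analyticOrderAt_eq_zero]
    simpa [ofComplex_apply] using hΔ₀
  have heq : (⇑(Lz z₀) ∘ ofComplex) = (fun _ : ℂ => (-1728 * Δ z₀ : ℂ)) *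
      ((Δ ∘ ofComplex) * (fun w : ℂ => JN.jFun (ofComplex w) - JN.jFun z₀)) := by
    ext w
    simp only [Function.comp_apply, Pi.mul_apply]
    exact Lz_eq z₀ (ofComplex w)
  rw [heq, analyticOrderAt_mul hanc (hanΔ.mul hanj), analyticOrderAt_mul hanΔ hanj, hoc, hoΔ, hj]
  simp

/-! ### Monomial reductions -/

theorem monoFun_apply (a b : ℕ) (z : ℍ) : LevelOne.monoFun a b z = E₄ z ^ a * E₆ z ^ b := rfl

theorem monoForm_apply {k : ℤ} (a b : ℕ) (h : (4 * (a : ℤ) + 6 * (b : ℤ)) = k) (z : ℍ) :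
    LevelOne.monoForm a b h z = E₄ z ^ a * E₆ z ^ b := by
  have := congrFun (LevelOne.coe_monoForm a b h) z
  rw [this, monoFun_apply]

theorem mono_E6 (k : ℤ) (a b : ℕ) (hab : 4 * (a : ℤ) + 6 * (b : ℤ) = k) :
    ∃ (c : ℂ) (g : ModularForm 𝒮ℒ (k - 6)),
      ∀ z, LevelOne.monoFun a b z = c * (E₄ z ^ (k.toNat / 4)) + E₆ z * g z := by
  rcases Nat.eq_zero_or_pos b with hb | hb
  · subst hb
    refine ⟨1, 0, fun z => ?_⟩
    have ha : k.toNat / 4 = a := by omega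
    rw [monoFun_apply, ha]
    simp
  · obtain ⟨b', rfl⟩ : ∃ b', b = b' + 1 := ⟨b - 1, by omega⟩
    refine ⟨0, LevelOne.monoForm a b' (by push_cast at hab; linarith), fun z => ?_⟩
    rw [monoFun_apply, monoForm_apply]
    ring

theorem mono_E4 (k : ℤ) (a b : ℕ) (hab : 4 * (a : ℤ) + 6 * (b : ℤ) = k) :
    ∃ (c : ℂ) (g : ModularForm 𝒮ℒ (k - 4)),
      ∀ z, LevelOne.monoFun a b z = c * (E₆ z ^ (k.toNat / 6)) + E₄ z * g z := by
  rcases Nat.eq_zero_or_pos a with ha | ha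
  · subst ha
    refine ⟨1, 0, fun z => ?_⟩
    have hb : k.toNat / 6 = b := by omega
    rw [monoFun_apply, hb]
    simp
  · obtain ⟨a', rfl⟩ : ∃ a', a = a' + 1 := ⟨a - 1, by omega⟩
    refine ⟨0, LevelOne.monoForm a' b (by push_cast at hab; linarith), fun z => ?_⟩
    rw [monoFun_apply, monoForm_apply]
    ring

/-- The reduced monomial of weight `k` (exponent of `E₄` at most `2`). -/
def redFun (k : ℤ) (z : ℍ) : ℂ :=
  E₄ z ^ ((-(k / 2)) % 3).toNat * E₆ z ^ ((k - 4 * ((-(k / 2)) % 3)) / 6).toNat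

theorem mono_Lz (z₀ : ℍ) (h6 : E₆ z₀ ≠ 0) (k : ℤ) : ∀ (a b : ℕ), 4 * (a : ℤ) + 6 * (b : ℤ) = k →
    ∃ (c : ℂ) (g : ModularForm 𝒮ℒ (k - 12)),
      ∀ z, LevelOne.monoFun a b z = c * redFun k z + Lz z₀ z * g z := by
  intro a
  induction a using Nat.strong_induction_on with
  | _ a ih =>
    intro b hab
    rcases Nat.lt_or_ge a 3 with ha | ha
    · refine ⟨1, 0, fun z => ?_⟩
      have h1 : ((-(k / 2)) % 3).toNat = a := by omega
      have h2 : ((k - 4 * ((-(k / 2)) % 3)) / 6).toNat = b := by omega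
      rw [monoFun_apply, redFun, h1, h2]
      simp
    · obtain ⟨a', rfl⟩ : ∃ a', a = a' + 3 := ⟨a - 3, by omega⟩
      obtain ⟨c', g', h'⟩ := ih a' (by omega) (b + 2) (by push_cast at hab ⊢; linarith)
      have h62 : E₆ z₀ ^ 2 ≠ 0 := pow_ne_zero 2 h6
      refine ⟨E₄ z₀ ^ 3 / E₆ z₀ ^ 2 * c',
        (1 / E₆ z₀ ^ 2) • LevelOne.monoForm a' b (by push_cast at hab; linarith) +
          (E₄ z₀ ^ 3 / E₆ z₀ ^ 2) • g', fun z => ?_⟩
      have e : ((1 / E₆ z₀ ^ 2) • LevelOne.monoForm a' b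
          (by push_cast at hab; linarith : 4 * (a' : ℤ) + 6 * (b : ℤ) = k - 12) +
          (E₄ z₀ ^ 3 / E₆ z₀ ^ 2) • g') z =
          (1 / E₆ z₀ ^ 2) * LevelOne.monoForm a' b
            (by push_cast at hab; linarith : 4 * (a' : ℤ) + 6 * (b : ℤ) = k - 12) z +
          (E₄ z₀ ^ 3 / E₆ z₀ ^ 2) * g' z := rfl
      have h'z := h' z
      rw [monoFun_apply] at h'z
      rw [e, monoForm_apply, monoFun_apply, Lz_apply]
      field_simp
      have : E₄ z₀ ^ 3 * (E₄ z ^ a' * E₆ z ^ (b + 2)) =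
          E₄ z₀ ^ 3 * (c' * redFun k z + Lz z₀ z * g' z) := by rw [h'z]
      rw [Lz_apply] at this
      linear_combination this

/-! ### The divisibility statements -/

/-- Divisibility of level one forms vanishing to order `≥ m` at a generic point. -/
theorem dvd_Lz_pow (z₀ : ℍ) (h4 : E₄ z₀ ≠ 0) (h6 : E₆ z₀ ≠ 0) {k : ℤ} (f : ModularForm 𝒮ℒ k) (m : ℕ)
    (hf : (m : ℕ∞) ≤ analyticOrderAt (f ∘ ofComplex) (z₀ : ℂ)) :
    ∃ g : ModularForm 𝒮ℒ (k - 12 * m), ∀ z, f z = Lz z₀ z ^ m * g z :=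
  dvd_pow_of_order (Lz z₀) z₀ (order_Lz z₀ h4 h6)
    (fun f hf0 => dvd_of_eval (Lz z₀) redFun z₀ (Lz_self z₀)
      (fun _ => mul_ne_zero (pow_ne_zero _ h4) (pow_ne_zero _ h6)) (mono_Lz z₀ h6) f hf0) m f hf

theorem dvd_E6_pow {k : ℤ} (f : ModularForm 𝒮ℒ k) (m : ℕ)
    (hf : (m : ℕ∞) ≤ analyticOrderAt (f ∘ ofComplex) ((I : ℍ) : ℂ)) :
    ∃ g : ModularForm 𝒮ℒ (k - 6 * m), ∀ z, f z = E₆ z ^ m * g z :=
  dvd_pow_of_order E₆ I (order_E6_of_eq_zero I E6_I)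
    (fun f hf0 => dvd_of_eval E₆ (fun k z => E₄ z ^ (k.toNat / 4)) I E6_I
      (fun _ => pow_ne_zero _ E4_I) mono_E6 f hf0) m f hf

theorem dvd_E4_pow {k : ℤ} (f : ModularForm 𝒮ℒ k) (m : ℕ)
    (hf : (m : ℕ∞) ≤ analyticOrderAt (f ∘ ofComplex) ((rho : ℍ) : ℂ)) :
    ∃ g : ModularForm 𝒮ℒ (k - 4 * m), ∀ z, f z = E₄ z ^ m * g z :=
  dvd_pow_of_order E₄ rho (order_E4_of_eq_zero rho E4_rho)
    (fun f hf0 => dvd_of_eval E₄ (fun k z => E₆ z ^ (k.toNat / 6)) rho E4_rho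
      (fun _ => pow_ne_zero _ E6_rho) mono_E4 f hf0) m f hf

end LevelOneDiv

end Fermat.Agent.S20.Frame
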