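/-
S20 (frame route), piece QUOT, part 1: division of a modular form on `Γ₀(N)` by a level one form.

* `Quot.exists_of_holo_mul`: if `G = v * g` with `G` a form on `Γ₀(N)`, `v` a level one form with
  a nonzero limit at `i∞` and `g` holomorphic, then `g` is a modular form on `Γ₀(N)`.
* `Quot.div_of_levelOne`: generic division (Vieta + division lemma): if all translates of `G`
  vanish at `z₀` and level one forms vanishing to order `m` at `z₀` are divisible by `v ^ m`,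
  then `G` is divisible by `v`.
* `Quot.div_E4_of_mul`, `Quot.div_Delta`.
-/
import Mathlib
import Fermat.Agent.S20.Frame.Defs
import Fermat.Agent.S23.NormPoly
import Fermat.Agent.S23.Division
import Fermat.Agent.S24.JLocal

set_option autoImplicit false

open UpperHalfPlane ModularForm CongruenceSubgroup Matrix.SpecialLinearGroup EisensteinSeries Filter
open scoped MatrixGroups ModularForm Manifold Topology

noncomputable section

namespace Fermat.Agent.S20.Frame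

local notation "Δ" => ModularForm.discriminant

variable {N : ℕ} [NeZero N]

namespace Quot

open Fermat.Agent.S23 Fermat.Agent.S24

/-- A holomorphic function which is slash invariant under `Γ₀(N)` and all of whose
`SL(2, ℤ)`-translates are bounded at `i∞` is a modular form on `Γ₀(N)`. -/
theorem exists_modularForm {k : ℤ} (g : ℍ → ℂ) (hg : MDiff g)
    (hslash : ∀ γ : SL(2, ℤ), γ ∈ Gamma0 N → g ∣[k] γ = g)
    (hbdd : ∀ γ : SL(2, ℤ), IsBoundedAtImInfty (g ∣[k] γ)) :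
    ∃ G : ModularForm (G0 N) k, ∀ z, G z = g z := by
  refine ⟨{ toFun := g
            slash_action_eq' := ?_
            holo' := hg
            bdd_at_cusps' := ?_ }, fun _ => rfl⟩
  · intro γ hγ
    obtain ⟨γ', hγ', rfl⟩ := Subgroup.mem_map.mp hγ
    exact hslash γ' hγ'
  · intro x hx
    have hx' : IsCusp x 𝒮ℒ := (Subgroup.IsArithmetic.isCusp_iff_isCusp_SL2Z (G0 N)).mp hx
    rw [OnePoint.isBoundedAt_iff_forall_SL2Z hx']
    intro γ _
    exact hbdd γ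

/-- All `SL(2, ℤ)`-translates of a modular form on `Γ₀(N)` are bounded at `i∞`. -/
theorem isBoundedAtImInfty_slash {k : ℤ} (G : ModularForm (G0 N) k) (γ : SL(2, ℤ)) :
    IsBoundedAtImInfty ((⇑G : ℍ → ℂ) ∣[k] γ) := by
  have hc : IsCusp (mapGL ℝ γ • OnePoint.infty) 𝒮ℒ := isCusp_SL2Z_iff'.mpr ⟨γ, rfl⟩
  have hc' : IsCusp (mapGL ℝ γ • OnePoint.infty) (G0 N) :=
    (Subgroup.IsArithmetic.isCusp_iff_isCusp_SL2Z (G0 N)).mpr hc
  exact (OnePoint.isBoundedAt_iff_forall_SL2Z hc).mp (G.bdd_at_cusps' hc') γ rfl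

/-- If `G = v * g` with `G` a modular form on `Γ₀(N)`, `v` a level one form with a nonzero limit
at `i∞` and `g` holomorphic, then `g` is a modular form on `Γ₀(N)`. -/
theorem exists_of_holo_mul {k kv : ℤ} (G : ModularForm (G0 N) k) (v : ModularForm 𝒮ℒ kv)
    (g : ℍ → ℂ) (hg : MDiff g) (hGv : ∀ z, G z = v z * g z) (c : ℂ) (hc : c ≠ 0)
    (hv : Tendsto (fun z : ℍ => v z) atImInfty (𝓝 c)) :
    ∃ g' : ModularForm (G0 N) (k - kv), ∀ z, G z = v z * g' z := by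
  have hGv' : (⇑G : ℍ → ℂ) = ⇑v * g := funext hGv
  have hsl : ∀ γ : SL(2, ℤ), (⇑G : ℍ → ℂ) ∣[k] γ = ⇑v * (g ∣[k - kv] γ) := by
    intro γ
    have h1 : (⇑v * g) ∣[kv + (k - kv)] γ = (⇑v ∣[kv] γ) * (g ∣[k - kv] γ) :=
      ModularForm.mul_slash_SL2 kv (k - kv) γ _ _
    have h2 : (⇑v : ℍ → ℂ) ∣[kv] γ = ⇑v := v.slash_action_eq' _ ⟨γ, rfl⟩
    have h3 : (⇑G : ℍ → ℂ) ∣[k] γ = (⇑v * g) ∣[kv + (k - kv)] γ := by
      rw [hGv']
      congr 1
      ring
    rw [h3, h1, h2]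
  obtain ⟨z₁, hz₁⟩ : ∃ z : ℍ, v z ≠ 0 := (hv.eventually_ne hc).exists
  have hvd : MDiff (⇑v : ℍ → ℂ) := v.holo'
  have hslash : ∀ γ : SL(2, ℤ), γ ∈ Gamma0 N → g ∣[k - kv] γ = g := by
    intro γ hγ
    have h1 : (⇑G : ℍ → ℂ) ∣[k] γ = ⇑G := G.slash_action_eq' _ (Subgroup.mem_map_of_mem _ hγ)
    have h2 : (⇑v : ℍ → ℂ) * (g ∣[k - kv] γ - g) = 0 := by
      rw [mul_sub, ← hsl γ, h1, hGv', sub_self]
    rcases (UpperHalfPlane.mul_eq_zero_iff hvd ((hg.slash _ _).sub hg)).mp h2 with h3 | h3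
    · exact absurd (congrFun h3 z₁) hz₁
    · exact sub_eq_zero.mp h3
  have hbdd : ∀ γ : SL(2, ℤ), IsBoundedAtImInfty (g ∣[k - kv] γ) := by
    intro γ
    have hb : IsBoundedAtImInfty ((⇑G : ℍ → ℂ) ∣[k] γ) := isBoundedAtImInfty_slash G γ
    have hvinv : Tendsto (fun z : ℍ => (v z)⁻¹) atImInfty (𝓝 c⁻¹) := hv.inv₀ hc
    have hb2 : IsBoundedAtImInfty (fun z : ℍ => (v z)⁻¹) := hvinv.isBigO_one ℝ
    have hprod := Filter.BoundedAtFilter.mul hb hb2
    refine Asymptotics.IsBigO.congr' hprod ?_ EventuallyEq.rfl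
    filter_upwards [hv.eventually_ne hc] with z hz
    simp only [Pi.mul_apply]
    rw [hsl γ]
    simp only [Pi.mul_apply]
    field_simp
  obtain ⟨g', hg'⟩ := exists_modularForm (N := N) (k := k - kv) g hg hslash hbdd
  exact ⟨g', fun z => by rw [hGv z, hg' z]⟩

theorem mdiff_discriminant : MDiff (Δ : ℍ → ℂ) := CuspForm.discriminant.holo'

/-- Regular sequence (no common zeros of `E₄`, `E₆`). -/
theorem div_E4_of_mul {k : ℤ} (f : ModularForm (G0 N) k) (g : ModularForm (G0 N) (k + 2))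
    (h : ∀ z, E₆ z * f z = E₄ z * g z) :
    ∃ f' : ModularForm (G0 N) (k - 4), ∀ z, f z = E₄ z * f' z := by
  have hE4 : MDiff (⇑E₄ : ℍ → ℂ) := E₄.holo'
  have hE6 : MDiff (⇑E₆ : ℍ → ℂ) := E₆.holo'
  have hf : MDiff (⇑f : ℍ → ℂ) := f.holo'
  have hg : MDiff (⇑g : ℍ → ℂ) := g.holo'
  have hnum : MDiff (⇑E₄ * ⇑E₄ * ⇑f - ⇑E₆ * ⇑g : ℍ → ℂ) := ((hE4.mul hE4).mul hf).sub (hE6.mul hg)
  have hden : MDiff ((fun _ : ℍ => (1728 : ℂ)) * Δ : ℍ → ℂ) :=
    mdifferentiable_const.mul mdiff_discriminant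
  have hq : MDiff ((⇑E₄ * ⇑E₄ * ⇑f - ⇑E₆ * ⇑g) / ((fun _ : ℍ => (1728 : ℂ)) * Δ) : ℍ → ℂ) :=
    hnum.div hden (fun z => mul_ne_zero (by norm_num) (discriminant_ne_zero z))
  refine exists_of_holo_mul f E₄ _ hq (fun z => ?_) 1 one_ne_zero JLocal.tendsto_E4
  have hΔ := discriminant_eq_E₄_cube_sub_E₆_sq z
  have hΔ0 := discriminant_ne_zero z
  simp only [Pi.div_apply, Pi.sub_apply, Pi.mul_apply]
  field_simp
  rw [hΔ]
  linear_combination (-(E₆ z)) * h z

/-- Division by `Δ` of a form all of whose translates decay like `q`. -/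
theorem div_Delta {k : ℤ} (G : ModularForm (G0 N) k)
    (hG : ∀ q : Q N, (tr G q) =O[atImInfty] (fun z : ℍ => Real.exp (-2 * Real.pi * z.im))) :
    ∃ g : ModularForm (G0 N) (k - 12), ∀ z, G z = Δ z * g z := by
  have hGd : MDiff (⇑G : ℍ → ℂ) := G.holo'
  have hq : MDiff (⇑G / Δ : ℍ → ℂ) := hGd.div mdiff_discriminant discriminant_ne_zero
  have hΔs : ∀ γ : SL(2, ℤ), (Δ : ℍ → ℂ) ∣[(12 : ℤ)] γ = Δ := fun γ =>
    CuspForm.discriminant.slash_action_eq' _ ⟨γ, rfl⟩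
  have hsl : ∀ γ : SL(2, ℤ), (⇑G / Δ : ℍ → ℂ) ∣[k - 12] γ = ((⇑G : ℍ → ℂ) ∣[k] γ) / Δ := by
    intro γ
    rw [ModularForm.div_slash_SL2, hΔs]
  have hslash : ∀ γ : SL(2, ℤ), γ ∈ Gamma0 N → (⇑G / Δ : ℍ → ℂ) ∣[k - 12] γ = ⇑G / Δ := by
    intro γ hγ
    rw [hsl γ]
    congr 1
    exact G.slash_action_eq' _ (Subgroup.mem_map_of_mem _ hγ)
  have hbdd : ∀ γ : SL(2, ℤ), IsBoundedAtImInfty ((⇑G / Δ : ℍ → ℂ) ∣[k - 12] γ) := by
    intro γ
    rw [hsl γ]
    have h1 : (⇑G : ℍ → ℂ) ∣[k] γ = tr G (⟦(toSL γ)⁻¹⟧ : Q N) := by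
      rw [tr, SlashInvariantForm.quotientFunc_mk]
      simp [toSL]
      rfl
    have h2 : ((⇑G : ℍ → ℂ) ∣[k] γ) =O[atImInfty] (Δ : ℍ → ℂ) := by
      rw [h1]
      exact (hG _).trans exp_isBigO_discriminant
    exact (Asymptotics.div_isBoundedUnder_of_isBigO h2).isBigO_one ℝ
  obtain ⟨g, hg⟩ := exists_modularForm (N := N) (k := k - 12) _ hq hslash hbdd
  refine ⟨g, fun z => ?_⟩
  rw [hg z, Pi.div_apply, mul_div_cancel₀ _ (discriminant_ne_zero z)]

/-! ### Division via Vieta and the division lemma -/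

theorem esymmFun_zero {k : ℤ} (G : ModularForm (G0 N) k) (z : ℍ) :
    NormPoly.esymmFun 𝒮ℒ G 0 z = 1 := by
  classical
  let := Fintype.ofFinite (Q N)
  rw [NormPoly.esymmFun_apply]
  simp

/-- If the elementary symmetric functions `e_m` of the translates of `G` are of the form
`v ^ m * c_m` with `c_m` continuous, then `G = v * g` with `g` holomorphic. -/
theorem exists_holo_of_esymm {k : ℤ} (G : ModularForm (G0 N) k) (v : ℍ → ℂ) (hv : MDiff v)
    (hv0 : ∃ z, v z ≠ 0) (c : ℕ → ℍ → ℂ) (hc : ∀ m, Continuous (c m))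
    (hdvd : ∀ m z, NormPoly.esymmFun 𝒮ℒ G m z = v z ^ m * c m z) :
    ∃ g : ℍ → ℂ, MDiff g ∧ ∀ z, G z = v z * g z := by
  set μ : ℕ := Nat.card (Q N) with hμ
  have hGd : MDiff (⇑G : ℍ → ℂ) := G.holo'
  have key : ∀ z : ℍ, G z ^ μ + ∑ m : Fin μ,
      ((-1 : ℂ) ^ ((m : ℕ) + 1) * c ((m : ℕ) + 1) z) * G z ^ (μ - 1 - (m : ℕ)) *
        v z ^ ((m : ℕ) + 1) = 0 := by
    intro z
    have h := NormPoly.sum_esymmFun_mul_pow_eq_zero (ℋ := 𝒮ℒ) G z
    rw [Finset.sum_range_succ', esymmFun_zero] at h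
    rw [Fin.sum_univ_eq_sum_range (fun m : ℕ => ((-1 : ℂ) ^ (m + 1) * c (m + 1) z) *
      G z ^ (μ - 1 - m) * v z ^ (m + 1)) μ]
    have h0 : (-1 : ℂ) ^ 0 * 1 * G z ^ (Nat.card (Q N) - 0) = G z ^ μ := by simp [hμ]
    rw [h0] at h
    rw [← h, add_comm]
    congr 1
    refine Finset.sum_congr rfl fun m _ => ?_
    rw [hdvd (m + 1) z, Nat.sub_sub, add_comm 1 m]
    ring
  obtain ⟨g, hg, hgv, -⟩ := Division.exists_holo_quotient_upperHalfPlane (⇑G : ℍ → ℂ) v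
    (fun m z => (-1 : ℂ) ^ ((m : ℕ) + 1) * c ((m : ℕ) + 1) z) hGd hv
    (fun m => continuous_const.mul (hc _)) hv0 key
  exact ⟨g, hg, fun z => by rw [hgv z, mul_comm]⟩

omit [NeZero N] in
theorem analyticAt_tr {k : ℤ} (G : ModularForm (G0 N) k) (q : Q N) (z₀ : ℍ) :
    AnalyticAt ℂ (tr G q ∘ ofComplex) (z₀ : ℂ) := by
  have h := UpperHalfPlane.mdifferentiable_iff.mp (NormPoly.mdiff_quotientFunc 𝒮ℒ G q)
  exact h.analyticAt (isOpen_upperHalfPlaneSet.mem_nhds z₀.im_pos)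

/-- If all translates of `G` vanish at `z₀`, then the `m`-th elementary symmetric function of
the translates vanishes to order at least `m` at `z₀`. -/
theorem le_analyticOrderAt_esymm {k : ℤ} (G : ModularForm (G0 N) k) (z₀ : ℍ)
    (hG : ∀ q : Q N, tr G q z₀ = 0) (m : ℕ) :
    (m : ℕ∞) ≤ analyticOrderAt (NormPoly.esymmFun 𝒮ℒ G m ∘ ofComplex) (z₀ : ℂ) := by
  classical
  let := Fintype.ofFinite (Q N)
  have hone : ∀ q : Q N, (1 : ℕ∞) ≤ analyticOrderAt (tr G q ∘ ofComplex) (z₀ : ℂ) := by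
    intro q
    rw [Order.one_le_iff_ne_zero, (analyticAt_tr G q z₀).analyticOrderAt_ne_zero]
    simp [hG q]
  have hprod : ∀ t : Finset (Q N),
      AnalyticAt ℂ (fun w : ℂ => ∏ q ∈ t, (tr G q ∘ ofComplex) w) (z₀ : ℂ) ∧
      (t.card : ℕ∞) ≤ analyticOrderAt (fun w : ℂ => ∏ q ∈ t, (tr G q ∘ ofComplex) w) (z₀ : ℂ) := by
    intro t
    induction t using Finset.induction_on with
    | empty => exact ⟨by simpa using analyticAt_const, by simp⟩
    | insert a t ha ih =>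
      have e : (fun w : ℂ => ∏ q ∈ insert a t, (tr G q ∘ ofComplex) w) =
          (tr G a ∘ ofComplex) * (fun w : ℂ => ∏ q ∈ t, (tr G q ∘ ofComplex) w) := by
        funext w
        rw [Finset.prod_insert ha]
        rfl
      rw [e]
      refine ⟨(analyticAt_tr G a z₀).mul ih.1, ?_⟩
      rw [analyticOrderAt_mul (analyticAt_tr G a z₀) ih.1, Finset.card_insert_of_notMem ha,
        Nat.cast_add, Nat.cast_one, add_comm]
      exact add_le_add (hone a) ih.2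
  have hsum : ∀ S : Finset (Finset (Q N)), (∀ t ∈ S, t.card = m) →
      (m : ℕ∞) ≤ analyticOrderAt
        (fun w : ℂ => ∑ t ∈ S, ∏ q ∈ t, (tr G q ∘ ofComplex) w) (z₀ : ℂ) := by
    intro S
    induction S using Finset.induction_on with
    | empty =>
      intro _
      have : analyticOrderAt (fun _ : ℂ => (0 : ℂ)) (z₀ : ℂ) = ⊤ :=
        analyticOrderAt_eq_top.mpr (Filter.Eventually.of_forall fun _ => rfl)
      simp [this]
    | insert a S ha ih =>
      intro hS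
      have e : (fun w : ℂ => ∑ t ∈ insert a S, ∏ q ∈ t, (tr G q ∘ ofComplex) w) =
          (fun w : ℂ => ∏ q ∈ a, (tr G q ∘ ofComplex) w) +
            (fun w : ℂ => ∑ t ∈ S, ∏ q ∈ t, (tr G q ∘ ofComplex) w) := by
        funext w
        rw [Finset.sum_insert ha]
        rfl
      rw [e]
      refine le_trans (le_min ?_ ?_) le_analyticOrderAt_add
      · rw [← hS a (Finset.mem_insert_self _ _)]
        exact (hprod a).2
      · exact ih fun t ht => hS t (Finset.mem_insert_of_mem ht)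
  have e : NormPoly.esymmFun 𝒮ℒ G m ∘ ofComplex = fun w : ℂ =>
      ∑ t ∈ (Finset.univ : Finset (Q N)).powersetCard m, ∏ q ∈ t, (tr G q ∘ ofComplex) w := by
    funext w
    simp only [Function.comp_apply]
    rw [NormPoly.esymmFun_apply]
  rw [e]
  exact hsum _ fun t ht => (Finset.mem_powersetCard_univ.1 ht)

/-- **Generic division**: let `v` be a level one form with a nonzero limit at `i∞` such that
every level one form vanishing to order `≥ m` at `z₀` is divisible by `v ^ m`. Then a form on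
`Γ₀(N)` all of whose translates vanish at `z₀` is divisible by `v`. -/
theorem div_of_levelOne {kv : ℤ} (v : ModularForm 𝒮ℒ kv) (z₀ : ℍ) (c : ℂ) (hc : c ≠ 0)
    (hv : Tendsto (fun z : ℍ => v z) atImInfty (𝓝 c))
    (hdvd : ∀ (k : ℤ) (f : ModularForm 𝒮ℒ k) (m : ℕ),
      (m : ℕ∞) ≤ analyticOrderAt (f ∘ ofComplex) (z₀ : ℂ) →
        ∃ g : ModularForm 𝒮ℒ (k - kv * m), ∀ z, f z = v z ^ m * g z)
    {k : ℤ} (G : ModularForm (G0 N) k) (hG : ∀ q : Q N, tr G q z₀ = 0) :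
    ∃ g : ModularForm (G0 N) (k - kv), ∀ z, G z = v z * g z := by
  have hex : ∀ m : ℕ, ∃ g : ModularForm 𝒮ℒ (k * m - kv * m),
      ∀ z, NormPoly.esymmMF 𝒮ℒ G m z = v z ^ m * g z := fun m =>
    hdvd (k * m) (NormPoly.esymmMF 𝒮ℒ G m) m (le_analyticOrderAt_esymm G z₀ hG m)
  choose cf hcf using hex
  obtain ⟨z₁, hz₁⟩ : ∃ z : ℍ, v z ≠ 0 := (hv.eventually_ne hc).exists
  obtain ⟨g, hg, hGg⟩ := exists_holo_of_esymm G (⇑v) v.holo' ⟨z₁, hz₁⟩ (fun m => ⇑(cf m))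
    (fun m => (cf m).holo'.continuous) (fun m z => hcf m z)
  exact exists_of_holo_mul G v g hg hGg c hc hv

end Quot

end Fermat.Agent.S20.Frame
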