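/-
S20 (frame route), piece QUOT, part 2: division of a `Γ₀(N)`-form all of whose translates vanish
at a point by the level one forms `Lz z₀`, `E₆`, `E₄`
(`Quot.div_E4_of_mul` and `Quot.div_Delta` are in `QuotCore.lean`).
-/
import Mathlib
import Fermat.Agent.S20.Frame.Defs
import Fermat.Agent.S20.Frame.LevelOneDiv
import Fermat.Agent.S20.Frame.QuotCore

set_option autoImplicit false

open UpperHalfPlane ModularForm CongruenceSubgroup Matrix.SpecialLinearGroup EisensteinSeries Filter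
open scoped MatrixGroups ModularForm Manifold Topology

noncomputable section

namespace Fermat.Agent.S20.Frame

local notation "Δ" => ModularForm.discriminant

variable {N : ℕ} [NeZero N]

namespace Quot

open Fermat.Agent.S23 Fermat.Agent.S24

/-- The limit of `Lz z₀` at `i∞`. -/
theorem tendsto_Lz (z₀ : ℍ) :
    Tendsto (fun z : ℍ => LevelOneDiv.Lz z₀ z) atImInfty (𝓝 (E₆ z₀ ^ 2 - E₄ z₀ ^ 3)) := by
  have h4 := JLocal.tendsto_E4
  have h6 := JLocal.tendsto_E6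
  have h := ((h4.pow 3).const_mul (E₆ z₀ ^ 2)).sub ((h6.pow 2).const_mul (E₄ z₀ ^ 3))
  simp only [one_pow, mul_one] at h
  refine h.congr fun z => ?_
  rw [LevelOneDiv.Lz_apply]

theorem div_Lz (z₀ : ℍ) (h4 : E₄ z₀ ≠ 0) (h6 : E₆ z₀ ≠ 0) {k : ℤ} (G : ModularForm (G0 N) k)
    (hG : ∀ q : Q N, tr G q z₀ = 0) :
    ∃ g : ModularForm (G0 N) (k - 12), ∀ z, G z = LevelOneDiv.Lz z₀ z * g z := by
  have hne : E₆ z₀ ^ 2 - E₄ z₀ ^ 3 ≠ 0 := by
    have hΔ := discriminant_eq_E₄_cube_sub_E₆_sq z₀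
    have hΔ0 := discriminant_ne_zero z₀
    intro h0
    apply hΔ0
    rw [hΔ]
    linear_combination (-1 / 1728 : ℂ) * h0
  exact div_of_levelOne (LevelOneDiv.Lz z₀) z₀ _ hne (tendsto_Lz z₀)
    (fun _ f m hf => LevelOneDiv.dvd_Lz_pow z₀ h4 h6 f m hf) G hG

theorem div_E6 {k : ℤ} (G : ModularForm (G0 N) k) (hG : ∀ q : Q N, tr G q I = 0) :
    ∃ g : ModularForm (G0 N) (k - 6), ∀ z, G z = E₆ z * g z :=
  div_of_levelOne E₆ I 1 one_ne_zero JLocal.tendsto_E6
    (fun _ f m hf => LevelOneDiv.dvd_E6_pow f m hf) G hG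

theorem div_E4 {k : ℤ} (G : ModularForm (G0 N) k) (hG : ∀ q : Q N, tr G q rho = 0) :
    ∃ g : ModularForm (G0 N) (k - 4), ∀ z, G z = E₄ z * g z :=
  div_of_levelOne E₄ rho 1 one_ne_zero JLocal.tendsto_E4
    (fun _ f m hf => LevelOneDiv.dvd_E4_pow f m hf) G hG

end Quot

end Fermat.Agent.S20.Frame
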