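/-
S20, Frame route, piece GEN: the rows `(tr (F i) q z₀)_q` of a frame are linearly independent at
every point `z₀` with `E₄ z₀ ≠ 0` and `E₆ z₀ ≠ 0`.
-/
import Mathlib
import Fermat.Agent.S20.Frame.Defs
import Fermat.Agent.S20.Frame.GenericCore
import Fermat.Agent.S20.Frame.Quot
import Fermat.Prelude.Def_ModularCurve_GenusNumerics

set_option autoImplicit false

open UpperHalfPlane ModularForm CongruenceSubgroup Matrix.SpecialLinearGroup EisensteinSeries
open scoped MatrixGroups ModularForm Manifold Topology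

noncomputable section

namespace Fermat.Agent.S20.Frame

local notation "Δ" => ModularForm.discriminant

variable {N : ℕ} [NeZero N]

variable {n : ℕ} {w : Fin n → ℤ} {F : (i : Fin n) → ModularForm (G0 N) (w i)}

/-! ### GEN (file Generic.lean) -/
theorem indep_generic (hF : IsFrame N w F) (z₀ : ℍ) (h4 : E₄ z₀ ≠ 0) (h6 : E₆ z₀ ≠ 0)
    (c : Fin n → ℂ) (hc : ∀ q : Q N, ∑ i, c i * tr (F i) q z₀ = 0) : c = 0 :=
  Generic.indep_generic_of_div hF z₀ h4 h6 (LevelOneDiv.Lz z₀)
    (by rw [LevelOneDiv.Lz_apply]; ring)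
    (fun _ G hG => Quot.div_Lz z₀ h4 h6 G hG) c hc

end Fermat.Agent.S20.Frame
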