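/-
S20 Frame route, piece CARD: the number of elements of a frame is the index
`#(SL(2,ℤ) / Γ₀(N))` (`CardCore` + GEN's `indep_generic`).
-/
import Mathlib
import Fermat.Agent.S20.Frame.Defs
import Fermat.Agent.S20.Frame.CardCore
import Fermat.Agent.S20.Frame.Generic
import Fermat.Prelude.Def_ModularCurve_GenusNumerics

set_option autoImplicit false

open UpperHalfPlane ModularForm CongruenceSubgroup Matrix.SpecialLinearGroup EisensteinSeries
open scoped MatrixGroups ModularForm Manifold Topology

noncomputable section

namespace Fermat.Agent.S20.Frame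

variable {N : ℕ} [NeZero N]

variable {n : ℕ} {w : Fin n → ℤ} {F : (i : Fin n) → ModularForm (G0 N) (w i)}

/-- CARD: a frame has exactly `#(SL(2,ℤ) / Γ₀(N))` elements. -/
theorem frame_card (hF : IsFrame N w F) : n = Nat.card (Q N) :=
  Card.frame_card_of_indep hF (fun z₀ h4 h6 c hc => indep_generic hF z₀ h4 h6 c hc)

end Fermat.Agent.S20.Frame

end
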