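/-
S20 Frame route, piece COMB: the combinatorial invariants of the coset space
`Q N = 𝒮ℒ ⧸ Γ₀(N)` (index, fixed points of `S` and `U = S T`, number of `T`-orbits),
transferred from the computations on `SL(2, ℤ) ⧸ Γ₀(N)` in `Fermat.Agent.S24.Comb`.
-/
import Mathlib
import Fermat.Agent.S20.Frame.Defs
import Fermat.Prelude.Def_ModularCurve_GenusNumerics
import Fermat.Agent.S24.CombIndex
import Fermat.Agent.S24.CombCusp

set_option autoImplicit false

open UpperHalfPlane ModularForm CongruenceSubgroup Matrix.SpecialLinearGroup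

open scoped MatrixGroups ModularForm Manifold Topology

noncomputable section

namespace Fermat.Agent.S20.Frame

namespace Comb

theorem toSL_mul (g h : SL(2, ℤ)) : toSL (g * h) = toSL g * toSL h := by
  apply Subtype.ext
  simp [toSL]

theorem toSL_one : toSL 1 = 1 := by
  apply Subtype.ext
  simp [toSL]

theorem toSL_injective : Function.Injective toSL := by
  intro g h hgh
  have : mapGL ℝ g = mapGL ℝ h := congrArg Subtype.val hgh
  exact mapGL_injective this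

theorem toSL_surjective : Function.Surjective toSL := by
  rintro ⟨x, g, rfl⟩
  exact ⟨g, rfl⟩

/-- `SL(2, ℤ) ≃* 𝒮ℒ`. -/
def toSLEquiv : SL(2, ℤ) ≃* 𝒮ℒ :=
  MulEquiv.ofBijective (MonoidHom.mk' toSL toSL_mul) ⟨toSL_injective, toSL_surjective⟩

@[simp] theorem toSLEquiv_apply (g : SL(2, ℤ)) : toSLEquiv g = toSL g := rfl

theorem toSL_mem_iff (N : ℕ) (g : SL(2, ℤ)) :
    toSL g ∈ (G0 N).subgroupOf 𝒮ℒ ↔ g ∈ Gamma0 N := by
  rw [Subgroup.mem_subgroupOf]
  constructor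
  · rintro ⟨h, hh, hgh⟩
    have : h = g := mapGL_injective hgh
    exact this ▸ hh
  · intro hg
    exact ⟨g, hg, rfl⟩

/-- The bijection `SL(2, ℤ) ⧸ Γ₀(N) ≃ Q N` induced by `SL(2, ℤ) ≃* 𝒮ℒ`. -/
def cosetEquiv (N : ℕ) : SL(2, ℤ) ⧸ Gamma0 N ≃ Q N :=
  Quotient.congr toSLEquiv.toEquiv (by
    intro a b
    rw [QuotientGroup.leftRel_apply, QuotientGroup.leftRel_apply]
    change _ ↔ (toSL a)⁻¹ * toSL b ∈ _
    rw [← toSL_mem_iff N, toSL_mul]
    have : toSL a⁻¹ = (toSL a)⁻¹ := map_inv toSLEquiv a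
    rw [this])

theorem cosetEquiv_mk (N : ℕ) (g : SL(2, ℤ)) :
    cosetEquiv N (g : SL(2, ℤ) ⧸ Gamma0 N) = ((toSL g : 𝒮ℒ) : Q N) := rfl

theorem cosetEquiv_smul (N : ℕ) (g : SL(2, ℤ)) (x : SL(2, ℤ) ⧸ Gamma0 N) :
    cosetEquiv N (g • x) = toSL g • cosetEquiv N x := by
  induction x using QuotientGroup.induction_on with
  | H h =>
    rw [MulAction.Quotient.smul_mk, cosetEquiv_mk, cosetEquiv_mk, MulAction.Quotient.smul_mk,
      smul_eq_mul, smul_eq_mul, toSL_mul]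

theorem toSL_zpow (g : SL(2, ℤ)) (k : ℤ) : toSL (g ^ k) = toSL g ^ k :=
  map_zpow toSLEquiv g k

end Comb

theorem card_Q (N : ℕ) [NeZero N] : Nat.card (Q N) = ModularCurve.dedekindPsi N := by
  rw [← Fermat.Agent.S24.Comb.index_Gamma0 N, Subgroup.index]
  exact (Nat.card_congr (Comb.cosetEquiv N)).symm

theorem fixS_eq (N : ℕ) [NeZero N] : fixS N = ModularCurve.nuTwo N := by
  rw [← Fermat.Agent.S24.Comb.card_fixedBy_S N, fixS]
  refine (Nat.card_congr ((Comb.cosetEquiv N).subtypeEquiv fun x => ?_)).symm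
  rw [MulAction.mem_fixedBy, Sg, ← Comb.cosetEquiv_smul, (Comb.cosetEquiv N).apply_eq_iff_eq]

theorem fixU_eq (N : ℕ) [NeZero N] : fixU N = ModularCurve.nuThree N := by
  rw [← Fermat.Agent.S24.Comb.card_fixedBy_ST N, fixU]
  refine (Nat.card_congr ((Comb.cosetEquiv N).subtypeEquiv fun x => ?_)).symm
  rw [MulAction.mem_fixedBy, Ug, ← Comb.cosetEquiv_smul, (Comb.cosetEquiv N).apply_eq_iff_eq]

theorem orbT_eq (N : ℕ) [NeZero N] : orbT N = ModularCurve.cuspCount N := by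
  rw [← Fermat.Agent.S24.Comb.card_orbits_T N, orbT]
  refine (Nat.card_congr (Quotient.congr (Comb.cosetEquiv N) fun x y => ?_)).symm
  rw [MulAction.orbitRel_apply, MulAction.orbitRel_apply, MulAction.mem_orbit_iff,
    MulAction.mem_orbit_iff]
  constructor
  · rintro ⟨⟨t, k, rfl⟩, rfl⟩
    refine ⟨⟨Tg ^ k, k, rfl⟩, ?_⟩
    change Tg ^ k • _ = Comb.cosetEquiv N (ModularGroup.T ^ k • y)
    rw [Comb.cosetEquiv_smul, Comb.toSL_zpow]
    rfl
  · rintro ⟨⟨t, k, rfl⟩, h⟩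
    refine ⟨⟨ModularGroup.T ^ k, k, rfl⟩, ?_⟩
    apply (Comb.cosetEquiv N).injective
    change Comb.cosetEquiv N (ModularGroup.T ^ k • y) = _
    rw [Comb.cosetEquiv_smul, Comb.toSL_zpow]
    exact h

end Fermat.Agent.S20.Frame
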