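/-
S20 Frame route: shared core for GEN / ELL / CUSP / CONST / DUAL.

* `lvl`  : restriction of a level one form to `Γ₀(N)`;
* `exists_tr_eq` : every translate `tr f q` is `f ∣[k] γ` for some `γ : SL(2, ℤ)` depending only
  on `q`;
* `comb F K P = ∑ i, P i * F i` as a form of weight `K` on `Γ₀(N)`, its values and translates;
* `exists_eq_mul_of_comb_eq_mul` : if `∑ P i F i = v * g` with `v` of level one and `g` a form on
  `Γ₀(N)`, then every `P i` is divisible by `v` (this is "span + indep" of a frame).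
-/
import Mathlib
import Fermat.Agent.S20.Frame.Defs
import Fermat.Agent.S23.Dilate

set_option autoImplicit false

open UpperHalfPlane ModularForm CongruenceSubgroup Matrix.SpecialLinearGroup

open scoped MatrixGroups ModularForm Manifold Topology

noncomputable section

namespace Fermat.Agent.S20.Frame

namespace Core

variable {N : ℕ}

theorem G0_le (N : ℕ) : G0 N ≤ 𝒮ℒ := by
  rintro x ⟨γ, -, rfl⟩
  exact ⟨γ, rfl⟩

/-- Restriction of a level one form to `Γ₀(N)`. -/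
def lvl (N : ℕ) {k : ℤ} (r : ModularForm 𝒮ℒ k) : ModularForm (G0 N) k :=
  Fermat.Agent.S23.Dilate.restrict (G0_le N) r

@[simp] theorem lvl_apply (N : ℕ) {k : ℤ} (r : ModularForm 𝒮ℒ k) (z : ℍ) : lvl N r z = r z := rfl

@[simp] theorem coe_lvl (N : ℕ) {k : ℤ} (r : ModularForm 𝒮ℒ k) :
    (⇑(lvl N r) : ℍ → ℂ) = ⇑r := rfl

/-- Level one forms are invariant under the slash action of `SL(2, ℤ)`. -/
theorem slash_levelOne {k : ℤ} (r : ModularForm 𝒮ℒ k) (γ : SL(2, ℤ)) :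
    (⇑r : ℍ → ℂ) ∣[k] γ = ⇑r :=
  r.slash_action_eq' (mapGL ℝ γ) ⟨γ, rfl⟩

theorem levelOne_smul {k : ℤ} (r : ModularForm 𝒮ℒ k) (γ : SL(2, ℤ)) (z : ℍ) :
    r (γ • z) * denom γ z ^ (-k) = r z := by
  have h := congrFun (slash_levelOne r γ) z
  rwa [SL_slash_apply] at h

/-- Every translate is a slash by an element of `SL(2, ℤ)` depending only on the coset. -/
theorem exists_tr_eq (q : Q N) :
    ∃ γ : SL(2, ℤ), q = ((toSL γ⁻¹ : 𝒮ℒ) : Q N) ∧
      ∀ (k : ℤ) (f : ModularForm (G0 N) k), tr f q = (⇑f : ℍ → ℂ) ∣[k] γ := by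
  induction q using QuotientGroup.induction_on with
  | H h =>
    obtain ⟨h, γ, rfl⟩ := h
    refine ⟨γ⁻¹, ?_, fun k f => ?_⟩
    · rw [inv_inv]; rfl
    · change (⇑f : ℍ → ℂ) ∣[k] (mapGL ℝ γ)⁻¹ = (⇑f : ℍ → ℂ) ∣[k] (mapGL ℝ γ⁻¹)
      rw [map_inv]

theorem tr_toSL_inv {k : ℤ} (f : ModularForm (G0 N) k) (γ : SL(2, ℤ)) :
    tr f ((toSL γ⁻¹ : 𝒮ℒ) : Q N) = (⇑f : ℍ → ℂ) ∣[k] γ := by
  change (⇑f : ℍ → ℂ) ∣[k] (mapGL ℝ γ⁻¹)⁻¹ = (⇑f : ℍ → ℂ) ∣[k] (mapGL ℝ γ)
  rw [map_inv, inv_inv]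

/-- The translate by the trivial coset is the form itself. -/
theorem tr_one_apply {k : ℤ} (f : ModularForm (G0 N) k) (z : ℍ) :
    tr f (((1 : 𝒮ℒ)) : Q N) z = f z := by
  change ((⇑f : ℍ → ℂ) ∣[k] ((1 : GL (Fin 2) ℝ))⁻¹) z = f z
  rw [inv_one, SlashAction.slash_one]

/-- Equivariance of the translates under `SL(2, ℤ)`. -/
theorem tr_smul {k : ℤ} (f : ModularForm (G0 N) k) (γ : SL(2, ℤ)) (q : Q N) :
    tr f ((toSL γ)⁻¹ • q) = (tr f q) ∣[k] γ :=
  (SlashInvariantForm.quotientFunc_smul f (toSL γ).2 q).symm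

theorem tr_smul_apply {k : ℤ} (f : ModularForm (G0 N) k) (γ : SL(2, ℤ)) (q : Q N) (z : ℍ) :
    tr f ((toSL γ)⁻¹ • q) z = tr f q (γ • z) * denom γ z ^ (-k) := by
  rw [tr_smul, SL_slash_apply]

/-- Translates commute with multiplication by level one forms. -/
theorem tr_lvl_mul {k₁ k₂ : ℤ} (r : ModularForm 𝒮ℒ k₁) (f : ModularForm (G0 N) k₂) (q : Q N)
    (z : ℍ) : tr ((lvl N r).mul f) q z = r z * tr f q z := by
  obtain ⟨γ, -, hγ⟩ := exists_tr_eq q
  rw [hγ, hγ, SL_slash_apply, SL_slash_apply, ModularForm.coe_mul, Pi.mul_apply, coe_lvl,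
    neg_add, zpow_add₀ (denom_ne_zero _ z), ← levelOne_smul r γ z]
  ring

/-- `∑ i, P i * F i` as a form of weight `K` on `Γ₀(N)`. -/
def comb {n : ℕ} {w : Fin n → ℤ} (F : (i : Fin n) → ModularForm (G0 N) (w i)) (K : ℤ)
    (P : (i : Fin n) → ModularForm 𝒮ℒ (K - w i)) : ModularForm (G0 N) K :=
  ∑ i, ModularForm.mcast (sub_add_cancel K (w i)) ((lvl N (P i)).mul (F i))

theorem coe_comb {n : ℕ} {w : Fin n → ℤ} (F : (i : Fin n) → ModularForm (G0 N) (w i)) (K : ℤ)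
    (P : (i : Fin n) → ModularForm 𝒮ℒ (K - w i)) :
    (⇑(comb F K P) : ℍ → ℂ) = ∑ i, (⇑(P i) : ℍ → ℂ) * ⇑(F i) := by
  rw [comb, FunLike.coe_sum]
  rfl

theorem comb_apply {n : ℕ} {w : Fin n → ℤ} (F : (i : Fin n) → ModularForm (G0 N) (w i)) (K : ℤ)
    (P : (i : Fin n) → ModularForm 𝒮ℒ (K - w i)) (z : ℍ) :
    comb F K P z = ∑ i, P i z * F i z := by
  rw [coe_comb, Finset.sum_apply]
  rfl

/-- The translates of `∑ i, P i * F i`. -/
theorem tr_comb {n : ℕ} {w : Fin n → ℤ} (F : (i : Fin n) → ModularForm (G0 N) (w i)) (K : ℤ)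
    (P : (i : Fin n) → ModularForm 𝒮ℒ (K - w i)) (q : Q N) (z : ℍ) :
    tr (comb F K P) q z = ∑ i, P i z * tr (F i) q z := by
  obtain ⟨γ, -, hγ⟩ := exists_tr_eq q
  rw [hγ, SL_slash_apply, comb_apply, Finset.sum_mul]
  refine Finset.sum_congr rfl fun i _ => ?_
  rw [hγ, SL_slash_apply, ← levelOne_smul (P i) γ z]
  have : denom γ z ^ (-K) = denom γ z ^ (-(K - w i)) * denom γ z ^ (-(w i)) := by
    rw [← zpow_add₀ (denom_ne_zero _ z)]
    congr 1
    ring
  rw [this]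
  ring

/-- **Division step.** If `∑ i, P i * F i = v * g` with `v` of level one and `g` a form on
`Γ₀(N)`, then every coefficient `P i` is divisible by `v`. -/
theorem exists_eq_mul_of_comb_eq_mul {n : ℕ} {w : Fin n → ℤ}
    {F : (i : Fin n) → ModularForm (G0 N) (w i)} (hF : IsFrame N w F) {K kv : ℤ}
    (P : (i : Fin n) → ModularForm 𝒮ℒ (K - w i)) (v : ModularForm 𝒮ℒ kv)
    (g : ModularForm (G0 N) (K - kv)) (h : ∀ z, comb F K P z = v z * g z) :
    ∃ s : (i : Fin n) → ModularForm 𝒮ℒ (K - kv - w i), ∀ i z, P i z = v z * s i z := by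
  obtain ⟨s, hs⟩ := hF.span (K - kv) g
  refine ⟨s, ?_⟩
  have key := hF.indep K
    (fun i => P i - ModularForm.mcast (by ring) (v.mul (s i))) (fun z => by
      have h1 : ∀ i, (P i - ModularForm.mcast (by ring : kv + (K - kv - w i) = K - w i)
          (v.mul (s i)) : ModularForm 𝒮ℒ (K - w i)) z * F i z =
            P i z * F i z - v z * (s i z * F i z) := by
        intro i
        rw [sub_apply, ModularForm.mcast_apply, ModularForm.coe_mul, Pi.mul_apply]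
        ring
      simp only [h1]
      rw [Finset.sum_sub_distrib, ← Finset.mul_sum, ← hs z, ← comb_apply, h z]
      ring)
  intro i z
  have h2 := congrArg (fun f : ModularForm 𝒮ℒ (K - w i) => f z) (key i)
  simp only [sub_apply, ModularForm.mcast_apply, ModularForm.coe_mul, Pi.mul_apply,
    zero_apply] at h2
  exact sub_eq_zero.mp h2

/-- Evaluation form of the division step: if `v z₀ = 0` then all `P i z₀ = 0`. -/
theorem eval_eq_zero_of_comb_eq_mul {n : ℕ} {w : Fin n → ℤ}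
    {F : (i : Fin n) → ModularForm (G0 N) (w i)} (hF : IsFrame N w F) {K kv : ℤ}
    (P : (i : Fin n) → ModularForm 𝒮ℒ (K - w i)) (v : ModularForm 𝒮ℒ kv)
    (g : ModularForm (G0 N) (K - kv)) (h : ∀ z, comb F K P z = v z * g z) {z₀ : ℍ}
    (hv : v z₀ = 0) (i : Fin n) : P i z₀ = 0 := by
  obtain ⟨s, hs⟩ := exists_eq_mul_of_comb_eq_mul hF P v g h
  rw [hs i z₀, hv, zero_mul]

end Core

end Fermat.Agent.S20.Frame
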