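/-
S20 Frame route, piece CONST (core): `det Φ² / Δ ^ (μ - c)` is a nowhere vanishing constant.

Everything is proved from explicit hypotheses (the conclusions of CUSP, GEN, ELL), so that this
file does not depend on those pieces.
-/
import Mathlib
import Fermat.Agent.S20.Frame.Defs
import Fermat.Agent.S20.Frame.Core
import Fermat.Agent.S23.NormPoly
import Fermat.Agent.S23.LevelOne
import Fermat.Agent.S23.UV
import Fermat.Agent.S24.JLocal

set_option autoImplicit false

open UpperHalfPlane ModularForm CongruenceSubgroup Matrix.SpecialLinearGroup EisensteinSeries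
open Filter
open scoped MatrixGroups ModularForm Manifold Topology

noncomputable section

namespace Fermat.Agent.S20.Frame

namespace ConstCore

local notation "Δ" => ModularForm.discriminant

/-- `rho` of `Frame.Defs` is the `rho` of `JLocal`. -/
theorem rho_eq : rho = Fermat.Agent.S24.JLocal.rho := rfl

/-- A level one form from slash invariance, holomorphy and boundedness at `i∞`. -/
def ofLevelOne (k : ℤ) (f : ℍ → ℂ) (hs : ∀ γ : SL(2, ℤ), f ∣[k] γ = f) (hd : MDiff f)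
    (hb : IsBoundedAtImInfty f) : ModularForm 𝒮ℒ k where
  toFun := f
  slash_action_eq' := fun _ ⟨γ, hγ⟩ => hγ ▸ hs γ
  holo' := hd
  bdd_at_cusps' {c} hc := by
    rw [Subgroup.IsArithmetic.isCusp_iff_isCusp_SL2Z] at hc
    rw [OnePoint.isBoundedAt_iff_forall_SL2Z hc]
    intro γ _
    rw [hs γ]
    exact hb

@[simp] theorem ofLevelOne_apply (k : ℤ) (f : ℍ → ℂ) (hs : ∀ γ : SL(2, ℤ), f ∣[k] γ = f)
    (hd : MDiff f) (hb : IsBoundedAtImInfty f) (z : ℍ) : ofLevelOne k f hs hd hb z = f z := rfl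

theorem tendsto_discriminant : Tendsto (fun z : ℍ => Δ z) atImInfty (𝓝 0) :=
  ModularForm.discriminant_isZeroAtImInfty

/-- The top coefficient of the `j`-polynomial of a form of weight `12 m` is its value at `i∞`. -/
theorem tendsto_poly (m : ℕ) (p : Polynomial ℂ) (hp : p.natDegree ≤ m) :
    Tendsto (fun z : ℍ => Δ z ^ m * p.eval (E₄ z ^ 3 / Δ z)) atImInfty (𝓝 (p.coeff m)) := by
  have hexp : ∀ z : ℍ, Δ z ^ m * p.eval (E₄ z ^ 3 / Δ z) =
      ∑ j ∈ Finset.range (m + 1), p.coeff j * Δ z ^ (m - j) * E₄ z ^ (3 * j) := by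
    intro z
    rw [Polynomial.eval_eq_sum_range' (Nat.lt_succ_of_le hp), Finset.mul_sum]
    refine Finset.sum_congr rfl fun j hj => ?_
    have hj' : j ≤ m := Nat.lt_succ_iff.mp (Finset.mem_range.mp hj)
    have hΔ := ModularForm.discriminant_ne_zero z
    obtain ⟨d, rfl⟩ := Nat.exists_eq_add_of_le hj'
    rw [Nat.add_sub_cancel_left, div_pow, pow_add, ← pow_mul]
    field_simp
  have hlim : Tendsto (fun z : ℍ => ∑ j ∈ Finset.range (m + 1),
      p.coeff j * Δ z ^ (m - j) * E₄ z ^ (3 * j)) atImInfty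
      (𝓝 (∑ j ∈ Finset.range (m + 1), p.coeff j * (0 : ℂ) ^ (m - j) * (1 : ℂ) ^ (3 * j))) :=
    tendsto_finsetSum _ fun j _ =>
      ((tendsto_const_nhds.mul (tendsto_discriminant.pow (m - j))).mul
        (Fermat.Agent.S24.JLocal.tendsto_E4.pow (3 * j)))
  have hsum : ∑ j ∈ Finset.range (m + 1), p.coeff j * (0 : ℂ) ^ (m - j) * (1 : ℂ) ^ (3 * j) =
      p.coeff m := by
    rw [Finset.sum_eq_single m]
    · simp
    · intro j hj hjm
      have hj' : j ≤ m := Nat.lt_succ_iff.mp (Finset.mem_range.mp hj)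
      have : m - j ≠ 0 := by omega
      rw [zero_pow this]
      simp
    · intro h
      exact absurd (Finset.mem_range.mpr (Nat.lt_succ_self m)) h
  rw [hsum] at hlim
  exact hlim.congr fun z => (hexp z).symm

/-- A level one form with nonzero value at `i∞` whose zeros all lie over `j = 0` or `j = 1728`,
and which does not vanish at `i` and `ρ`, has weight `0` and is constant. -/
theorem levelOne_const {k : ℤ} (H : ModularForm 𝒮ℒ k) {c : ℂ} (hc : c ≠ 0)
    (hlim : Tendsto (fun z : ℍ => H z) atImInfty (𝓝 c))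
    (hzero : ∀ z : ℍ, H z = 0 → E₄ z = 0 ∨ E₆ z = 0)
    (hI : H UpperHalfPlane.I ≠ 0) (hrho : H rho ≠ 0) :
    k = 0 ∧ ∀ z, H z = c := by
  rcases lt_trichotomy k 0 with hk | hk | hk
  · exfalso
    have h0 : (⇑H : ℍ → ℂ) = 0 := ModularFormClass.levelOne_neg_weight_eq_zero hk H
    have h1 : Tendsto (fun z : ℍ => H z) atImInfty (𝓝 0) := by
      rw [show (fun z : ℍ => H z) = fun _ => (0 : ℂ) from h0]
      exact tendsto_const_nhds
    exact hc (tendsto_nhds_unique hlim h1)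
  · subst hk
    obtain ⟨c', hc'⟩ := ModularFormClass.levelOne_weight_zero_const H
    refine ⟨rfl, fun z => ?_⟩
    have h1 : Tendsto (fun z : ℍ => H z) atImInfty (𝓝 c') := by
      rw [show (fun z : ℍ => H z) = fun _ => c' from hc']
      exact tendsto_const_nhds
    rw [tendsto_nhds_unique hlim h1]
    exact congrFun hc' z
  · exfalso
    obtain ⟨m, rfl⟩ := Int.eq_ofNat_of_zero_le hk.le
    have hm : 0 < m := by exact_mod_cast hk
    let G : ModularForm 𝒮ℒ (12 * (m : ℤ)) := ModularForm.mcast (by push_cast; ring) (H.pow 12)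
    have hG : ∀ z, G z = H z ^ 12 := fun z => by
      change (H.pow 12) z = H z ^ 12
      rw [ModularForm.coe_pow]
      rfl
    obtain ⟨p, hpdeg, hp⟩ := Fermat.Agent.S23.LevelOne.exists_poly_discriminant_pow m G
    have hcoeff : p.coeff m = c ^ 12 := by
      have h1 : Tendsto (fun z : ℍ => H z ^ 12) atImInfty (𝓝 (c ^ 12)) := hlim.pow 12
      exact tendsto_nhds_unique (tendsto_poly m p hpdeg)
        (h1.congr fun z => by rw [← hG, hp])
    have hpm : p.coeff m ≠ 0 := by rw [hcoeff]; exact pow_ne_zero _ hc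
    have hnat : p.natDegree = m := le_antisymm hpdeg (Polynomial.le_natDegree_of_ne_zero hpm)
    have hp0 : p ≠ 0 := by
      rintro rfl
      simp at hpm
    have hdeg : p.degree ≠ 0 := by
      rw [Polynomial.degree_eq_natDegree hp0, hnat]
      exact_mod_cast hm.ne'
    obtain ⟨x0, hx0⟩ := IsAlgClosed.exists_root p hdeg
    have hx0' : p.eval x0 = 0 := hx0
    obtain ⟨z1, hz1⟩ := Fermat.Agent.S24.JLocal.jFun_surjective x0
    have hval : ∀ z : ℍ, Fermat.Agent.S23.JN.jFun z = x0 → H z = 0 := by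
      intro z hz
      have h := hp z
      rw [hG, ← Fermat.Agent.S24.JLocal.jFun_eq, hz, hx0', mul_zero] at h
      exact pow_eq_zero_iff (by norm_num) |>.mp h
    rcases hzero z1 (hval z1 hz1) with h4 | h6
    · have hx : x0 = 0 := by
        rw [← hz1]
        exact (Fermat.Agent.S24.JLocal.jFun_eq_zero_iff z1).mpr h4
      exact hrho (hval _ (by rw [rho_eq, Fermat.Agent.S24.JLocal.jFun_rho, hx]))
    · have hx : x0 = 1728 := by
        rw [← hz1]
        exact (Fermat.Agent.S24.JLocal.jFun_eq_iff z1).mpr h6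
      exact hI (hval _ (by rw [Fermat.Agent.S24.JLocal.jFun_I, hx]))

/-! ### The matrix of translates -/

variable {N : ℕ} {n : ℕ} {w : Fin n → ℤ} {F : (i : Fin n) → ModularForm (G0 N) (w i)}

/-- The permutation of the columns of `Φ` induced by `γ`. -/
def colPerm (e : Fin n ≃ Q N) (γ : SL(2, ℤ)) : Equiv.Perm (Fin n) :=
  (e.trans (MulAction.toPerm (toSL γ)⁻¹)).trans e.symm

theorem e_colPerm (e : Fin n ≃ Q N) (γ : SL(2, ℤ)) (j : Fin n) :
    e (colPerm e γ j) = (toSL γ)⁻¹ • e j := by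
  simp [colPerm]

theorem Phi_smul (e : Fin n ≃ Q N) (γ : SL(2, ℤ)) (z : ℍ) :
    Phi F e (γ • z) = Matrix.of (fun i j =>
      denom γ z ^ (w i) * ((Phi F e z).submatrix id (colPerm e γ)) i j) := by
  ext i j
  simp only [Phi, Matrix.of_apply, Matrix.submatrix_apply, id]
  rw [e_colPerm, Core.tr_smul_apply, mul_comm, mul_assoc, ← zpow_add₀ (denom_ne_zero γ z)]
  simp

theorem prod_zpow_eq (d : ℂ) (hd : d ≠ 0) (w : Fin n → ℤ) : ∏ i, d ^ w i = d ^ ∑ i, w i := by
  classical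
  induction (Finset.univ : Finset (Fin n)) using Finset.induction_on with
  | empty => simp
  | insert a s ha ih => rw [Finset.prod_insert ha, Finset.sum_insert ha, zpow_add₀ hd, ih]

theorem det_Phi_smul_sq (e : Fin n ≃ Q N) (γ : SL(2, ℤ)) (z : ℍ) :
    (Phi F e (γ • z)).det ^ 2 = (denom γ z ^ (∑ i, w i)) ^ 2 * (Phi F e z).det ^ 2 := by
  rw [Phi_smul, Matrix.det_mul_column, Matrix.det_permute', prod_zpow_eq _ (denom_ne_zero γ z)]
  have hs : ((((Equiv.Perm.sign (colPerm e γ) : ℤˣ) : ℤ) : ℂ)) ^ 2 = 1 := by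
    rcases Int.units_eq_one_or (Equiv.Perm.sign (colPerm e γ)) with h | h <;> rw [h] <;> simp
  rw [mul_pow, mul_pow, hs, one_mul]

theorem mdiff_det (e : Fin n ≃ Q N) : MDiff (fun z : ℍ => (Phi F e z).det) := by
  have h : (fun z : ℍ => (Phi F e z).det) =
      ∑ σ : Equiv.Perm (Fin n), (fun _ : ℍ => (((Equiv.Perm.sign σ : ℤˣ) : ℤ) : ℂ)) *
        ∏ i, tr (F (σ i)) (e i) := by
    funext z
    rw [Matrix.det_apply', Finset.sum_apply]
    refine Finset.sum_congr rfl fun σ _ => ?_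
    rw [Pi.mul_apply, Finset.prod_apply]
    rfl
  rw [h]
  exact .sum fun σ _ => mdifferentiable_const.mul
    (.prod fun i _ => Fermat.Agent.S23.NormPoly.mdiff_quotientFunc 𝒮ℒ (F (σ i)) (e i))

/-- `det Φ ^ 2 / Δ ^ m`. -/
def Hfun (F : (i : Fin n) → ModularForm (G0 N) (w i)) (e : Fin n ≃ Q N) (m : ℕ) (z : ℍ) : ℂ :=
  (Phi F e z).det ^ 2 / Δ z ^ m

theorem discriminant_smul (γ : SL(2, ℤ)) (z : ℍ) : Δ (γ • z) = denom γ z ^ (12 : ℤ) * Δ z := by
  have h := Core.levelOne_smul Fermat.Agent.S23.UV.DeltaMF γ z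
  rw [Fermat.Agent.S23.UV.DeltaMF_apply, Fermat.Agent.S23.UV.DeltaMF_apply] at h
  rw [← h, mul_comm (Δ (γ • z)), ← mul_assoc, ← zpow_add₀ (denom_ne_zero γ z)]
  simp

theorem Hfun_slash (e : Fin n ≃ Q N) (m : ℕ) (γ : SL(2, ℤ)) :
    (Hfun F e m) ∣[2 * ∑ i, w i - 12 * (m : ℤ)] γ = Hfun F e m := by
  ext z
  rw [SL_slash_apply]
  unfold Hfun
  rw [det_Phi_smul_sq, discriminant_smul]
  have hd : denom γ z ≠ 0 := denom_ne_zero γ z
  have hΔ := ModularForm.discriminant_ne_zero z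
  have h1 : denom γ z ^ (-(2 * ∑ i, w i - 12 * (m : ℤ))) * (denom γ z ^ (∑ i, w i)) ^ 2 =
      (denom γ z ^ (12 : ℤ)) ^ m := by
    rw [← zpow_natCast (denom γ z ^ (12 : ℤ)) m, ← zpow_mul,
      ← zpow_natCast (denom γ z ^ (∑ i, w i)) 2, ← zpow_mul, ← zpow_add₀ hd]
    congr 1
    push_cast
    ring
  have h2 : (denom γ z ^ (12 : ℤ)) ^ m ≠ 0 := pow_ne_zero _ (zpow_ne_zero _ hd)
  rw [mul_pow, div_mul_eq_mul_div, div_eq_div_iff (mul_ne_zero h2 (pow_ne_zero _ hΔ))
    (pow_ne_zero _ hΔ)]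
  linear_combination ((Phi F e z).det ^ 2 * Δ z ^ m) * h1

theorem mdiff_Hfun (e : Fin n ≃ Q N) (m : ℕ) : MDiff (Hfun F e m) :=
  ((mdiff_det e).pow 2).div (Fermat.Agent.S24.JLocal.mdiff_discriminant.pow m)
    (fun z => pow_ne_zero _ (ModularForm.discriminant_ne_zero z))

theorem det_ne_zero_of_indep (e : Fin n ≃ Q N) (z : ℍ)
    (h : ∀ c : Fin n → ℂ, (∀ q : Q N, ∑ i, c i * tr (F i) q z = 0) → c = 0) :
    (Phi F e z).det ≠ 0 := by
  intro hdet
  obtain ⟨v, hv, hv0⟩ := Matrix.exists_vecMul_eq_zero_iff.mpr hdet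
  refine hv (h v fun q => ?_)
  have := congrFun hv0 (e.symm q)
  simpa [Matrix.vecMul, dotProduct, Phi] using this

/-- **CONST, core form**: from the behaviour at the cusp and the independence of the rows of `Φ`
at every point with `E₄ E₆ ≠ 0`, at `i` and at `ρ`: `det Φ` never vanishes and the weights add
up to `6 m`. -/
theorem main (e : Fin n ≃ Q N) (m : ℕ) {c : ℂ} (hc : c ≠ 0)
    (hlim : Tendsto (fun z : ℍ => (Phi F e z).det ^ 2 / Δ z ^ m) atImInfty (𝓝 c))
    (hgen : ∀ z₀ : ℍ, E₄ z₀ ≠ 0 → E₆ z₀ ≠ 0 → ∀ c : Fin n → ℂ,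
      (∀ q : Q N, ∑ i, c i * tr (F i) q z₀ = 0) → c = 0)
    (hI : ∀ c : Fin n → ℂ, (∀ q : Q N, ∑ i, c i * tr (F i) q UpperHalfPlane.I = 0) → c = 0)
    (hrho : ∀ c : Fin n → ℂ, (∀ q : Q N, ∑ i, c i * tr (F i) q rho = 0) → c = 0) :
    (∀ z, (Phi F e z).det ≠ 0) ∧ ∑ i, w i = 6 * (m : ℤ) := by
  have hb : IsBoundedAtImInfty (Hfun F e m) := hlim.isBigO_one ℝ
  let H : ModularForm 𝒮ℒ (2 * ∑ i, w i - 12 * (m : ℤ)) :=
    ofLevelOne _ (Hfun F e m) (Hfun_slash e m) (mdiff_Hfun e m) hb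
  have hH : ∀ z, H z = (Phi F e z).det ^ 2 / Δ z ^ m := fun z => rfl
  have hne : ∀ z, (Phi F e z).det ≠ 0 → H z ≠ 0 := fun z hz => by
    rw [hH]
    exact div_ne_zero (pow_ne_zero _ hz) (pow_ne_zero _ (ModularForm.discriminant_ne_zero z))
  obtain ⟨hk, hconst⟩ := levelOne_const H hc hlim
    (fun z hz => by
      by_contra hcon
      have hcon' := not_or.mp hcon
      exact hne z (det_ne_zero_of_indep e z (hgen z hcon'.1 hcon'.2)) hz)
    (hne _ (det_ne_zero_of_indep e _ hI)) (hne _ (det_ne_zero_of_indep e _ hrho))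
  refine ⟨fun z hz => hc ?_, by linarith⟩
  rw [← hconst z, hH, hz]
  simp

/-- The number of `T`-orbits is at most the number of cosets. -/
theorem orbT_le (N : ℕ) [Finite (Q N)] : orbT N ≤ Nat.card (Q N) :=
  Nat.card_le_card_of_surjective _ Quotient.mk''_surjective

end ConstCore

end Fermat.Agent.S20.Frame
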