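/-
S20 Frame route, piece DUAL (core): the dual frame.

For a frame `F` with nowhere vanishing determinant of the matrix of translates `Φ`, such that
`Δ Φ⁻¹ → 0` at `i∞`, the functions `G i = Δ (Φ⁻¹)_(q₀, i)` (`q₀` the trivial coset) are nonzero
cusp forms of weight `12 - w i` on `Γ₀(N)`; hence `w i ≤ 10` (for even weights), and the `G i`
with `w i = 10` form a basis of `S₂(Γ₀(N))`.

This file takes the three inputs (`det ≠ 0`, decay of `Δ Φ⁻¹`, evenness of the weights) as
hypotheses, so that it only depends on `Defs.lean`.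
-/
import Mathlib
import Fermat.Agent.S20.Frame.Defs

set_option autoImplicit false

open UpperHalfPlane ModularForm CongruenceSubgroup Matrix.SpecialLinearGroup EisensteinSeries Filter
open scoped MatrixGroups ModularForm Manifold Topology

noncomputable section

namespace Fermat.Agent.S20.Frame

local notation "Δ" => ModularForm.discriminant

variable {N : ℕ}

namespace Dual

/-! ### Holomorphy of determinants, adjugates and inverses -/

theorem mdiff_det {n : ℕ} (M : ℍ → Matrix (Fin n) (Fin n) ℂ)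
    (hM : ∀ i j, MDiff (fun z => M z i j)) : MDiff (fun z => (M z).det) := by
  simp only [UpperHalfPlane.mdifferentiable_iff, Function.comp_def] at hM ⊢
  simp only [Matrix.det_apply']
  refine DifferentiableOn.fun_sum (fun σ _ => ?_)
  refine (differentiableOn_const _).mul ?_
  exact DifferentiableOn.fun_finsetProd (fun i _ => hM (σ i) i)

theorem mdiff_adjugate {n : ℕ} (M : ℍ → Matrix (Fin n) (Fin n) ℂ)
    (hM : ∀ i j, MDiff (fun z => M z i j)) (i j : Fin n) :
    MDiff (fun z => (M z).adjugate i j) := by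
  simp only [Matrix.adjugate_apply]
  apply mdiff_det
  intro i' j'
  by_cases h : i' = j
  · subst h
    simp only [Matrix.updateRow_self]
    exact mdifferentiable_const
  · simp only [Matrix.updateRow_ne h]
    exact hM i' j'

theorem mdiff_inv {n : ℕ} (M : ℍ → Matrix (Fin n) (Fin n) ℂ)
    (hM : ∀ i j, MDiff (fun z => M z i j)) (hdet : ∀ z, (M z).det ≠ 0) (i j : Fin n) :
    MDiff (fun z => (M z)⁻¹ i j) := by
  have h : (fun z => (M z)⁻¹ i j) = fun z => (M z).adjugate i j / (M z).det := by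
    funext z
    rw [Matrix.inv_def, Ring.inverse_eq_inv', Matrix.smul_apply, smul_eq_mul, div_eq_inv_mul]
  rw [h]
  exact (mdiff_adjugate M hM i j).div (mdiff_det M hM) hdet

/-! ### Translates -/

theorem mdiff_tr {k : ℤ} (f : ModularForm (G0 N) k) (q : Q N) : MDiff (tr f q) := by
  induction q using Quotient.inductionOn with
  | h r => exact (ModularFormClass.holo f).slash k _

/-- Transformation of a translate under `SL(2, ℤ)`. -/
theorem tr_smul {k : ℤ} (f : ModularForm (G0 N) k) (q : Q N) (g : SL(2, ℤ)) (z : ℍ) :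
    tr f q (g • z) = denom g z ^ k * tr f ((toSL g)⁻¹ • q) z := by
  have h := congrFun (SlashInvariantForm.quotientFunc_smul f (toSL g).2 q) z
  have h2 : (SlashInvariantForm.quotientFunc f q ∣[k] (toSL g).1) z =
      tr f q (g • z) * denom g z ^ (-k) := by
    show (SlashInvariantForm.quotientFunc f q ∣[k] g) z = _
    rw [ModularForm.SL_slash_apply]
  rw [h2] at h
  have hd : (denom g z : ℂ) ≠ 0 := denom_ne_zero g z
  have h3 : tr f q (g • z) = denom g z ^ k * (tr f q (g • z) * denom g z ^ (-k)) := by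
    rw [mul_comm (tr f q (g • z)), ← mul_assoc, ← zpow_add₀ hd]
    simp
  rw [h3, h]

theorem discriminant_smul (g : SL(2, ℤ)) (z : ℍ) : Δ (g • z) = denom g z ^ (12 : ℤ) * Δ z := by
  have h := SlashInvariantForm.slash_action_eqn'' CuspForm.discriminant
    (show (mapGL ℝ g : GL (Fin 2) ℝ) ∈ 𝒮ℒ from ⟨g, rfl⟩) z
  exact h

variable {n : ℕ} {w : Fin n → ℤ} {F : (i : Fin n) → ModularForm (G0 N) (w i)}

theorem mdiff_Phi (F : (i : Fin n) → ModularForm (G0 N) (w i)) (e : Fin n ≃ Q N) (i j : Fin n) :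
    MDiff (fun z => Phi F e z i j) :=
  mdiff_tr (F i) (e j)

/-- The permutation of the index set induced by an element of `SL(2, ℤ)`. -/
def perm (e : Fin n ≃ Q N) (g : SL(2, ℤ)) : Equiv.Perm (Fin n) :=
  e.trans ((MulAction.toPerm ((toSL g)⁻¹ : 𝒮ℒ)).trans e.symm)

theorem e_perm (e : Fin n ≃ Q N) (g : SL(2, ℤ)) (j : Fin n) :
    e (perm e g j) = (toSL g)⁻¹ • e j := by
  simp [perm]

/-- The index of the trivial coset. -/
def base (e : Fin n ≃ Q N) : Fin n := e.symm ((1 : 𝒮ℒ) : Q N)

theorem toSL_inv (g : SL(2, ℤ)) : toSL g⁻¹ = (toSL g)⁻¹ := by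
  apply Subtype.ext
  simp [toSL]

theorem exists_perm_base (e : Fin n ≃ Q N) (j : Fin n) : ∃ g : SL(2, ℤ), perm e g (base e) = j := by
  obtain ⟨h, hh⟩ := QuotientGroup.mk_surjective (e j)
  obtain ⟨h, g, rfl⟩ := h
  refine ⟨g⁻¹, ?_⟩
  apply e.injective
  rw [e_perm, base, Equiv.apply_symm_apply, ← hh, toSL_inv, inv_inv]
  show ((toSL g * 1 : 𝒮ℒ) : Q N) = _
  rw [mul_one]
  rfl

theorem perm_base_of_mem (e : Fin n ≃ Q N) {g : SL(2, ℤ)} (hg : g ∈ Gamma0 N) :
    perm e g (base e) = base e := by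
  apply e.injective
  rw [e_perm, base, Equiv.apply_symm_apply]
  show ((((toSL g)⁻¹ * 1 : 𝒮ℒ)) : Q N) = _
  rw [mul_one, QuotientGroup.eq, inv_inv, mul_one, Subgroup.mem_subgroupOf]
  exact Subgroup.mem_map.mpr ⟨g, hg, rfl⟩

theorem Phi_smul (F : (i : Fin n) → ModularForm (G0 N) (w i)) (e : Fin n ≃ Q N) (g : SL(2, ℤ))
    (z : ℍ) (i j : Fin n) :
    Phi F e (g • z) i j = denom g z ^ (w i) * Phi F e z i (perm e g j) := by
  simp only [Phi, Matrix.of_apply]
  rw [tr_smul, e_perm]

theorem inv_Phi_smul (e : Fin n ≃ Q N) (hdet : ∀ z, (Phi F e z).det ≠ 0) (g : SL(2, ℤ))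
    (z : ℍ) (j i : Fin n) :
    (Phi F e (g • z))⁻¹ j i = (Phi F e z)⁻¹ (perm e g j) i * denom g z ^ (-(w i)) := by
  have hd : (denom g z : ℂ) ≠ 0 := denom_ne_zero g z
  have key : (Phi F e (g • z))⁻¹ =
      Matrix.of (fun j i => (Phi F e z)⁻¹ (perm e g j) i * denom g z ^ (-(w i))) := by
    apply Matrix.inv_eq_right_inv
    ext i i'
    rw [Matrix.mul_apply]
    simp only [Phi_smul, Matrix.of_apply]
    have h1 : ∑ j, denom g z ^ (w i) * Phi F e z i (perm e g j) *
        ((Phi F e z)⁻¹ (perm e g j) i' * denom g z ^ (-(w i')))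
        = denom g z ^ (w i) * denom g z ^ (-(w i')) *
          ∑ j, Phi F e z i j * (Phi F e z)⁻¹ j i' := by
      rw [Finset.mul_sum, ← Equiv.sum_comp (perm e g) (fun j => denom g z ^ (w i) *
        denom g z ^ (-(w i')) * (Phi F e z i j * (Phi F e z)⁻¹ j i'))]
      refine Finset.sum_congr rfl fun j _ => by ring
    rw [h1, ← Matrix.mul_apply, Matrix.mul_nonsing_inv _ (isUnit_iff_ne_zero.mpr (hdet z))]
    by_cases h : i = i'
    · subst h
      rw [Matrix.one_apply_eq, mul_one, ← zpow_add₀ hd, add_neg_cancel, zpow_zero]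
    · rw [Matrix.one_apply_ne h, mul_zero]
  rw [key]
  rfl

/-! ### The dual functions -/

/-- The entries of `Δ Φ⁻¹`. -/
def Gfun (F : (i : Fin n) → ModularForm (G0 N) (w i)) (e : Fin n ≃ Q N) (i j : Fin n) : ℍ → ℂ :=
  fun z => Δ z * (Phi F e z)⁻¹ j i

theorem mdiff_Gfun (e : Fin n ≃ Q N) (hdet : ∀ z, (Phi F e z).det ≠ 0) (i j : Fin n) :
    MDiff (Gfun F e i j) :=
  CuspForm.discriminant.holo'.mul (mdiff_inv (Phi F e) (mdiff_Phi F e) hdet j i)

theorem Gfun_smul (e : Fin n ≃ Q N) (hdet : ∀ z, (Phi F e z).det ≠ 0) (g : SL(2, ℤ)) (z : ℍ)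
    (i j : Fin n) :
    Gfun F e i j (g • z) = denom g z ^ (12 - w i) * Gfun F e i (perm e g j) z := by
  have hd : (denom g z : ℂ) ≠ 0 := denom_ne_zero g z
  simp only [Gfun]
  rw [discriminant_smul, inv_Phi_smul e hdet, sub_eq_add_neg, zpow_add₀ hd]
  ring

theorem Gfun_slash (e : Fin n ≃ Q N) (hdet : ∀ z, (Phi F e z).det ≠ 0) (g : SL(2, ℤ))
    (i j : Fin n) {k : ℤ} (hk : k + w i = 12) :
    Gfun F e i j ∣[k] g = Gfun F e i (perm e g j) := by
  funext z
  have hd : (denom g z : ℂ) ≠ 0 := denom_ne_zero g z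
  rw [ModularForm.SL_slash_apply, Gfun_smul e hdet, show 12 - w i = k by omega,
    mul_comm (denom g z ^ k), mul_assoc, ← zpow_add₀ hd, add_neg_cancel, zpow_zero, mul_one]

/-- The dual cusp forms: `G i = Δ (Φ⁻¹)_(base, i)` of weight `k = 12 - w i`. -/
def Gform [NeZero N] (e : Fin n ≃ Q N) (hdet : ∀ z, (Phi F e z).det ≠ 0)
    (hdual : ∀ i j, Tendsto (fun z : ℍ => Δ z * (Phi F e z)⁻¹ j i) atImInfty (𝓝 0))
    (i : Fin n) (k : ℤ) (hk : k + w i = 12) : CuspForm (G0 N) k where
  toFun := Gfun F e i (base e)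
  slash_action_eq' := by
    intro γ hγ
    obtain ⟨g, hg, rfl⟩ := Subgroup.mem_map.mp hγ
    have h := Gfun_slash e hdet g i (base e) hk
    rw [perm_base_of_mem e hg] at h
    exact h
  holo' := mdiff_Gfun e hdet i (base e)
  zero_at_cusps' := by
    intro x hx
    have hx' : IsCusp x 𝒮ℒ :=
      (Subgroup.IsArithmetic.isCusp_iff_isCusp_SL2Z (G0 N)).mp hx
    rw [OnePoint.isZeroAt_iff_forall_SL2Z hx']
    intro γ _
    have h := Gfun_slash e hdet γ i (base e) hk
    show IsZeroAtImInfty (Gfun F e i (base e) ∣[k] γ)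
    rw [h]
    exact hdual i (perm e γ (base e))

theorem Gform_apply [NeZero N] (e : Fin n ≃ Q N) (hdet : ∀ z, (Phi F e z).det ≠ 0)
    (hdual : ∀ i j, Tendsto (fun z : ℍ => Δ z * (Phi F e z)⁻¹ j i) atImInfty (𝓝 0))
    (i : Fin n) (k : ℤ) (hk : k + w i = 12) (z : ℍ) :
    Gform e hdet hdual i k hk z = Gfun F e i (base e) z := rfl

/-! ### Non-vanishing and the weight bound -/

theorem exists_Gfun_ne_zero (e : Fin n ≃ Q N) (hdet : ∀ z, (Phi F e z).det ≠ 0) (i : Fin n) :
    ∃ z, Gfun F e i (base e) z ≠ 0 := by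
  by_contra hcon
  push Not at hcon
  have hall : ∀ j z, Gfun F e i j z = 0 := by
    intro j z
    obtain ⟨g, hg⟩ := exists_perm_base e j
    have h := Gfun_smul e hdet g z i (base e)
    rw [hcon, hg] at h
    have hd : (denom g z : ℂ) ^ (12 - w i) ≠ 0 := zpow_ne_zero _ (denom_ne_zero g z)
    exact (mul_eq_zero.mp h.symm).resolve_left hd
  have hz := Matrix.mul_nonsing_inv (Phi F e UpperHalfPlane.I)
    (isUnit_iff_ne_zero.mpr (hdet _))
  have h1 := congrFun (congrFun hz i) i
  rw [Matrix.mul_apply, Matrix.one_apply_eq] at h1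
  have h0 : ∑ j, Phi F e UpperHalfPlane.I i j * (Phi F e UpperHalfPlane.I)⁻¹ j i = 0 := by
    refine Finset.sum_eq_zero fun j _ => ?_
    have := hall j UpperHalfPlane.I
    simp only [Gfun] at this
    rw [(mul_eq_zero.mp this).resolve_left (discriminant_ne_zero _), mul_zero]
  rw [h0] at h1
  exact zero_ne_one h1

/-- A cusp form of weight `≤ 0` on `Γ₀(N)` vanishes. -/
theorem cuspForm_eq_zero_of_nonpos [NeZero N] {k : ℤ} (hk : k ≤ 0) (G : CuspForm (G0 N) k)
    (z : ℍ) : G z = 0 := by
  rcases hk.lt_or_eq with h | h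
  · have h0 := ModularForm.isZero_of_neg_weight h (CuspForm.toModularFormₗ G)
    have h1 : (CuspForm.toModularFormₗ G) z = 0 := by rw [h0]; rfl
    exact h1
  · subst h
    obtain ⟨c, hc⟩ := ModularForm.eq_const_of_weight_zero (CuspForm.toModularFormₗ G)
    have hinf : IsCusp OnePoint.infty 𝒮ℒ := by
      rw [isCusp_SL2Z_iff']
      exact ⟨1, by simp⟩
    have hinf' : IsCusp OnePoint.infty (G0 N) :=
      (Subgroup.IsArithmetic.isCusp_iff_isCusp_SL2Z (G0 N)).mpr hinf
    have hzero : IsZeroAtImInfty (⇑G : ℍ → ℂ) := by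
      have := G.zero_at_cusps' hinf' 1 (one_smul _ _)
      simpa using this
    have hG : (⇑G : ℍ → ℂ) = Function.const ℍ c := hc
    rw [hG] at hzero
    have hc0 : c = 0 := tendsto_nhds_unique tendsto_const_nhds hzero
    rw [hG, hc0]
    rfl

theorem weight_le_core [NeZero N] (e : Fin n ≃ Q N) (hdet : ∀ z, (Phi F e z).det ≠ 0)
    (hdual : ∀ i j, Tendsto (fun z : ℍ => Δ z * (Phi F e z)⁻¹ j i) atImInfty (𝓝 0))
    (heven : ∀ i, Even (w i)) (i : Fin n) : w i ≤ 10 := by
  by_contra hcon
  push Not at hcon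
  obtain ⟨m, hm⟩ := heven i
  have hk : (12 - w i) + w i = 12 := by ring
  obtain ⟨z, hz⟩ := exists_Gfun_ne_zero e hdet i
  exact hz (cuspForm_eq_zero_of_nonpos (show 12 - w i ≤ 0 by omega)
    (Gform e hdet hdual i (12 - w i) hk) z)

/-! ### The dimension of `S₂` -/

/-- Level one cusp forms of weight `≤ 12` are multiples of `Δ` (zero if the weight is `< 12`). -/
theorem levelOne_cusp_eq {k : ℤ} (hk : k ≤ 12) (T : CuspForm 𝒮ℒ k) :
    ∃ r : ℂ, (∀ z, T z = r * Δ z) ∧ (k ≠ 12 → r = 0) := by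
  rcases hk.lt_or_eq with h | h
  · refine ⟨0, fun z => ?_, fun _ => rfl⟩
    have h0 := ModularFormClass.levelOne_neg_weight_eq_zero (show k - 12 < 0 by omega)
      (CuspForm.discriminantEquiv T)
    have h1 := ModularForm.discriminant_mul_discriminantEquiv_apply T z
    rw [h0] at h1
    simpa using h1.symm
  · subst h
    have h12 : (12 : ℤ) - 12 = 0 := by norm_num
    obtain ⟨c, hc⟩ := ModularFormClass.levelOne_weight_zero_const
      (ModularForm.mcast h12 (CuspForm.discriminantEquiv T))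
    refine ⟨c, fun z => ?_, fun h => absurd rfl h⟩
    have h1 := ModularForm.discriminant_mul_discriminantEquiv_apply T z
    have h2 : (CuspForm.discriminantEquiv T) z = c := congrFun hc z
    rw [h2] at h1
    rw [← h1, mul_comm]

theorem quotientFunc_mul {k₁ k₂ : ℤ} (f : CuspForm (G0 N) k₁) (g : ModularForm (G0 N) k₂)
    (q : Q N) (z : ℍ) :
    SlashInvariantForm.quotientFunc (f.mulModularForm g) q z =
      SlashInvariantForm.quotientFunc f q z * SlashInvariantForm.quotientFunc g q z := by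
  induction q using Quotient.inductionOn with
  | h r =>
    obtain ⟨r, γ, rfl⟩ := r
    simp only [SlashInvariantForm.quotientFunc_mk]
    rw [CuspForm.coe_mulModularForm]
    have h1 : (mapGL ℝ γ : GL (Fin 2) ℝ)⁻¹ = mapGL ℝ γ⁻¹ := (map_inv _ _).symm
    rw [h1]
    exact congrFun (ModularForm.mul_slash_SL2 k₁ k₂ γ⁻¹ f g) z

theorem quotientFunc_base {k : ℤ} (f : CuspForm (G0 N) k) (z : ℍ) :
    SlashInvariantForm.quotientFunc f ((1 : 𝒮ℒ) : Q N) z = f z := by
  show ((⇑f : ℍ → ℂ) ∣[k] ((1 : 𝒮ℒ) : GL (Fin 2) ℝ)⁻¹) z = f z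
  simp

theorem finrank_core [NeZero N] (e : Fin n ≃ Q N) (hdet : ∀ z, (Phi F e z).det ≠ 0)
    (hdual : ∀ i j, Tendsto (fun z : ℍ => Δ z * (Phi F e z)⁻¹ j i) atImInfty (𝓝 0))
    (hle : ∀ i, w i ≤ 10) :
    Module.finrank ℂ (CuspForm (G0 N) 2) = (Finset.univ.filter fun i => w i = 10).card := by
  classical
  let _ : Fintype (Q N) := Fintype.ofFinite (Q N)
  let G : {i : Fin n // w i = 10} → CuspForm (G0 N) 2 :=
    fun i => Gform e hdet hdual i.1 2 (by rw [i.2]; norm_num)
  let L : ({i : Fin n // w i = 10} → ℂ) →ₗ[ℂ] CuspForm (G0 N) 2 := Fintype.linearCombination ℂ G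
  have hL : ∀ (c : {i : Fin n // w i = 10} → ℂ) (z : ℍ),
      L c z = ∑ i : {i : Fin n // w i = 10}, c i * Gfun F e i.1 (base e) z := by
    intro c z
    have h1 : L c = ∑ i, c i • G i := Fintype.linearCombination_apply ℂ G c
    rw [h1]
    have h2 : ∀ (s : Finset {i : Fin n // w i = 10}),
        (∑ i ∈ s, c i • G i) z = ∑ i ∈ s, c i * Gfun F e i.1 (base e) z := by
      intro s
      induction s using Finset.induction_on with
      | empty => simp
      | insert a s ha ih =>
        rw [Finset.sum_insert ha, Finset.sum_insert ha, ← ih]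
        rfl
    exact h2 _
  have hPhiPsi : ∀ (z : ℍ) (i i' : Fin n),
      ∑ j, Phi F e z i j * (Phi F e z)⁻¹ j i' = if i = i' then 1 else 0 := by
    intro z i i'
    have hz := Matrix.mul_nonsing_inv (Phi F e z) (isUnit_iff_ne_zero.mpr (hdet z))
    have h1 := congrFun (congrFun hz i) i'
    rw [Matrix.mul_apply, Matrix.one_apply] at h1
    exact h1
  have hPsiPhi : ∀ (z : ℍ) (j j' : Fin n),
      ∑ i, (Phi F e z)⁻¹ j i * Phi F e z i j' = if j = j' then 1 else 0 := by
    intro z j j'
    have hz := Matrix.nonsing_inv_mul (Phi F e z) (isUnit_iff_ne_zero.mpr (hdet z))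
    have h1 := congrFun (congrFun hz j) j'
    rw [Matrix.mul_apply, Matrix.one_apply] at h1
    exact h1
  have hinj : Function.Injective L := by
    rw [← LinearMap.ker_eq_bot, LinearMap.ker_eq_bot']
    intro c hc
    have hc' : ∀ z, ∑ i : {i : Fin n // w i = 10}, c i * Gfun F e i.1 (base e) z = 0 := by
      intro z
      rw [← hL, hc]
      rfl
    have hall : ∀ j z, ∑ i : {i : Fin n // w i = 10}, c i * Gfun F e i.1 j z = 0 := by
      intro j z
      obtain ⟨g, hg⟩ := exists_perm_base e j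
      have hd : (denom g z : ℂ) ^ (2 : ℤ) ≠ 0 := zpow_ne_zero _ (denom_ne_zero g z)
      have h1 : denom g z ^ (2 : ℤ) * ∑ i : {i : Fin n // w i = 10}, c i * Gfun F e i.1 j z =
          ∑ i : {i : Fin n // w i = 10}, c i * Gfun F e i.1 (base e) (g • z) := by
        rw [Finset.mul_sum]
        refine Finset.sum_congr rfl fun i _ => ?_
        rw [Gfun_smul e hdet g z i.1 (base e), hg, i.2]
        norm_num
        ring
      rw [hc'] at h1
      exact (mul_eq_zero.mp h1).resolve_left hd
    funext i₀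
    have h2 : ∑ j, Phi F e UpperHalfPlane.I i₀.1 j *
        ∑ i : {i : Fin n // w i = 10}, c i * Gfun F e i.1 j UpperHalfPlane.I = 0 := by
      refine Finset.sum_eq_zero fun j _ => ?_
      rw [hall, mul_zero]
    have h3 : ∑ j, Phi F e UpperHalfPlane.I i₀.1 j *
        ∑ i : {i : Fin n // w i = 10}, c i * Gfun F e i.1 j UpperHalfPlane.I =
        Δ UpperHalfPlane.I * c i₀ := by
      simp only [Finset.mul_sum, Gfun]
      rw [Finset.sum_comm]
      have h4 : ∀ i : {i : Fin n // w i = 10},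
          ∑ j, Phi F e UpperHalfPlane.I i₀.1 j *
            (c i * (Δ UpperHalfPlane.I * (Phi F e UpperHalfPlane.I)⁻¹ j i.1)) =
          Δ UpperHalfPlane.I * c i * (if i₀.1 = i.1 then 1 else 0) := by
        intro i
        rw [← hPhiPsi UpperHalfPlane.I i₀.1 i.1, Finset.mul_sum]
        refine Finset.sum_congr rfl fun j _ => by ring
      rw [Finset.sum_congr rfl fun i _ => h4 i]
      rw [Finset.sum_eq_single i₀]
      · simp
      · intro i _ hi
        have : ¬ (i₀.1 = i.1) := fun h => hi (Subtype.ext h.symm)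
        simp [this]
      · intro h
        exact absurd (Finset.mem_univ _) h
    rw [h3] at h2
    exact (mul_eq_zero.mp h2).resolve_left (discriminant_ne_zero _)
  have hsurj : Function.Surjective L := by
    intro f
    have htr : ∀ i : Fin n, ∃ r : ℂ,
        (∀ z, ∑ j, Phi F e z i j * SlashInvariantForm.quotientFunc f (e j) z = r * Δ z) ∧
        (w i ≠ 10 → r = 0) := by
      intro i
      obtain ⟨r, hr, hr0⟩ := levelOne_cusp_eq (show 2 + w i ≤ 12 by have := hle i; omega)
        (CuspForm.trace 𝒮ℒ (f.mulModularForm (F i)))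
      refine ⟨r, fun z => ?_, fun h => hr0 (by omega)⟩
      rw [← hr z, CuspForm.coe_trace, Finset.sum_apply, ← Equiv.sum_comp e]
      refine Finset.sum_congr rfl fun j _ => ?_
      rw [quotientFunc_mul, mul_comm]
      rfl
    choose r hr hr0 using htr
    refine ⟨fun i => r i.1, ?_⟩
    apply DFunLike.ext
    intro z
    rw [hL]
    -- `f z` is the entry of the vector of translates at the trivial coset
    have hfz : f z = SlashInvariantForm.quotientFunc f (e (base e)) z := by
      rw [base, Equiv.apply_symm_apply, quotientFunc_base]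
    have h1 : SlashInvariantForm.quotientFunc f (e (base e)) z =
        ∑ i, (Phi F e z)⁻¹ (base e) i * (r i * Δ z) := by
      have h2 : ∑ i, (Phi F e z)⁻¹ (base e) i * (r i * Δ z) =
          ∑ i, (Phi F e z)⁻¹ (base e) i *
            ∑ j, Phi F e z i j * SlashInvariantForm.quotientFunc f (e j) z := by
        refine Finset.sum_congr rfl fun i _ => ?_
        rw [hr i z]
      rw [h2]
      simp only [Finset.mul_sum]
      rw [Finset.sum_comm]
      have h4 : ∀ j, ∑ i, (Phi F e z)⁻¹ (base e) i *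
          (Phi F e z i j * SlashInvariantForm.quotientFunc f (e j) z) =
          (if base e = j then 1 else 0) * SlashInvariantForm.quotientFunc f (e j) z := by
        intro j
        rw [← hPsiPhi z (base e) j, Finset.sum_mul]
        refine Finset.sum_congr rfl fun i _ => by ring
      rw [Finset.sum_congr rfl fun j _ => h4 j, Finset.sum_eq_single (base e)]
      · simp
      · intro j _ hj
        simp [Ne.symm hj]
      · intro h
        exact absurd (Finset.mem_univ _) h
    rw [hfz, h1]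
    have h5 : ∑ i, (Phi F e z)⁻¹ (base e) i * (r i * Δ z) =
        ∑ i ∈ Finset.univ.filter (fun i => w i = 10), r i * Gfun F e i (base e) z := by
      rw [Finset.sum_filter]
      refine Finset.sum_congr rfl fun i _ => ?_
      by_cases h : w i = 10
      · rw [if_pos h]
        simp only [Gfun]
        ring
      · rw [if_neg h, hr0 i h]
        ring
    rw [h5]
    exact (Finset.sum_subtype (Finset.univ.filter (fun i => w i = 10)) (by simp)
      (fun i => r i * Gfun F e i (base e) z)).symm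
  have h1 := (LinearEquiv.ofBijective L ⟨hinj, hsurj⟩).finrank_eq
  rw [← h1, Module.finrank_fintype_fun_eq_card, Fintype.card_subtype]

end Dual

end Fermat.Agent.S20.Frame

end
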