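/-
S20 Frame route, auxiliary file for piece ELL: eigenspace dimensions of the composition operator
`v ↦ v ∘ σ` on `X → ℂ` for a self-map `σ` of a finite set with `σ² = id` or `σ³ = id`, and the
resulting counting statements for a basis of eigenvectors.
-/
import Mathlib

set_option autoImplicit false

noncomputable section

namespace Fermat.Agent.S20.Frame.PermEig

open Module

variable {X : Type*}

/-- the composition operator `v ↦ v ∘ σ` -/
def op (σ : X → X) : (X → ℂ) →ₗ[ℂ] (X → ℂ) := LinearMap.funLeft ℂ ℂ σ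

@[simp] lemma op_apply (σ : X → X) (v : X → ℂ) (x : X) : op σ v x = v (σ x) := rfl

lemma finrank_fun [Finite X] : finrank ℂ (X → ℂ) = Nat.card X := by
  cases nonempty_fintype X
  rw [Module.finrank_fintype_fun_eq_card, Nat.card_eq_fintype_card]

lemma trace_op [Finite X] (σ : X → X) :
    LinearMap.trace ℂ (X → ℂ) (op σ) = (Nat.card {x : X // σ x = x} : ℂ) := by
  classical
  cases nonempty_fintype X
  rw [LinearMap.trace_eq_matrix_trace ℂ (Pi.basisFun ℂ X)]
  have h1 : ∀ x : X, LinearMap.toMatrix (Pi.basisFun ℂ X) (Pi.basisFun ℂ X)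
      (op σ) x x = if σ x = x then 1 else 0 := by
    intro x
    rw [LinearMap.toMatrix_apply, Pi.basisFun_repr, Pi.basisFun_apply, op_apply, Pi.single_apply]
  rw [Matrix.trace]
  simp only [Matrix.diag_apply, h1]
  rw [Finset.sum_boole, Nat.card_eq_fintype_card, Fintype.card_subtype]

lemma mem_ker_iff (σ : X → X) (ε : ℂ) (v : X → ℂ) :
    v ∈ LinearMap.ker (op σ - ε • (1 : (X → ℂ) →ₗ[ℂ] (X → ℂ))) ↔ ∀ x, v (σ x) = ε * v x := by
  simp only [LinearMap.mem_ker, LinearMap.sub_apply, LinearMap.smul_apply, Module.End.one_apply,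
    funext_iff, Pi.sub_apply, op_apply, Pi.smul_apply, smul_eq_mul, Pi.zero_apply, sub_eq_zero]

/-- eigenspace dimensions for an involution -/
lemma finrank_eig_two [Finite X] (σ : X → X) (hσ : ∀ x, σ (σ x) = x) (ε : ℂ) (hε : ε ^ 2 = 1) :
    (2 * finrank ℂ (LinearMap.ker (op σ - ε • (1 : (X → ℂ) →ₗ[ℂ] (X → ℂ)))) : ℂ) =
      Nat.card X + ε * Nat.card {x : X // σ x = x} := by
  have hproj : LinearMap.IsProj (LinearMap.ker (op σ - ε • (1 : (X → ℂ) →ₗ[ℂ] (X → ℂ))))
      ((1 / 2 : ℂ) • (1 + ε • op σ)) := by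
    constructor
    · intro v
      rw [mem_ker_iff]; intro x
      simp only [LinearMap.smul_apply, LinearMap.add_apply, Module.End.one_apply, Pi.smul_apply,
        Pi.add_apply, op_apply, hσ, smul_eq_mul]
      linear_combination (-1 / 2 : ℂ) * v (σ x) * hε
    · intro v hv
      rw [mem_ker_iff] at hv
      funext x
      simp only [LinearMap.smul_apply, LinearMap.add_apply, Module.End.one_apply, Pi.smul_apply,
        Pi.add_apply, op_apply, smul_eq_mul, hv x]
      linear_combination (1 / 2 : ℂ) * v x * hε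
  have h1 := hproj.trace
  rw [map_smul, map_add, map_smul, LinearMap.trace_one, trace_op, finrank_fun, smul_eq_mul,
    smul_eq_mul] at h1
  linear_combination (-2 : ℂ) * h1

/-- eigenspace dimensions for a map of order three -/
lemma finrank_eig_three [Finite X] (σ : X → X) (hσ : ∀ x, σ (σ (σ x)) = x) (ζ : ℂ)
    (hζ : ζ ^ 3 = 1) :
    (3 * finrank ℂ (LinearMap.ker (op σ - ζ • (1 : (X → ℂ) →ₗ[ℂ] (X → ℂ)))) : ℂ) =
      Nat.card X + (ζ ^ 2 + ζ) * Nat.card {x : X // σ x = x} := by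
  have hproj : LinearMap.IsProj (LinearMap.ker (op σ - ζ • (1 : (X → ℂ) →ₗ[ℂ] (X → ℂ))))
      ((1 / 3 : ℂ) • (1 + ζ ^ 2 • op σ + ζ • op (σ ∘ σ))) := by
    constructor
    · intro v
      rw [mem_ker_iff]; intro x
      simp only [LinearMap.smul_apply, LinearMap.add_apply, Module.End.one_apply, Pi.smul_apply,
        Pi.add_apply, op_apply, Function.comp_apply, hσ, smul_eq_mul]
      linear_combination (-1 / 3 : ℂ) * v (σ x) * hζ
    · intro v hv
      rw [mem_ker_iff] at hv
      funext x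
      simp only [LinearMap.smul_apply, LinearMap.add_apply, Module.End.one_apply, Pi.smul_apply,
        Pi.add_apply, op_apply, Function.comp_apply, smul_eq_mul, hv (σ x), hv x]
      linear_combination (2 / 3 : ℂ) * v x * hζ
  have hfix : Nat.card {x : X // (σ ∘ σ) x = x} = Nat.card {x : X // σ x = x} := by
    refine Nat.card_congr (Equiv.subtypeEquivRight fun x => ?_)
    simp only [Function.comp_apply]
    constructor
    · intro h
      have h2 := congrArg σ h
      rw [hσ] at h2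
      exact h2.symm
    · intro h
      rw [h, h]
  have h1 := hproj.trace
  rw [map_smul, map_add, map_add, map_smul, map_smul, LinearMap.trace_one, trace_op, trace_op,
    hfix, finrank_fun, smul_eq_mul, smul_eq_mul, smul_eq_mul] at h1
  linear_combination (-3 : ℂ) * h1

/-- independent vectors inside a submodule -/
lemma card_le_finrank {n : ℕ} (v : Fin n → (X → ℂ)) (hv : LinearIndependent ℂ v)
    (s : Finset (Fin n)) (W : Submodule ℂ (X → ℂ)) [Module.Finite ℂ W]
    (h : ∀ i ∈ s, v i ∈ W) : s.card ≤ finrank ℂ W := by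
  have h1 : LinearIndependent ℂ (fun i : s => (⟨v i, h i i.2⟩ : W)) := by
    apply LinearIndependent.of_comp W.subtype
    exact hv.comp (fun i : s => (i : Fin n)) Subtype.val_injective
  have h2 := h1.fintype_card_le_finrank
  simpa using h2

/-- **Counting for an involution**: if a basis of `X → ℂ` consists of `σ`-invariant and
`σ`-anti-invariant vectors, the number of anti-invariant ones is `(card X - #fix σ) / 2`. -/
theorem count_two [Finite X] (σ : X → X) (hσ : ∀ x, σ (σ x) = x) {n : ℕ} (hn : n = Nat.card X)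
    (v : Fin n → (X → ℂ)) (hv : LinearIndependent ℂ v) (s : Finset (Fin n))
    (h1 : ∀ i ∈ s, ∀ x, v i (σ x) = - v i x) (h2 : ∀ i, i ∉ s → ∀ x, v i (σ x) = v i x) :
    2 * s.card + Nat.card {x : X // σ x = x} = Nat.card X := by
  classical
  have e1 := finrank_eig_two σ hσ (-1) (by norm_num)
  have e2 := finrank_eig_two σ hσ 1 (by norm_num)
  have c1 : s.card ≤ finrank ℂ (LinearMap.ker (op σ - (-1 : ℂ) • (1 : (X → ℂ) →ₗ[ℂ] (X → ℂ)))) :=
    card_le_finrank v hv s _ fun i hi => by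
      rw [mem_ker_iff]; intro x; rw [h1 i hi x]; ring
  have c2 : sᶜ.card ≤ finrank ℂ (LinearMap.ker (op σ - (1 : ℂ) • (1 : (X → ℂ) →ₗ[ℂ] (X → ℂ)))) :=
    card_le_finrank v hv sᶜ _ fun i hi => by
      rw [mem_ker_iff]; intro x; rw [h2 i (Finset.mem_compl.1 hi) x]; ring
  have c3 : s.card + sᶜ.card = n := by
    rw [Finset.card_add_card_compl, Fintype.card_fin]
  set d1 := finrank ℂ (LinearMap.ker (op σ - (-1 : ℂ) • (1 : (X → ℂ) →ₗ[ℂ] (X → ℂ))))
  set d2 := finrank ℂ (LinearMap.ker (op σ - (1 : ℂ) • (1 : (X → ℂ) →ₗ[ℂ] (X → ℂ))))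
  have e1' : 2 * d1 + Nat.card {x : X // σ x = x} = Nat.card X := by
    have : ((2 * d1 + Nat.card {x : X // σ x = x} : ℕ) : ℂ) = ((Nat.card X : ℕ) : ℂ) := by
      push_cast; linear_combination e1
    exact_mod_cast this
  have e2' : 2 * d2 = Nat.card X + Nat.card {x : X // σ x = x} := by
    have : ((2 * d2 : ℕ) : ℂ) = ((Nat.card X + Nat.card {x : X // σ x = x} : ℕ) : ℂ) := by
      push_cast; linear_combination e2
    exact_mod_cast this
  omega

/-- **Counting for a map of order three**: if a basis of `X → ℂ` consists of eigenvectors for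
the eigenvalues `1`, `ζ`, `ζ²` (`ζ` a primitive cube root of unity), then the number of
eigenvectors for each of `ζ`, `ζ²` is `(card X - #fix σ) / 3`. -/
theorem count_three [Finite X] (σ : X → X) (hσ : ∀ x, σ (σ (σ x)) = x) (ζ : ℂ)
    (hζ : ζ ^ 2 + ζ + 1 = 0) {n : ℕ} (hn : n = Nat.card X)
    (v : Fin n → (X → ℂ)) (hv : LinearIndependent ℂ v) (s₀ s₁ s₂ : Finset (Fin n))
    (hcover : ∀ i, i ∈ s₀ ∨ i ∈ s₁ ∨ i ∈ s₂)
    (h0 : ∀ i ∈ s₀, ∀ x, v i (σ x) = v i x) (h1 : ∀ i ∈ s₁, ∀ x, v i (σ x) = ζ * v i x)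
    (h2 : ∀ i ∈ s₂, ∀ x, v i (σ x) = ζ ^ 2 * v i x) :
    3 * s₁.card + Nat.card {x : X // σ x = x} = Nat.card X ∧
      3 * s₂.card + Nat.card {x : X // σ x = x} = Nat.card X := by
  classical
  have hζ3 : ζ ^ 3 = 1 := by linear_combination (ζ - 1) * hζ
  have e0 := finrank_eig_three σ hσ 1 (by norm_num)
  have e1 := finrank_eig_three σ hσ ζ hζ3
  have e2 := finrank_eig_three σ hσ (ζ ^ 2) (by linear_combination (ζ ^ 3 + 1) * hζ3)
  have c0 : s₀.card ≤ finrank ℂ (LinearMap.ker (op σ - (1 : ℂ) • (1 : (X → ℂ) →ₗ[ℂ] (X → ℂ)))) :=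
    card_le_finrank v hv s₀ _ fun i hi => by
      rw [mem_ker_iff]; intro x; rw [h0 i hi x]; ring
  have c1 : s₁.card ≤ finrank ℂ (LinearMap.ker (op σ - ζ • (1 : (X → ℂ) →ₗ[ℂ] (X → ℂ)))) :=
    card_le_finrank v hv s₁ _ fun i hi => by
      rw [mem_ker_iff]; intro x; rw [h1 i hi x]
  have c2 : s₂.card ≤
      finrank ℂ (LinearMap.ker (op σ - (ζ ^ 2) • (1 : (X → ℂ) →ₗ[ℂ] (X → ℂ)))) :=
    card_le_finrank v hv s₂ _ fun i hi => by
      rw [mem_ker_iff]; intro x; rw [h2 i hi x]
  have c3 : n ≤ s₀.card + s₁.card + s₂.card := by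
    have h3 : (Finset.univ : Finset (Fin n)) ⊆ s₀ ∪ s₁ ∪ s₂ := by
      intro i _
      rcases hcover i with h | h | h
      · exact Finset.mem_union_left _ (Finset.mem_union_left _ h)
      · exact Finset.mem_union_left _ (Finset.mem_union_right _ h)
      · exact Finset.mem_union_right _ h
    have h4 := Finset.card_le_card h3
    rw [Finset.card_univ, Fintype.card_fin] at h4
    have h5 := Finset.card_union_le (s₀ ∪ s₁) s₂
    have h6 := Finset.card_union_le s₀ s₁
    omega
  set d0 := finrank ℂ (LinearMap.ker (op σ - (1 : ℂ) • (1 : (X → ℂ) →ₗ[ℂ] (X → ℂ))))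
  set d1 := finrank ℂ (LinearMap.ker (op σ - ζ • (1 : (X → ℂ) →ₗ[ℂ] (X → ℂ))))
  set d2 := finrank ℂ (LinearMap.ker (op σ - (ζ ^ 2) • (1 : (X → ℂ) →ₗ[ℂ] (X → ℂ))))
  have e0' : 3 * d0 = Nat.card X + 2 * Nat.card {x : X // σ x = x} := by
    have : ((3 * d0 : ℕ) : ℂ) = ((Nat.card X + 2 * Nat.card {x : X // σ x = x} : ℕ) : ℂ) := by
      push_cast; linear_combination e0
    exact_mod_cast this
  have e1' : 3 * d1 + Nat.card {x : X // σ x = x} = Nat.card X := by
    have : ((3 * d1 + Nat.card {x : X // σ x = x} : ℕ) : ℂ) = ((Nat.card X : ℕ) : ℂ) := by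
      push_cast
      linear_combination e1 + (Nat.card {x : X // σ x = x} : ℂ) * hζ
    exact_mod_cast this
  have e2' : 3 * d2 + Nat.card {x : X // σ x = x} = Nat.card X := by
    have : ((3 * d2 + Nat.card {x : X // σ x = x} : ℕ) : ℂ) = ((Nat.card X : ℕ) : ℂ) := by
      push_cast
      linear_combination e2 + (Nat.card {x : X // σ x = x} : ℂ) * (ζ ^ 2 - ζ + 1) * hζ
    exact_mod_cast this
  omega

end Fermat.Agent.S20.Frame.PermEig
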