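/-
S20 Frame route, piece ELL (core): independence of the rows of the matrix of translates of a
frame at the elliptic points `i` and `ρ`, and the resulting counts of the weights mod 4 and
mod 6, with the inputs from the pieces LVL1 / QUOT / BASIC / CARD as explicit hypotheses.
-/
import Mathlib
import Fermat.Agent.S20.Frame.Defs
import Fermat.Agent.S20.Frame.PermEig
import Fermat.Agent.S20.Frame.Comb
import Fermat.Agent.S21.ParBound
import Fermat.Agent.S24.JLocal

set_option autoImplicit false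

open UpperHalfPlane ModularForm CongruenceSubgroup Matrix.SpecialLinearGroup EisensteinSeries
open scoped MatrixGroups ModularForm Manifold Topology

noncomputable section

namespace Fermat.Agent.S20.Frame.Elliptic

variable {N : ℕ} [NeZero N]

lemma G0_le (N : ℕ) : G0 N ≤ 𝒮ℒ := Subgroup.map_le_range _ _

/-- restriction of a modular form to a smaller group -/
def restr {Γ Γ' : Subgroup (GL (Fin 2) ℝ)} {k : ℤ} (h : Γ' ≤ Γ) (f : ModularForm Γ k) :
    ModularForm Γ' k where
  toFun := f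
  slash_action_eq' γ hγ := f.slash_action_eq' γ (h hγ)
  holo' := f.holo'
  bdd_at_cusps' hc := f.bdd_at_cusps' (hc.mono h)

/-- a level one form times a `Γ₀(N)`-form -/
def lmul {a b k : ℤ} (h : a + b = k) (r : ModularForm 𝒮ℒ a) (f : ModularForm (G0 N) b) :
    ModularForm (G0 N) k :=
  ModularForm.mcast h ((restr (G0_le N) r).mul f)

lemma lmul_apply {a b k : ℤ} (h : a + b = k) (r : ModularForm 𝒮ℒ a) (f : ModularForm (G0 N) b)
    (z : ℍ) : lmul h r f z = r z * f z := rfl

lemma coe_lmul {a b k : ℤ} (h : a + b = k) (r : ModularForm 𝒮ℒ a) (f : ModularForm (G0 N) b) :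
    (⇑(lmul h r f) : ℍ → ℂ) = ⇑r * ⇑f := rfl

lemma SL_slash' (f : ℍ → ℂ) (k : ℤ) (γ : SL(2, ℤ)) : f ∣[k] (mapGL ℝ γ) = f ∣[k] γ := rfl

lemma tr_lmul {a b k : ℤ} (h : a + b = k) (r : ModularForm 𝒮ℒ a) (f : ModularForm (G0 N) b)
    (q : Q N) (z : ℍ) : tr (lmul h r f) q z = r z * tr f q z := by
  induction q using Quotient.inductionOn with
  | h g =>
    show ((⇑(lmul h r f) : ℍ → ℂ) ∣[k] g.val⁻¹) z = r z * ((⇑f : ℍ → ℂ) ∣[b] g.val⁻¹) z
    obtain ⟨γ, hγ⟩ : ∃ γ : SL(2, ℤ), mapGL ℝ γ = g.val⁻¹ := inv_mem g.2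
    subst h
    rw [← hγ, coe_lmul, SL_slash', SL_slash', ModularForm.mul_slash_SL2, Pi.mul_apply]
    have h2 : (⇑r : ℍ → ℂ) ∣[a] (mapGL ℝ γ) = ⇑r :=
      SlashInvariantFormClass.slash_action_eq r (mapGL ℝ γ) (MonoidHom.mem_range.2 ⟨γ, rfl⟩)
    rw [SL_slash'] at h2
    rw [h2]

/-- evaluation of a translate, as a linear map -/
def trL (k : ℤ) (q : Q N) (z : ℍ) : ModularForm (G0 N) k →ₗ[ℂ] ℂ where
  toFun f := tr f q z
  map_add' f g := by
    induction q using Quotient.inductionOn with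
    | h h =>
      show ((⇑(f + g) : ℍ → ℂ) ∣[k] h.val⁻¹) z = _
      rw [ModularForm.coe_add, SlashAction.add_slash]
      rfl
  map_smul' c f := by
    induction q using Quotient.inductionOn with
    | h h =>
      show ((⇑(c • f) : ℍ → ℂ) ∣[k] h.val⁻¹) z = c • ((⇑f : ℍ → ℂ) ∣[k] h.val⁻¹) z
      obtain ⟨γ, hγ⟩ : ∃ γ : SL(2, ℤ), mapGL ℝ γ = h.val⁻¹ := inv_mem h.2
      rw [← hγ, SL_slash', SL_slash', ModularForm.coe_smul, ModularForm.SL_smul_slash]
      rfl

lemma trL_apply (k : ℤ) (q : Q N) (z : ℍ) (f : ModularForm (G0 N) k) : trL k q z f = tr f q z :=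
  rfl

/-- evaluation as a linear map -/
def evL (k : ℤ) (z : ℍ) : ModularForm (G0 N) k →ₗ[ℂ] ℂ where
  toFun f := f z
  map_add' _ _ := rfl
  map_smul' _ _ := rfl

/-- the translates at a fixed point of `γ` are eigenvectors of the permutation of the cosets -/
lemma tr_smul_fixed {k : ℤ} (f : ModularForm (G0 N) k) (γ : SL(2, ℤ)) (z₀ : ℍ)
    (hz : γ • z₀ = z₀) (q : Q N) :
    tr f (toSL γ • q) z₀ = (denom γ z₀) ^ k * tr f q z₀ := by
  have h1 := SlashInvariantForm.quotientFunc_smul f (h := mapGL ℝ γ)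
    (MonoidHom.mem_range.2 ⟨γ, rfl⟩) (toSL γ • q)
  have h2 : ((⟨mapGL ℝ γ, MonoidHom.mem_range.2 ⟨γ, rfl⟩⟩ : 𝒮ℒ)⁻¹ • toSL γ • q) = q :=
    inv_smul_smul (toSL γ) q
  rw [h2] at h1
  have h3 := congrFun h1 z₀
  rw [SL_slash', ModularForm.SL_slash_apply, hz] at h3
  have hd : denom γ z₀ ≠ 0 := denom_ne_zero γ z₀
  show SlashInvariantForm.quotientFunc f (toSL γ • q) z₀ =
    denom γ z₀ ^ k * SlashInvariantForm.quotientFunc f q z₀
  rw [← h3, mul_comm, mul_assoc, ← zpow_add₀ hd, neg_add_cancel, zpow_zero, mul_one]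

section frame

variable {n : ℕ} {w : Fin n → ℤ} {F : (i : Fin n) → ModularForm (G0 N) (w i)}

/-- **Homogeneous class lemma.** If all the translates of `∑ c i • F i` vanish at `z₀`, the
weights `w i` with `c i ≠ 0` are congruent modulo the weight `a` of a level one form `A` with
`A z₀ ≠ 0`, and forms all of whose translates vanish at `z₀` are divisible by a level one form
`B` with `B z₀ = 0`, then `c = 0`. -/
theorem indep_class (hF : IsFrame N w F) (z₀ : ℍ) {a b : ℤ} (A : ModularForm 𝒮ℒ a)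
    (B : ModularForm 𝒮ℒ b) (hA : A z₀ ≠ 0) (hB : B z₀ = 0)
    (hdiv : ∀ (k : ℤ) (G : ModularForm (G0 N) k), (∀ q : Q N, tr G q z₀ = 0) →
      ∃ g : ModularForm (G0 N) (k - b), ∀ z, G z = B z * g z)
    (c : Fin n → ℂ) (hc : ∀ q : Q N, ∑ i, c i * tr (F i) q z₀ = 0)
    (k : ℤ) (e : Fin n → ℕ) (he : ∀ i, c i ≠ 0 → (e i : ℤ) * a = k - w i) : c = 0 := by
  classical
  -- the level one coefficients
  let r : (i : Fin n) → ModularForm 𝒮ℒ (k - w i) := fun i =>
    if h : c i ≠ 0 then (c i / A z₀ ^ e i) • ModularForm.mcast (he i h) (A.pow (e i)) else 0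
  have hr : ∀ i, r i z₀ = c i := by
    intro i
    by_cases h : c i ≠ 0
    · have h1 : r i = (c i / A z₀ ^ e i) • ModularForm.mcast (he i h) (A.pow (e i)) := dif_pos h
      rw [h1]
      show (c i / A z₀ ^ e i) * (A.pow (e i)) z₀ = c i
      rw [ModularForm.coe_pow, Pi.pow_apply]
      field_simp
    · have h1 : r i = 0 := dif_neg h
      rw [h1]
      rw [not_not] at h
      rw [h]
      rfl
  let G : ModularForm (G0 N) k :=
    ∑ i, lmul (show (k - w i) + w i = k by ring) (r i) (F i)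
  have hG : ∀ q : Q N, tr G q z₀ = 0 := by
    intro q
    have h1 : tr G q z₀ = ∑ i, r i z₀ * tr (F i) q z₀ := by
      show trL k q z₀ G = _
      rw [map_sum]
      exact Finset.sum_congr rfl fun i _ => tr_lmul _ _ _ _ _
    rw [h1]
    simp only [hr]
    exact hc q
  obtain ⟨g, hg⟩ := hdiv k G hG
  obtain ⟨s, hs⟩ := hF.span (k - b) g
  have hGz : ∀ z, G z = ∑ i, r i z * F i z := by
    intro z
    show evL k z G = _
    rw [map_sum]
    rfl
  let t : (i : Fin n) → ModularForm 𝒮ℒ (k - w i) := fun i =>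
    r i - ModularForm.mcast (show b + (k - b - w i) = k - w i by ring) (B.mul (s i))
  have ht : ∀ (i : Fin n) (z : ℍ), t i z = r i z - B z * s i z := fun i z => rfl
  have hrel := hF.indep k t (by
    intro z
    have h1 : ∀ i, t i z * F i z = r i z * F i z - B z * (s i z * F i z) := by
      intro i
      rw [ht]
      ring
    simp only [h1]
    rw [Finset.sum_sub_distrib, ← Finset.mul_sum, ← hs z, ← hg z, ← hGz z, sub_self])
  funext i
  have h1 : t i z₀ = 0 := by
    rw [hrel i]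
    rfl
  rw [ht, hr, hB, zero_mul, sub_zero] at h1
  exact h1

/-- **Independence at a fixed point.** `γ` fixes `z₀`, the eigenvalue `(denom γ z₀) ^ (w i)` of
the row of `F i` is `ω ^ cls i` with `w i ≡ 2 cls i` modulo the weight `a = 2 d` of `A`. -/
theorem indep_fixed (hF : IsFrame N w F) (γ : SL(2, ℤ)) (z₀ : ℍ) (hz : γ • z₀ = z₀)
    {a b : ℤ} (A : ModularForm 𝒮ℒ a) (B : ModularForm 𝒮ℒ b) (hA : A z₀ ≠ 0) (hB : B z₀ = 0)
    (hdiv : ∀ (k : ℤ) (G : ModularForm (G0 N) k), (∀ q : Q N, tr G q z₀ = 0) →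
      ∃ g : ModularForm (G0 N) (k - b), ∀ z, G z = B z * g z)
    (d : ℕ) (hd : 0 < d) (ha : a = 2 * d) (ω : ℂ)
    (hproj : ∀ s t : ℕ, s < d → t < d →
      ∑ j ∈ Finset.range d, (ω ^ (d - t)) ^ j * (ω ^ s) ^ j = if s = t then (d : ℂ) else 0)
    (cls : Fin n → ℕ) (hcls : ∀ i, cls i < d) (hw : ∀ i, w i % a = 2 * cls i)
    (hε : ∀ i, denom γ z₀ ^ (w i) = ω ^ cls i)
    (c : Fin n → ℂ) (hc : ∀ q : Q N, ∑ i, c i * tr (F i) q z₀ = 0) : c = 0 := by
  classical
  -- iterate the relation along the orbit of `q`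
  have iter : ∀ (j : ℕ) (q : Q N), ∑ i, c i * ((ω ^ cls i) ^ j * tr (F i) q z₀) = 0 := by
    intro j
    induction j with
    | zero => intro q; simpa using hc q
    | succ j ih =>
      intro q
      have h1 := ih (toSL γ • q)
      rw [← h1]
      refine Finset.sum_congr rfl fun i _ => ?_
      rw [tr_smul_fixed (F i) γ z₀ hz q, hε i, pow_succ]
      ring
  -- the class components of `c`
  have hct : ∀ t : ℕ, t < d → (fun i => if cls i = t then c i else 0) = (0 : Fin n → ℂ) := by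
    intro t ht
    have hsplit : ∀ q : Q N, ∑ i, (if cls i = t then c i else 0) * tr (F i) q z₀ = 0 := by
      intro q
      have hd' : (d : ℂ) ≠ 0 := Nat.cast_ne_zero.2 hd.ne'
      have h1 : (d : ℂ) * ∑ i, (if cls i = t then c i else 0) * tr (F i) q z₀ =
          ∑ j ∈ Finset.range d, (ω ^ (d - t)) ^ j *
            ∑ i, c i * ((ω ^ cls i) ^ j * tr (F i) q z₀) := by
        rw [Finset.mul_sum]
        simp only [Finset.mul_sum]
        rw [Finset.sum_comm]
        refine Finset.sum_congr rfl fun i _ => ?_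
        have h2 : ∑ j ∈ Finset.range d, (ω ^ (d - t)) ^ j *
            (c i * ((ω ^ cls i) ^ j * tr (F i) q z₀)) =
            (∑ j ∈ Finset.range d, (ω ^ (d - t)) ^ j * (ω ^ cls i) ^ j) *
              (c i * tr (F i) q z₀) := by
          rw [Finset.sum_mul]
          refine Finset.sum_congr rfl fun j _ => ?_
          ring
        rw [h2, hproj (cls i) t (hcls i) ht]
        by_cases h : cls i = t
        · rw [if_pos h, if_pos h]
        · rw [if_neg h, if_neg h]; ring
      have h3 : (d : ℂ) * ∑ i, (if cls i = t then c i else 0) * tr (F i) q z₀ = 0 := by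
        rw [h1]
        refine Finset.sum_eq_zero fun j _ => ?_
        rw [iter j q, mul_zero]
      exact (mul_eq_zero.1 h3).resolve_left hd'
    -- a common weight
    have ha0 : (0 : ℤ) < a := by rw [ha]; positivity
    let M : ℤ := ∑ j, |w j|
    have hM : ∀ i, w i / a ≤ M := by
      intro i
      calc w i / a ≤ |w i / a| := le_abs_self _
        _ ≤ |w i| := Int.abs_ediv_le_abs _ _
        _ ≤ M := Finset.single_le_sum (f := fun j => |w j|) (fun j _ => abs_nonneg _)
            (Finset.mem_univ i)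
    refine indep_class hF z₀ A B hA hB hdiv _ hsplit (a * M + 2 * t)
      (fun i => (M - w i / a).toNat) ?_
    intro i hi
    have hci : cls i = t := by
      by_contra h
      exact hi (if_neg h)
    have h1 : ((M - w i / a).toNat : ℤ) = M - w i / a := Int.toNat_of_nonneg (by linarith [hM i])
    have h2 := Int.emod_add_mul_ediv (w i) a
    rw [h1]
    have h3 := hw i
    rw [hci] at h3
    linear_combination h3 - h2
  funext i
  have h1 := congrFun (hct (cls i) (hcls i)) i
  simpa using h1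

lemma zpow_eq_of_emod {x : ℂ} (hx : x ≠ 0) {d : ℕ} (hd : x ^ d = 1) (m : ℤ) (s : ℕ)
    (hs : m % (d : ℤ) = s) : x ^ m = x ^ s := by
  have h1 := Int.emod_add_mul_ediv m d
  rw [hs] at h1
  rw [← h1, zpow_add₀ hx, zpow_mul, zpow_natCast, zpow_natCast, hd, one_zpow, mul_one]

lemma S_smul_I : ModularGroup.S • (I : ℍ) = I := by
  ext1
  rw [UpperHalfPlane.modular_S_smul]
  simp [UpperHalfPlane.coe_I, Complex.inv_I]

lemma ST_smul_rho : (ModularGroup.S * ModularGroup.T) • rho = rho := by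
  rw [← Fermat.Agent.S24.JLocal.gST_eq]
  exact Fermat.Agent.S24.JLocal.gST_smul_rho

lemma denom_ST_rho :
    denom ((ModularGroup.S * ModularGroup.T : SL(2, ℤ)) : GL (Fin 2) ℝ) rho = (rho : ℂ) + 1 := by
  rw [← Fermat.Agent.S24.JLocal.gST_eq]
  exact Fermat.Agent.S24.JLocal.denom_gST_rho

lemma rho_sq_add : (rho : ℂ) ^ 2 + (rho : ℂ) + 1 = 0 := Fermat.Agent.S24.JLocal.rho_sq_add

/-- **ELL, independence at `i`** (inputs from LVL1 / QUOT / BASIC as hypotheses). -/
theorem indep_I_core (hF : IsFrame N w F) (hE6 : E₆ I = 0) (hE4 : E₄ I ≠ 0)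
    (heven : ∀ i, Even (w i))
    (hdiv : ∀ (k : ℤ) (G : ModularForm (G0 N) k), (∀ q : Q N, tr G q I = 0) →
      ∃ g : ModularForm (G0 N) (k - 6), ∀ z, G z = E₆ z * g z)
    (c : Fin n → ℂ) (hc : ∀ q : Q N, ∑ i, c i * tr (F i) q I = 0) : c = 0 := by
  have hmod : ∀ i, w i % 4 = 0 ∨ w i % 4 = 2 := by
    intro i
    have h1 := heven i
    rw [Int.even_iff] at h1
    omega
  refine indep_fixed hF ModularGroup.S I S_smul_I E₄ E₆ hE4 hE6 hdiv 2 (by norm_num)
    (by norm_num) (-1) ?_ (fun i => (w i % 4).toNat / 2) ?_ ?_ ?_ c hc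
  · intro s t hs ht
    interval_cases s <;> interval_cases t <;> norm_num [Finset.sum_range_succ]
  · intro i
    rcases hmod i with h | h <;> simp [h]
  · intro i
    rcases hmod i with h | h <;> simp [h]
  · intro i
    rw [ModularGroup.denom_S, UpperHalfPlane.coe_I]
    rcases hmod i with h | h
    · rw [zpow_eq_of_emod Complex.I_ne_zero Complex.I_pow_four (w i) 0 (by simpa using h)]
      simp [h]
    · rw [zpow_eq_of_emod Complex.I_ne_zero Complex.I_pow_four (w i) 2 (by simpa using h)]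
      simp [h]

/-- **ELL, independence at `ρ`** (inputs from LVL1 / QUOT / BASIC as hypotheses). -/
theorem indep_rho_core (hF : IsFrame N w F) (hE4 : E₄ rho = 0) (hE6 : E₆ rho ≠ 0)
    (heven : ∀ i, Even (w i))
    (hdiv : ∀ (k : ℤ) (G : ModularForm (G0 N) k), (∀ q : Q N, tr G q rho = 0) →
      ∃ g : ModularForm (G0 N) (k - 4), ∀ z, G z = E₄ z * g z)
    (c : Fin n → ℂ) (hc : ∀ q : Q N, ∑ i, c i * tr (F i) q rho = 0) : c = 0 := by
  have hmod : ∀ i, w i % 6 = 0 ∨ w i % 6 = 2 ∨ w i % 6 = 4 := by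
    intro i
    have h1 := heven i
    rw [Int.even_iff] at h1
    omega
  have hρ := rho_sq_add
  have hρ3 : (rho : ℂ) ^ 3 = 1 := by linear_combination ((rho : ℂ) - 1) * hρ
  have hζ0 : (rho : ℂ) + 1 ≠ 0 := Fermat.Agent.S24.JLocal.rho_add_one_ne_zero
  have hζ2 : ((rho : ℂ) + 1) ^ 2 = (rho : ℂ) := by linear_combination hρ
  have hζ4 : ((rho : ℂ) + 1) ^ 4 = (rho : ℂ) ^ 2 := by
    rw [show (4 : ℕ) = 2 * 2 from rfl, pow_mul, hζ2]
  have hζ6 : ((rho : ℂ) + 1) ^ 6 = 1 := by
    rw [show (6 : ℕ) = 2 * 3 from rfl, pow_mul, hζ2, hρ3]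
  refine indep_fixed hF (ModularGroup.S * ModularGroup.T) rho ST_smul_rho E₆ E₄ hE6 hE4 hdiv 3
    (by norm_num) (by norm_num) (rho : ℂ) ?_ (fun i => (w i % 6).toNat / 2) ?_ ?_ ?_ c hc
  · intro s t hs ht
    have h4 : (rho : ℂ) ^ 4 = (rho : ℂ) := by linear_combination (rho : ℂ) * hρ3
    have h5 : (rho : ℂ) ^ 5 = (rho : ℂ) ^ 2 := by linear_combination (rho : ℂ) ^ 2 * hρ3
    have h6 : (rho : ℂ) ^ 6 = 1 := by linear_combination ((rho : ℂ) ^ 3 + 1) * hρ3
    have h8 : (rho : ℂ) ^ 8 = (rho : ℂ) ^ 2 := by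
      linear_combination ((rho : ℂ) ^ 5 + (rho : ℂ) ^ 2) * hρ3
    have h10 : (rho : ℂ) ^ 10 = (rho : ℂ) := by
      linear_combination ((rho : ℂ) ^ 7 + (rho : ℂ) ^ 4 + (rho : ℂ)) * hρ3
    interval_cases s <;> interval_cases t <;>
      simp only [Finset.sum_range_succ, Finset.sum_range_zero, Nat.sub_zero, pow_zero, pow_one,
        ← pow_mul, ← pow_add, mul_one, one_mul, zero_add, Nat.reduceSub, Nat.reduceMul,
        Nat.reduceAdd, hρ3, h4, h5, h6, h8, h10, one_pow] <;>
      first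
        | (norm_num; done)
        | (norm_num; linear_combination hρ)
        | (norm_num; linear_combination (-1 : ℂ) * hρ)
  · intro i
    rcases hmod i with h | h | h <;> simp [h]
  · intro i
    rcases hmod i with h | h | h <;> simp [h]
  · intro i
    rw [denom_ST_rho]
    rcases hmod i with h | h | h
    · rw [zpow_eq_of_emod hζ0 hζ6 (w i) 0 (by simpa using h)]
      simp [h]
    · rw [zpow_eq_of_emod hζ0 hζ6 (w i) 2 (by simpa using h), hζ2]
      simp [h]
    · rw [zpow_eq_of_emod hζ0 hζ6 (w i) 4 (by simpa using h), hζ4]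
      simp [h]

/-! ### Counting the weights mod 4 and mod 6 -/

lemma Sg_smul_Sg (q : Q N) : Sg • Sg • q = q := by
  obtain ⟨x, rfl⟩ := (Comb.cosetEquiv N).surjective q
  have h := (Fermat.Agent.S21.ParBound.data_Gamma0 N).S_smul_S x
  have h2 := congrArg (Comb.cosetEquiv N) h
  rwa [Comb.cosetEquiv_smul, Comb.cosetEquiv_smul] at h2

lemma Ug_smul_Ug (q : Q N) : Ug • Ug • Ug • q = q := by
  obtain ⟨x, rfl⟩ := (Comb.cosetEquiv N).surjective q
  have h := (Fermat.Agent.S21.ParBound.data_Gamma0 N).U_smul_U x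
  have h2 := congrArg (Comb.cosetEquiv N) h
  rwa [Comb.cosetEquiv_smul, Comb.cosetEquiv_smul, Comb.cosetEquiv_smul] at h2

lemma linearIndependent_rows (z₀ : ℍ)
    (hindep : ∀ c : Fin n → ℂ, (∀ q : Q N, ∑ i, c i * tr (F i) q z₀ = 0) → c = 0) :
    LinearIndependent ℂ (fun i : Fin n => fun q : Q N => tr (F i) q z₀) := by
  rw [Fintype.linearIndependent_iff]
  intro g hg i
  have h1 := hindep g (fun q => by
    have h2 := congrFun hg q
    simpa [Finset.sum_apply] using h2)
  rw [h1]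
  rfl

/-- **ELL, weights mod 4** (inputs from BASIC / CARD and independence at `i` as hypotheses). -/
theorem card_mod_four_core (heven : ∀ i, Even (w i)) (hcard : n = Nat.card (Q N))
    (hindep : ∀ c : Fin n → ℂ, (∀ q : Q N, ∑ i, c i * tr (F i) q I = 0) → c = 0) :
    2 * (Finset.univ.filter fun i => w i % 4 = 2).card + fixS N = Nat.card (Q N) := by
  have hmod : ∀ i, w i % 4 = 0 ∨ w i % 4 = 2 := by
    intro i
    have h1 := heven i
    rw [Int.even_iff] at h1
    omega
  refine PermEig.count_two (fun q : Q N => Sg • q) Sg_smul_Sg hcard _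
    (linearIndependent_rows I hindep) (Finset.univ.filter fun i => w i % 4 = 2) ?_ ?_
  · intro i hi q
    have h := (Finset.mem_filter.1 hi).2
    show tr (F i) (toSL ModularGroup.S • q) I = _
    rw [tr_smul_fixed (F i) ModularGroup.S I S_smul_I q, ModularGroup.denom_S,
      UpperHalfPlane.coe_I,
      zpow_eq_of_emod Complex.I_ne_zero Complex.I_pow_four (w i) 2 (by simpa using h)]
    simp
  · intro i hi q
    have h : w i % 4 = 0 := by
      rcases hmod i with h | h
      · exact h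
      · exact absurd (Finset.mem_filter.2 ⟨Finset.mem_univ i, h⟩) hi
    show tr (F i) (toSL ModularGroup.S • q) I = _
    rw [tr_smul_fixed (F i) ModularGroup.S I S_smul_I q, ModularGroup.denom_S,
      UpperHalfPlane.coe_I,
      zpow_eq_of_emod Complex.I_ne_zero Complex.I_pow_four (w i) 0 (by simpa using h)]
    simp

/-- **ELL, weights mod 6** (inputs from BASIC / CARD and independence at `ρ` as hypotheses). -/
theorem card_mod_six_core (heven : ∀ i, Even (w i)) (hcard : n = Nat.card (Q N))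
    (hindep : ∀ c : Fin n → ℂ, (∀ q : Q N, ∑ i, c i * tr (F i) q rho = 0) → c = 0) :
    3 * (Finset.univ.filter fun i => w i % 6 = 2).card + fixU N = Nat.card (Q N) ∧
    3 * (Finset.univ.filter fun i => w i % 6 = 4).card + fixU N = Nat.card (Q N) := by
  have hmod : ∀ i, w i % 6 = 0 ∨ w i % 6 = 2 ∨ w i % 6 = 4 := by
    intro i
    have h1 := heven i
    rw [Int.even_iff] at h1
    omega
  have hρ := rho_sq_add
  have hρ3 : (rho : ℂ) ^ 3 = 1 := by linear_combination ((rho : ℂ) - 1) * hρ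
  have hζ0 : (rho : ℂ) + 1 ≠ 0 := Fermat.Agent.S24.JLocal.rho_add_one_ne_zero
  have hζ2 : ((rho : ℂ) + 1) ^ 2 = (rho : ℂ) := by linear_combination hρ
  have hζ4 : ((rho : ℂ) + 1) ^ 4 = (rho : ℂ) ^ 2 := by
    rw [show (4 : ℕ) = 2 * 2 from rfl, pow_mul, hζ2]
  have hζ6 : ((rho : ℂ) + 1) ^ 6 = 1 := by
    rw [show (6 : ℕ) = 2 * 3 from rfl, pow_mul, hζ2, hρ3]
  refine PermEig.count_three (fun q : Q N => Ug • q) Ug_smul_Ug (rho : ℂ) hρ hcard _
    (linearIndependent_rows rho hindep) (Finset.univ.filter fun i => w i % 6 = 0)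
    (Finset.univ.filter fun i => w i % 6 = 2) (Finset.univ.filter fun i => w i % 6 = 4)
    ?_ ?_ ?_ ?_
  · intro i
    rcases hmod i with h | h | h
    · exact Or.inl (Finset.mem_filter.2 ⟨Finset.mem_univ i, h⟩)
    · exact Or.inr (Or.inl (Finset.mem_filter.2 ⟨Finset.mem_univ i, h⟩))
    · exact Or.inr (Or.inr (Finset.mem_filter.2 ⟨Finset.mem_univ i, h⟩))
  · intro i hi q
    have h := (Finset.mem_filter.1 hi).2
    show tr (F i) (toSL (ModularGroup.S * ModularGroup.T) • q) rho = _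
    rw [tr_smul_fixed (F i) (ModularGroup.S * ModularGroup.T) rho ST_smul_rho q, denom_ST_rho,
      zpow_eq_of_emod hζ0 hζ6 (w i) 0 (by simpa using h)]
    simp
  · intro i hi q
    have h := (Finset.mem_filter.1 hi).2
    show tr (F i) (toSL (ModularGroup.S * ModularGroup.T) • q) rho = _
    rw [tr_smul_fixed (F i) (ModularGroup.S * ModularGroup.T) rho ST_smul_rho q, denom_ST_rho,
      zpow_eq_of_emod hζ0 hζ6 (w i) 2 (by simpa using h), hζ2]
  · intro i hi q
    have h := (Finset.mem_filter.1 hi).2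
    show tr (F i) (toSL (ModularGroup.S * ModularGroup.T) • q) rho = _
    rw [tr_smul_fixed (F i) (ModularGroup.S * ModularGroup.T) rho ST_smul_rho q, denom_ST_rho,
      zpow_eq_of_emod hζ0 hζ6 (w i) 4 (by simpa using h), hζ4]

end frame

end Fermat.Agent.S20.Frame.Elliptic
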