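/-
S20 Frame route, piece ELL: independence of the rows of the matrix of translates of a frame at
the elliptic points `i` and `ρ`, and the counts of the weights mod 4 and mod 6
(exact `s20f_iface` statements; the proofs are in `EllipticCore.lean`).
-/
import Mathlib
import Fermat.Agent.S20.Frame.Defs
import Fermat.Agent.S20.Frame.EllipticCore
import Fermat.Agent.S20.Frame.Basic
import Fermat.Agent.S20.Frame.Card
import Fermat.Agent.S20.Frame.Quot
import Fermat.Agent.S20.Frame.LevelOneDiv
import Fermat.Prelude.Def_ModularCurve_GenusNumerics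

set_option autoImplicit false

open UpperHalfPlane ModularForm CongruenceSubgroup Matrix.SpecialLinearGroup EisensteinSeries
open scoped MatrixGroups ModularForm Manifold Topology

noncomputable section

namespace Fermat.Agent.S20.Frame

local notation "Δ" => ModularForm.discriminant

variable {N : ℕ} [NeZero N]

section frame

variable {n : ℕ} {w : Fin n → ℤ} {F : (i : Fin n) → ModularForm (G0 N) (w i)}

/-! ### ELL (file Elliptic.lean) -/
theorem indep_I (hF : IsFrame N w F) (c : Fin n → ℂ)
    (hc : ∀ q : Q N, ∑ i, c i * tr (F i) q I = 0) : c = 0 :=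
  Elliptic.indep_I_core hF LevelOneDiv.E6_I LevelOneDiv.E4_I (weight_even hF)
    (fun _ G hG => Quot.div_E6 G hG) c hc

theorem indep_rho (hF : IsFrame N w F) (c : Fin n → ℂ)
    (hc : ∀ q : Q N, ∑ i, c i * tr (F i) q rho = 0) : c = 0 :=
  Elliptic.indep_rho_core hF LevelOneDiv.E4_rho LevelOneDiv.E6_rho (weight_even hF)
    (fun _ G hG => Quot.div_E4 G hG) c hc

theorem card_mod_four (hF : IsFrame N w F) :
    2 * (Finset.univ.filter fun i => w i % 4 = 2).card + fixS N = Nat.card (Q N) :=
  Elliptic.card_mod_four_core (weight_even hF) (frame_card hF) (indep_I hF)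

theorem card_mod_six (hF : IsFrame N w F) :
    3 * (Finset.univ.filter fun i => w i % 6 = 2).card + fixU N = Nat.card (Q N) ∧
    3 * (Finset.univ.filter fun i => w i % 6 = 4).card + fixU N = Nat.card (Q N) :=
  Elliptic.card_mod_six_core (weight_even hF) (frame_card hF) (indep_rho hF)

end frame

end Fermat.Agent.S20.Frame
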