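/-
S20 Frame route, piece FREE (abstract part): a graded module over `ℂ[e₄, e₆]`-like data with
finite dimensional graded pieces of linear growth, on which `(e₄, e₆)` is a regular sequence,
has a finite homogeneous basis.

Everything lives inside a commutative `𝕜`-algebra `A` (functions on the upper half plane in the
application): `M k`, `R k` are the subspaces of forms of weight `k` of level `N`, resp. level one.
-/
import Mathlib

set_option autoImplicit false

namespace Fermat.Agent.S20.Frame.FreeAbs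

open Module

variable {𝕜 A : Type*} [Field 𝕜] [CommRing A] [Algebra 𝕜 A]

/-- The hypotheses on the graded pieces. -/
structure GradedData (M R : ℤ → Submodule 𝕜 A) (e4 e6 : A) : Prop where
  mul_mem : ∀ {a b : ℤ} {r f : A}, r ∈ R a → f ∈ M b → r * f ∈ M (a + b)
  finite : ∀ k, Module.Finite 𝕜 (M k)
  M_neg : ∀ k, k < 0 → M k = ⊥
  R_neg : ∀ k, k < 0 → R k = ⊥
  R_const : ∀ c : 𝕜, algebraMap 𝕜 A c ∈ R 0
  e4_mem : e4 ∈ R 4
  e6_mem : e6 ∈ R 6
  R_mul : ∀ {a b : ℤ} {r s : A}, r ∈ R a → s ∈ R b → r * s ∈ R (a + b)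
  R_decomp : ∀ (m : ℤ) (r : A), r ∈ R m → ∃ a ∈ R (m - 4), ∃ (c : 𝕜) (b : ℕ),
    (c = 0 ∨ 6 * (b : ℤ) = m) ∧ r = e4 * a + c • e6 ^ b
  regular : ∀ (k : ℤ) (f g : A), f ∈ M k → g ∈ M (k + 2) → e6 * f = e4 * g →
    ∃ f' ∈ M (k - 4), f = e4 * f'
  e4_cancel : ∀ (k : ℤ) (f : A), f ∈ M k → e4 * f = 0 → f = 0
  e6_cancel : ∀ (k : ℤ) (f : A), f ∈ M k → e6 * f = 0 → f = 0
  growth : ∃ C : ℕ, ∀ k : ℕ, finrank 𝕜 (M (k : ℤ)) ≤ C * (k + 1)

theorem mem_of_eq {S : ℤ → Submodule 𝕜 A} {a b : ℤ} (h : a = b) {x : A} (hx : x ∈ S a) :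
    x ∈ S b := h ▸ hx

/-- `e₄ M_{k-4} + e₆ M_{k-6}`. -/
def Isub (M : ℤ → Submodule 𝕜 A) (e4 e6 : A) (k : ℤ) : Submodule 𝕜 A :=
  (M (k - 4)).map (LinearMap.mulLeft 𝕜 e4) ⊔ (M (k - 6)).map (LinearMap.mulLeft 𝕜 e6)

theorem mem_Isub {M : ℤ → Submodule 𝕜 A} {e4 e6 : A} {k : ℤ} {x : A} :
    x ∈ Isub M e4 e6 k ↔ ∃ g ∈ M (k - 4), ∃ h ∈ M (k - 6), x = e4 * g + e6 * h := by
  unfold Isub
  rw [Submodule.mem_sup]
  constructor
  · rintro ⟨y, hy, z, hz, rfl⟩
    obtain ⟨g, hg, rfl⟩ := Submodule.mem_map.mp hy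
    obtain ⟨h, hh, rfl⟩ := Submodule.mem_map.mp hz
    exact ⟨g, hg, h, hh, rfl⟩
  · rintro ⟨g, hg, h, hh, rfl⟩
    exact ⟨e4 * g, Submodule.mem_map.mpr ⟨g, hg, rfl⟩, e6 * h,
      Submodule.mem_map.mpr ⟨h, hh, rfl⟩, rfl⟩

variable {M R : ℤ → Submodule 𝕜 A} {e4 e6 : A}

theorem Isub_le (h : GradedData M R e4 e6) (k : ℤ) : Isub M e4 e6 k ≤ M k := by
  intro x hx
  obtain ⟨g, hg, f, hf, rfl⟩ := mem_Isub.mp hx
  exact Submodule.add_mem _ (mem_of_eq (by ring) (h.mul_mem h.e4_mem hg))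
    (mem_of_eq (by ring) (h.mul_mem h.e6_mem hf))

theorem e6_pow_mem (h : GradedData M R e4 e6) (b : ℕ) : e6 ^ b ∈ R (6 * (b : ℤ)) := by
  induction b with
  | zero =>
    have := h.R_const 1
    rw [map_one] at this
    simpa using this
  | succ b ih =>
    rw [pow_succ]
    exact mem_of_eq (by push_cast; ring) (h.R_mul ih h.e6_mem)

/-- `e₆` is a nonzerodivisor modulo `e₄ M`, iterated. -/
theorem e6_pow_regular (h : GradedData M R e4 e6) : ∀ (b : ℕ) (m : ℤ) (G H : A), G ∈ M m →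
    H ∈ M (m + 6 * b - 4) → e6 ^ b * G = e4 * H → ∃ G' ∈ M (m - 4), G = e4 * G' := by
  intro b
  induction b with
  | zero =>
    intro m G H _ hH heq
    exact ⟨H, mem_of_eq (by simp) hH, by simpa using heq⟩
  | succ b ih =>
    intro m G H hG hH heq
    have hf : e6 ^ b * G ∈ M (6 * (b : ℤ) + m) := h.mul_mem (e6_pow_mem h b) hG
    have hH' : H ∈ M (6 * (b : ℤ) + m + 2) := mem_of_eq (by push_cast; ring) hH
    have heq' : e6 * (e6 ^ b * G) = e4 * H := by rw [← heq]; ring
    obtain ⟨f', hf', hff'⟩ := h.regular _ _ _ hf hH' heq'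
    exact ih m G f' hG (mem_of_eq (by ring) hf') hff'

/-- A finite family of homogeneous elements which generates `M_k` modulo
`e₄ M_{k-4} + e₆ M_{k-6}` and is independent modulo it, for every `k`. -/
structure IsPreFrame (M : ℤ → Submodule 𝕜 A) (e4 e6 : A) {ι : Type*} [Fintype ι] (w : ι → ℤ)
    (F : ι → A) : Prop where
  mem : ∀ i, F i ∈ M (w i)
  nonneg : ∀ i, 0 ≤ w i
  gen : ∀ (k : ℤ) (f : A), f ∈ M k → ∃ c : ι → 𝕜, ∃ g ∈ M (k - 4), ∃ h ∈ M (k - 6),
    f = ∑ i, (if w i = k then c i else 0) • F i + e4 * g + e6 * h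
  ind : ∀ (k : ℤ) (c : ι → 𝕜), (∑ i, (if w i = k then c i else 0) • F i) ∈ Isub M e4 e6 k →
    ∀ i, w i = k → c i = 0

section preframe

variable {ι : Type*} [Fintype ι] {w : ι → ℤ} {F : ι → A}

theorem span_of_preFrame (h : GradedData M R e4 e6) (hF : IsPreFrame M e4 e6 w F) :
    ∀ (j : ℕ) (k : ℤ), k < j → ∀ f ∈ M k,
      ∃ r : ι → A, (∀ i, r i ∈ R (k - w i)) ∧ f = ∑ i, r i * F i := by
  intro j
  induction j with
  | zero =>
    intro k hk f hf
    rw [h.M_neg k (by simpa using hk), Submodule.mem_bot] at hf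
    exact ⟨fun _ => 0, fun i => Submodule.zero_mem _, by simp [hf]⟩
  | succ j ih =>
    intro k hk f hf
    obtain ⟨c, g, hg, f', hf', rfl⟩ := hF.gen k f hf
    obtain ⟨r1, hr1, rfl⟩ := ih (k - 4) (by push_cast at hk; omega) g hg
    obtain ⟨r2, hr2, rfl⟩ := ih (k - 6) (by push_cast at hk; omega) f' hf'
    refine ⟨fun i => (if w i = k then algebraMap 𝕜 A (c i) else 0) + e4 * r1 i + e6 * r2 i,
      fun i => ?_, ?_⟩
    · refine Submodule.add_mem _ (Submodule.add_mem _ ?_ ?_) ?_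
      · split_ifs with hi
        · exact mem_of_eq (by rw [hi]; ring) (h.R_const (c i))
        · exact Submodule.zero_mem _
      · exact mem_of_eq (by ring) (h.R_mul h.e4_mem (hr1 i))
      · exact mem_of_eq (by ring) (h.R_mul h.e6_mem (hr2 i))
    · simp only [add_mul, Finset.sum_add_distrib, Finset.mul_sum, mul_assoc]
      congr 2
      refine Finset.sum_congr rfl fun i _ => ?_
      split_ifs
      · rw [Algebra.smul_def]
      · simp

theorem indep_of_preFrame (h : GradedData M R e4 e6) (hF : IsPreFrame M e4 e6 w F) :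
    ∀ (j : ℕ) (k : ℤ), k < j → ∀ r : ι → A, (∀ i, r i ∈ R (k - w i)) →
      ∑ i, r i * F i = 0 → ∀ i, r i = 0 := by
  classical
  intro j
  induction j with
  | zero =>
    intro k hk r hr _ i
    have := hr i
    rw [h.R_neg _ (by have := hF.nonneg i; push_cast at hk; omega), Submodule.mem_bot] at this
    exact this
  | succ j ih =>
    intro k hk r hr hsum
    choose a ha c b hcb hrab using fun i => h.R_decomp (k - w i) (r i) (hr i)
    -- all the `c i` vanish
    have hc : ∀ i, c i = 0 := by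
      by_contra hcon
      push Not at hcon
      obtain ⟨i1, hi1⟩ := hcon
      obtain ⟨i0, hi0, hmax⟩ := Finset.exists_max_image
        (Finset.univ.filter fun i => c i ≠ 0) w ⟨i1, by simp [hi1]⟩
      have hci0 : c i0 ≠ 0 := (Finset.mem_filter.mp hi0).2
      have hb0 : 6 * (b i0 : ℤ) = k - w i0 := (hcb i0).resolve_left hci0
      have hbi : ∀ i, c i ≠ 0 → 6 * (b i : ℤ) = k - w i := fun i hi => (hcb i).resolve_left hi
      have hwi : ∀ i, c i ≠ 0 → w i ≤ w i0 := fun i hi => hmax i (by simp [hi])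
      have hble : ∀ i, c i ≠ 0 → b i0 ≤ b i := by
        intro i hi
        have h1 := hbi i hi
        have h2 := hwi i hi
        omega
      -- the combination `G`
      set G : A := ∑ i, c i • (e6 ^ (b i - b i0) * F i) with hG
      have hG_mem : G ∈ M (w i0) := by
        refine Submodule.sum_mem _ fun i _ => ?_
        by_cases hi : c i = 0
        · rw [hi, zero_smul]; exact Submodule.zero_mem _
        · refine Submodule.smul_mem _ _ (mem_of_eq ?_ (h.mul_mem (e6_pow_mem h _) (hF.mem i)))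
          have h1 := hbi i hi
          have h2 := hble i hi
          push_cast [Nat.cast_sub h2]
          linarith
      set H : A := -∑ i, a i * F i with hH
      have hH_mem : H ∈ M (w i0 + 6 * (b i0 : ℤ) - 4) := by
        refine Submodule.neg_mem _ (Submodule.sum_mem _ fun i _ => ?_)
        exact mem_of_eq (by rw [hb0]; ring) (h.mul_mem (ha i) (hF.mem i))
      have hkey : e6 ^ (b i0) * G = e4 * H := by
        have h1 : ∑ i, c i • (e6 ^ (b i) * F i) = e4 * H := by
          have h2 : ∑ i, r i * F i = e4 * ∑ i, a i * F i + ∑ i, c i • (e6 ^ (b i) * F i) := by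
            rw [Finset.mul_sum, ← Finset.sum_add_distrib]
            refine Finset.sum_congr rfl fun i _ => ?_
            rw [hrab i, add_mul, smul_mul_assoc, mul_assoc]
          rw [hsum] at h2
          rw [hH, mul_neg]
          exact eq_neg_of_add_eq_zero_right h2.symm
        rw [← h1, hG, Finset.mul_sum]
        refine Finset.sum_congr rfl fun i _ => ?_
        by_cases hi : c i = 0
        · rw [hi, zero_smul, zero_smul, mul_zero]
        · rw [mul_smul_comm, ← mul_assoc, ← pow_add, Nat.add_sub_cancel' (hble i hi)]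
      obtain ⟨G', hG', hGG'⟩ := e6_pow_regular h (b i0) (w i0) G H hG_mem hH_mem hkey
      -- the lower weight part of `G`
      set T2 : A := ∑ i, if w i = w i0 then 0 else c i • (e6 ^ (b i - b i0 - 1) * F i) with hT2
      have hT2_mem : T2 ∈ M (w i0 - 6) := by
        refine Submodule.sum_mem _ fun i _ => ?_
        split_ifs with hwi0
        · exact Submodule.zero_mem _
        · by_cases hi : c i = 0
          · rw [hi, zero_smul]; exact Submodule.zero_mem _
          · refine Submodule.smul_mem _ _ (mem_of_eq ?_ (h.mul_mem (e6_pow_mem h _) (hF.mem i)))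
            have h1 := hbi i hi
            have h2 := hwi i hi
            have h3 : b i0 + 1 ≤ b i := by omega
            have h4 : ((b i - b i0 - 1 : ℕ) : ℤ) = (b i : ℤ) - b i0 - 1 := by omega
            rw [h4]
            linarith
      have hdec : G = ∑ i, (if w i = w i0 then c i else 0) • F i + e6 * T2 := by
        rw [hG, hT2, Finset.mul_sum, ← Finset.sum_add_distrib]
        refine Finset.sum_congr rfl fun i _ => ?_
        by_cases hi : c i = 0
        · simp [hi]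
        · split_ifs with hwi0
          · have h1 := hbi i hi
            have h2 : b i = b i0 := by omega
            rw [h2, Nat.sub_self, pow_zero, one_mul, mul_zero, add_zero]
          · have h1 := hbi i hi
            have h2 := hwi i hi
            have h3 : b i - b i0 = (b i - b i0 - 1) + 1 := by omega
            rw [zero_smul, zero_add, mul_smul_comm, ← mul_assoc, ← pow_succ', ← h3]
      have hmemI : (∑ i, (if w i = w i0 then c i else 0) • F i) ∈ Isub M e4 e6 (w i0) := by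
        rw [mem_Isub]
        refine ⟨G', hG', -T2, Submodule.neg_mem _ hT2_mem, ?_⟩
        rw [← hGG', hdec]
        ring
      exact hci0 (hF.ind (w i0) c hmemI i0 rfl)
    -- hence `r i = e₄ a i`, and we conclude by induction
    have hr' : ∀ i, r i = e4 * a i := by
      intro i
      rw [hrab i, hc i, zero_smul, add_zero]
    have hsum' : e4 * ∑ i, a i * F i = 0 := by
      rw [← hsum, Finset.mul_sum]
      refine Finset.sum_congr rfl fun i _ => ?_
      rw [hr' i, mul_assoc]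
    have hmem' : (∑ i, a i * F i) ∈ M (k - 4) :=
      Submodule.sum_mem _ fun i _ => mem_of_eq (by ring) (h.mul_mem (ha i) (hF.mem i))
    have hzero := h.e4_cancel _ _ hmem' hsum'
    have ha0 := ih (k - 4) (by push_cast at hk; omega) a
      (fun i => mem_of_eq (by ring) (ha i)) hzero
    intro i
    rw [hr' i, ha0 i, mul_zero]

end preframe


section dimension

/-- The dimension count coming from the exact sequence
`0 → M_{k-10} → M_{k-4} ⊕ M_{k-6} → M_k → M_k / (e₄ M_{k-4} + e₆ M_{k-6}) → 0`. -/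
theorem finrank_identity (h : GradedData M R e4 e6) (k : ℤ) (W : Submodule 𝕜 A)
    (hW1 : W ⊓ Isub M e4 e6 k = ⊥) (hW2 : W ⊔ Isub M e4 e6 k = M k) :
    finrank 𝕜 W + finrank 𝕜 (M (k - 4)) + finrank 𝕜 (M (k - 6)) =
      finrank 𝕜 (M k) + finrank 𝕜 (M (k - 10)) := by
  have : ∀ k, Module.Finite 𝕜 (M k) := h.finite
  have hWle : W ≤ M k := hW2 ▸ le_sup_left
  have : FiniteDimensional 𝕜 W := Submodule.finiteDimensional_of_le hWle
  have : FiniteDimensional 𝕜 (Isub M e4 e6 k) := Submodule.finiteDimensional_of_le (Isub_le h k)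
  have e1 : finrank 𝕜 (M k) = finrank 𝕜 W + finrank 𝕜 (Isub M e4 e6 k) := by
    have := Submodule.finrank_sup_add_finrank_inf_eq W (Isub M e4 e6 k)
    rw [hW1, hW2, finrank_bot, add_zero] at this
    exact this
  -- the maps
  let φ1 : M (k - 4) →ₗ[𝕜] A := (LinearMap.mulLeft 𝕜 e4) ∘ₗ (M (k - 4)).subtype
  let φ2 : M (k - 6) →ₗ[𝕜] A := (LinearMap.mulLeft 𝕜 e6) ∘ₗ (M (k - 6)).subtype
  let φ : (M (k - 4) × M (k - 6)) →ₗ[𝕜] A := φ1.coprod φ2
  have hrange : LinearMap.range φ = Isub M e4 e6 k := by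
    show LinearMap.range (φ1.coprod φ2) = _
    rw [LinearMap.range_coprod]
    simp only [φ1, φ2, LinearMap.range_comp, Submodule.range_subtype]
    rfl
  let ψ1 : M (k - 10) →ₗ[𝕜] M (k - 4) :=
    LinearMap.codRestrict (M (k - 4)) ((LinearMap.mulLeft 𝕜 e6) ∘ₗ (M (k - 10)).subtype)
      (fun f => mem_of_eq (by ring) (h.mul_mem h.e6_mem f.2))
  let ψ2 : M (k - 10) →ₗ[𝕜] M (k - 6) :=
    LinearMap.codRestrict (M (k - 6)) (-((LinearMap.mulLeft 𝕜 e4) ∘ₗ (M (k - 10)).subtype))
      (fun f => Submodule.neg_mem _ (mem_of_eq (by ring) (h.mul_mem h.e4_mem f.2)))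
  let ψ : M (k - 10) →ₗ[𝕜] (M (k - 4) × M (k - 6)) := ψ1.prod ψ2
  have hψinj : Function.Injective ψ := by
    rw [← LinearMap.ker_eq_bot, LinearMap.ker_eq_bot']
    intro f hf
    have h1 : ((ψ f).1 : A) = 0 := by rw [hf]; rfl
    have h2 : e6 * (f : A) = 0 := h1
    exact Subtype.ext (h.e6_cancel _ _ f.2 h2)
  have hψrange : LinearMap.range ψ = LinearMap.ker φ := by
    apply le_antisymm
    · rintro _ ⟨f, rfl⟩
      rw [LinearMap.mem_ker]
      show e4 * (e6 * (f : A)) + e6 * (-(e4 * (f : A))) = 0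
      ring
    · rintro ⟨g, f⟩ hgf
      rw [LinearMap.mem_ker] at hgf
      have h0 : e4 * (g : A) + e6 * (f : A) = 0 := hgf
      have h1 : e6 * (f : A) = e4 * (-(g : A)) := by linear_combination h0
      obtain ⟨f', hf', hff'⟩ := h.regular (k - 6) f (-g) f.2
        (mem_of_eq (by ring) (Submodule.neg_mem _ g.2)) h1
      have hf'' : f' ∈ M (k - 10) := mem_of_eq (by ring) hf'
      have h2 : e4 * ((g : A) + e6 * f') = 0 := by rw [hff'] at h0; linear_combination h0
      have h3 : (g : A) + e6 * f' ∈ M (k - 4) :=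
        Submodule.add_mem _ g.2 (mem_of_eq (by ring) (h.mul_mem h.e6_mem hf''))
      have h4 := h.e4_cancel _ _ h3 h2
      refine ⟨⟨-f', Submodule.neg_mem _ hf''⟩, ?_⟩
      apply Prod.ext
      · apply Subtype.ext
        show e6 * (-f') = (g : A)
        linear_combination -h4
      · apply Subtype.ext
        show -(e4 * (-f')) = (f : A)
        rw [hff']; ring
  have e2 := LinearMap.finrank_range_add_finrank_ker φ
  rw [hrange, ← hψrange, LinearMap.finrank_range_of_inj hψinj, Module.finrank_prod] at e2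
  omega

theorem exists_compl (h : GradedData M R e4 e6) (k : ℤ) :
    ∃ W : Submodule 𝕜 A, W ⊓ Isub M e4 e6 k = ⊥ ∧ W ⊔ Isub M e4 e6 k = M k := by
  obtain ⟨W', hW'⟩ := Submodule.exists_isCompl (Isub M e4 e6 k)
  refine ⟨M k ⊓ W', ?_, ?_⟩
  · rw [inf_assoc, inf_comm W', hW'.inf_eq_bot, inf_bot_eq]
  · rw [inf_sup_assoc_of_le _ (Isub_le h k), sup_comm, hW'.sup_eq_top, inf_top_eq]

end dimension

section arith

/-- The counting argument: the numbers `d k` of generators in weight `k` vanish for large `k`. -/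
theorem exists_bound_arith (m d : ℤ → ℕ) (hm : ∀ k, k < 0 → m k = 0)
    (hid : ∀ k, d k + m (k - 4) + m (k - 6) = m k + m (k - 10))
    (C : ℕ) (hC : ∀ k : ℕ, m k ≤ C * (k + 1)) :
    ∃ K1 : ℕ, ∀ k : ℤ, (K1 : ℤ) < k → d k = 0 := by
  set T : ℕ → ℕ := fun K => ∑ k ∈ Finset.range (K + 1), d (k : ℤ) with hT
  set Af : ℤ → ℕ := fun K => m K + m (K - 1) + m (K - 2) + m (K - 3) with hA
  have hTmono : ∀ K K' : ℕ, K ≤ K' → T K ≤ T K' := fun K K' hKK' =>
    Finset.sum_le_sum_of_subset (Finset.range_mono (by omega))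
  have hTsucc : ∀ K : ℕ, T (K + 1) = T K + d ((K : ℤ) + 1) := by
    intro K
    simp only [hT]
    rw [Finset.sum_range_succ]
    push_cast
    rfl
  have hTA : ∀ K : ℕ, T K + Af ((K : ℤ) - 6) = Af K := by
    intro K
    induction K with
    | zero =>
      have h0 := hid 0
      have hT0 : T 0 = d 0 := by simp [hT]
      rw [hT0]
      simp only [hA, Nat.cast_zero]
      rw [hm (0 - 4) (by norm_num), hm (0 - 6) (by norm_num), hm (0 - 10) (by norm_num)] at h0
      rw [hm (0 - 6) (by norm_num), hm (0 - 6 - 1) (by norm_num), hm (0 - 6 - 2) (by norm_num),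
        hm (0 - 6 - 3) (by norm_num), hm (0 - 1) (by norm_num), hm (0 - 2) (by norm_num),
        hm (0 - 3) (by norm_num)]
      omega
    | succ K ih =>
      have h1 := hid ((K : ℤ) + 1)
      rw [hTsucc]
      simp only [hA] at ih ⊢
      push_cast
      have e1 : (K : ℤ) + 1 - 4 = (K : ℤ) - 3 := by ring
      have e2 : (K : ℤ) + 1 - 6 = (K : ℤ) - 6 + 1 := by ring
      have e3 : (K : ℤ) + 1 - 10 = (K : ℤ) - 6 - 3 := by ring
      have e4' : (K : ℤ) + 1 - 6 - 1 = (K : ℤ) - 6 := by ring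
      have e5 : (K : ℤ) + 1 - 6 - 2 = (K : ℤ) - 6 - 1 := by ring
      have e6' : (K : ℤ) + 1 - 6 - 3 = (K : ℤ) - 6 - 2 := by ring
      have e7 : (K : ℤ) + 1 - 1 = (K : ℤ) := by ring
      have e8 : (K : ℤ) + 1 - 2 = (K : ℤ) - 1 := by ring
      have e9 : (K : ℤ) + 1 - 3 = (K : ℤ) - 2 := by ring
      rw [e1, e3] at h1
      rw [e4', e5, e6', e7, e8, e9]
      rw [e2] at h1 ⊢
      omega
  have hsum : ∀ K0 J : ℕ, Af K0 + ∑ j ∈ Finset.range J, T (K0 + 6 * (j + 1)) =
      Af ((K0 + 6 * J : ℕ) : ℤ) := by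
    intro K0 J
    induction J with
    | zero => simp
    | succ J ih =>
      rw [Finset.sum_range_succ, ← add_assoc, ih]
      have h1 := hTA (K0 + 6 * (J + 1))
      have e : ((K0 + 6 * (J + 1) : ℕ) : ℤ) - 6 = ((K0 + 6 * J : ℕ) : ℤ) := by push_cast; ring
      rw [e] at h1
      omega
  have hmle : ∀ (x : ℤ) (n : ℕ), x ≤ n → m x ≤ C * (n + 1) := by
    intro x n hx
    rcases lt_or_ge x 0 with hx0 | hx0
    · rw [hm x hx0]; exact Nat.zero_le _
    · obtain ⟨y, rfl⟩ := Int.eq_ofNat_of_zero_le hx0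
      have hy : y ≤ n := by exact_mod_cast hx
      exact (hC y).trans (Nat.mul_le_mul_left _ (by omega))
  have hAle : ∀ n : ℕ, Af (n : ℤ) ≤ 4 * (C * (n + 1)) := by
    intro n
    simp only [hA]
    have h0 := hmle (n : ℤ) n le_rfl
    have h1 := hmle ((n : ℤ) - 1) n (by omega)
    have h2 := hmle ((n : ℤ) - 2) n (by omega)
    have h3 := hmle ((n : ℤ) - 3) n (by omega)
    omega
  have hTle : ∀ K0 : ℕ, T K0 ≤ 28 * C := by
    intro K0
    have h1 : (K0 + 1) * T K0 ≤ ∑ j ∈ Finset.range (K0 + 1), T (K0 + 6 * (j + 1)) := by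
      have : ∑ _j ∈ Finset.range (K0 + 1), T K0 ≤
          ∑ j ∈ Finset.range (K0 + 1), T (K0 + 6 * (j + 1)) :=
        Finset.sum_le_sum fun j _ => hTmono _ _ (by omega)
      simpa using this
    have h2 := hsum K0 (K0 + 1)
    have h3 := hAle (K0 + 6 * (K0 + 1))
    have h4 : (K0 + 1) * T K0 ≤ (K0 + 1) * (28 * C) := by
      calc (K0 + 1) * T K0 ≤ 4 * (C * (K0 + 6 * (K0 + 1) + 1)) := by omega
        _ = (K0 + 1) * (28 * C) := by ring
    exact Nat.le_of_mul_le_mul_left h4 (Nat.succ_pos _)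
  by_contra hcon
  push Not at hcon
  have hunb : ∀ j : ℕ, ∃ K : ℕ, j ≤ T K := by
    intro j
    induction j with
    | zero => exact ⟨0, Nat.zero_le _⟩
    | succ j ih =>
      obtain ⟨K, hK⟩ := ih
      obtain ⟨k, hk, hdk⟩ := hcon K
      obtain ⟨y, rfl⟩ := Int.eq_ofNat_of_zero_le (a := k) (by omega)
      have hy : K < y := by exact_mod_cast hk
      obtain ⟨y', rfl⟩ : ∃ y', y = y' + 1 := ⟨y - 1, by omega⟩
      refine ⟨y' + 1, ?_⟩
      rw [hTsucc]
      have h1 := hTmono K y' (by omega)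
      have h2 : 1 ≤ d ((y' : ℤ) + 1) := by
        have : ((y' + 1 : ℕ) : ℤ) = (y' : ℤ) + 1 := by push_cast; ring
        rw [this] at hdk
        omega
      omega
  obtain ⟨K, hK⟩ := hunb (28 * C + 1)
  have := hTle K
  omega

end arith

section construction

theorem exists_fun_of_mem_span {ι : Type*} [Fintype ι] [DecidableEq ι] (F : ι → A)
    (p : ι → Prop) [DecidablePred p] {s : A}
    (hs : s ∈ Submodule.span 𝕜 (F '' {i | p i})) :
    ∃ c : ι → 𝕜, s = ∑ i, (if p i then c i else 0) • F i := by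
  induction hs using Submodule.span_induction with
  | mem x hx =>
    obtain ⟨i0, hi0, rfl⟩ := hx
    refine ⟨Pi.single i0 1, ?_⟩
    rw [Finset.sum_eq_single i0]
    · simp [show p i0 from hi0]
    · intro i _ hi
      simp [hi]
    · intro h
      exact absurd (Finset.mem_univ _) h
  | zero => exact ⟨0, by simp⟩
  | add x y _ _ hx hy =>
    obtain ⟨c1, rfl⟩ := hx
    obtain ⟨c2, rfl⟩ := hy
    refine ⟨c1 + c2, ?_⟩
    rw [← Finset.sum_add_distrib]
    refine Finset.sum_congr rfl fun i _ => ?_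
    split_ifs <;> simp [add_smul]
  | smul a x _ hx =>
    obtain ⟨c, rfl⟩ := hx
    refine ⟨a • c, ?_⟩
    rw [Finset.smul_sum]
    refine Finset.sum_congr rfl fun i _ => ?_
    split_ifs <;> simp [mul_smul]

theorem exists_preFrame (h : GradedData M R e4 e6) :
    ∃ (ι : Type) (_ : Fintype ι) (w : ι → ℤ) (F : ι → A), IsPreFrame M e4 e6 w F := by
  classical
  have hfin : ∀ k, Module.Finite 𝕜 (M k) := h.finite
  choose W hW1 hW2 using exists_compl h
  have hWle : ∀ k, W k ≤ M k := fun k => (hW2 k) ▸ le_sup_left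
  have hWfin : ∀ k, FiniteDimensional 𝕜 (W k) := fun k =>
    Submodule.finiteDimensional_of_le (hWle k)
  obtain ⟨C, hC⟩ := h.growth
  obtain ⟨K1, hK1⟩ := exists_bound_arith (fun k => finrank 𝕜 (M k)) (fun k => finrank 𝕜 (W k))
    (fun k hk => by simp [h.M_neg k hk])
    (fun k => finrank_identity h k (W k) (hW1 k) (hW2 k)) C hC
  have hWbot : ∀ k : ℤ, (k < 0 ∨ (K1 : ℤ) < k) → W k = ⊥ := by
    intro k hk
    rcases hk with hk | hk
    · have := hWle k
      rw [h.M_neg k hk] at this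
      exact le_bot_iff.mp this
    · exact Submodule.finrank_eq_zero.mp (hK1 k hk)
  let b : ∀ k : ℤ, Basis (Fin (finrank 𝕜 (W k))) 𝕜 (W k) := fun k => Module.finBasis 𝕜 (W k)
  let ι : Type := Σ k' : Fin (K1 + 1), Fin (finrank 𝕜 (W ((k' : ℕ) : ℤ)))
  let w : ι → ℤ := fun i => ((i.1 : ℕ) : ℤ)
  let F : ι → A := fun i => ((b ((i.1 : ℕ) : ℤ) i.2 : W ((i.1 : ℕ) : ℤ)) : A)
  refine ⟨ι, inferInstance, w, F, ⟨?_, ?_, ?_, ?_⟩⟩
  · intro i
    exact hWle _ (b _ i.2).2
  · intro i
    exact Int.natCast_nonneg _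
  · -- generation
    intro k f hf
    have hf' : f ∈ W k ⊔ Isub M e4 e6 k := by rw [hW2]; exact hf
    obtain ⟨s, hs, t, ht, rfl⟩ := Submodule.mem_sup.mp hf'
    obtain ⟨g, hg, f', hf'', rfl⟩ := mem_Isub.mp ht
    suffices hsuff : ∃ c : ι → 𝕜, s = ∑ i, (if w i = k then c i else 0) • F i by
      obtain ⟨c, hc⟩ := hsuff
      exact ⟨c, g, hg, f', hf'', by rw [← hc, add_assoc]⟩
    by_cases hk : 0 ≤ k ∧ k ≤ K1
    · obtain ⟨n0, rfl⟩ := Int.eq_ofNat_of_zero_le hk.1
      have hn0 : n0 < K1 + 1 := by have := hk.2; omega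
      apply exists_fun_of_mem_span F (fun i => w i = (n0 : ℤ))
      have hrepr : s = ∑ j, (b (n0 : ℤ)).repr ⟨s, hs⟩ j • ((b (n0 : ℤ) j : W (n0 : ℤ)) : A) := by
        have h1 := (b (n0 : ℤ)).sum_repr ⟨s, hs⟩
        have h2 := congrArg (Submodule.subtype (W (n0 : ℤ))) h1
        rw [map_sum] at h2
        simp only [map_smul, Submodule.subtype_apply] at h2
        exact h2.symm
      rw [hrepr]
      refine Submodule.sum_mem _ fun j _ => Submodule.smul_mem _ _ (Submodule.subset_span ?_)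
      exact ⟨⟨⟨n0, hn0⟩, j⟩, rfl, rfl⟩
    · have hk' : k < 0 ∨ (K1 : ℤ) < k := by
        by_contra hcon
        push Not at hcon
        exact hk ⟨hcon.1, hcon.2⟩
      rw [hWbot k hk', Submodule.mem_bot] at hs
      exact ⟨0, by simp [hs]⟩
  · -- independence
    intro k c hmem i0 hi0
    obtain ⟨k0, j0⟩ := i0
    have hk : ((k0 : ℕ) : ℤ) = k := hi0
    subst hk
    have hsum : ∑ i, (if w i = ((k0 : ℕ) : ℤ) then c i else 0) • F i =
        ∑ j, c ⟨k0, j⟩ • ((b ((k0 : ℕ) : ℤ) j : W ((k0 : ℕ) : ℤ)) : A) := by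
      rw [Fintype.sum_sigma, Finset.sum_eq_single k0]
      · refine Finset.sum_congr rfl fun j _ => ?_
        simp [w, F]
      · intro k' _ hk'
        refine Finset.sum_eq_zero fun j _ => ?_
        have : ¬ (w ⟨k', j⟩ = ((k0 : ℕ) : ℤ)) := by
          intro h'
          have h'' : ((k' : ℕ) : ℤ) = ((k0 : ℕ) : ℤ) := h'
          apply hk'
          apply Fin.ext
          exact_mod_cast h''
        rw [if_neg this, zero_smul]
      · intro h'
        exact absurd (Finset.mem_univ _) h'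
    rw [hsum] at hmem
    have hmemW : (∑ j, c ⟨k0, j⟩ • ((b ((k0 : ℕ) : ℤ) j : W ((k0 : ℕ) : ℤ)) : A)) ∈
        W ((k0 : ℕ) : ℤ) :=
      Submodule.sum_mem _ fun j _ => Submodule.smul_mem _ _ (b _ j).2
    have hzero : (∑ j, c ⟨k0, j⟩ • ((b ((k0 : ℕ) : ℤ) j : W ((k0 : ℕ) : ℤ)) : A)) = 0 := by
      have hmem2 : (∑ j, c ⟨k0, j⟩ • ((b ((k0 : ℕ) : ℤ) j : W ((k0 : ℕ) : ℤ)) : A)) ∈
          W ((k0 : ℕ) : ℤ) ⊓ Isub M e4 e6 ((k0 : ℕ) : ℤ) := ⟨hmemW, hmem⟩
      rwa [hW1, Submodule.mem_bot] at hmem2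
    have hli : LinearIndependent 𝕜 (fun j => ((b ((k0 : ℕ) : ℤ) j : W ((k0 : ℕ) : ℤ)) : A)) :=
      (b ((k0 : ℕ) : ℤ)).linearIndependent.map' (W ((k0 : ℕ) : ℤ)).subtype
        (Submodule.ker_subtype _)
    exact Fintype.linearIndependent_iff.mp hli (fun j => c ⟨k0, j⟩) hzero j0

/-- **Existence of a homogeneous basis** (abstract form). -/
theorem exists_frame (h : GradedData M R e4 e6) :
    ∃ (n : ℕ) (w : Fin n → ℤ) (F : Fin n → A), (∀ i, F i ∈ M (w i)) ∧
      (∀ (k : ℤ) (f : A), f ∈ M k →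
        ∃ r : Fin n → A, (∀ i, r i ∈ R (k - w i)) ∧ f = ∑ i, r i * F i) ∧
      (∀ (k : ℤ) (r : Fin n → A), (∀ i, r i ∈ R (k - w i)) → ∑ i, r i * F i = 0 →
        ∀ i, r i = 0) := by
  obtain ⟨ι, _, w, F, hF⟩ := exists_preFrame h
  let e := Fintype.equivFin ι
  refine ⟨Fintype.card ι, fun i => w (e.symm i), fun i => F (e.symm i), fun i => hF.mem _, ?_, ?_⟩
  · intro k f hf
    obtain ⟨r, hr, hfr⟩ := span_of_preFrame h hF (k.toNat + 1) k (by omega) f hf
    refine ⟨fun i => r (e.symm i), fun i => hr _, ?_⟩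
    rw [hfr]
    exact (Equiv.sum_comp e.symm (fun x => r x * F x)).symm
  · intro k r hr hsum i
    have h1 : ∑ x, r (e x) * F x = 0 := by
      rw [← hsum]
      rw [← Equiv.sum_comp e.symm (fun x => r (e x) * F x)]
      simp
    have h2 := indep_of_preFrame h hF (k.toNat + 1) k (by omega) (fun x => r (e x))
      (fun x => by simpa using hr (e x)) h1 (e.symm i)
    simpa using h2

end construction

end Fermat.Agent.S20.Frame.FreeAbs
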