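/-
S20 Frame route, piece FREE (modular part): the graded module `⊕ M_k(Γ₀(N))` satisfies the
hypotheses of the abstract freeness criterion of `FreeAbs.lean`, hence it has a frame, provided
`(E₄, E₆)` is a regular sequence on it (this last input is `Quot.div_E4_of_mul`).
-/
import Mathlib
import Fermat.Agent.S20.Frame.Defs
import Fermat.Agent.S20.Frame.FreeAbs
import Fermat.Agent.S23.LevelOne
import Fermat.Agent.S23.JN
import Fermat.Prelude.Thm_ModularForm_sturm_bound_Gamma0
import Fermat.Prelude.Thm_CongruenceSubgroup_one_mem_strictPeriods_Gamma0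

set_option autoImplicit false

open UpperHalfPlane ModularForm CongruenceSubgroup Matrix.SpecialLinearGroup EisensteinSeries

open scoped MatrixGroups ModularForm Manifold Topology

noncomputable section

namespace Fermat.Agent.S20.Frame

namespace Free

/-- Coercion of modular forms to functions, as a linear map. -/
def coeLM (Γ : Subgroup (GL (Fin 2) ℝ)) [Γ.HasDetOne] (k : ℤ) :
    ModularForm Γ k →ₗ[ℂ] (ℍ → ℂ) where
  toFun f := ⇑f
  map_add' _ _ := rfl
  map_smul' _ _ := rfl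

/-- The functions underlying the modular forms of weight `k` on `Γ₀(N)`. -/
def Mf (N : ℕ) (k : ℤ) : Submodule ℂ (ℍ → ℂ) := LinearMap.range (coeLM (G0 N) k)

/-- The functions underlying the level one modular forms of weight `k`. -/
def Rf (k : ℤ) : Submodule ℂ (ℍ → ℂ) := LinearMap.range (coeLM 𝒮ℒ k)

theorem mem_Mf {N : ℕ} {k : ℤ} {f : ℍ → ℂ} :
    f ∈ Mf N k ↔ ∃ F : ModularForm (G0 N) k, ⇑F = f := Iff.rfl

theorem mem_Rf {k : ℤ} {f : ℍ → ℂ} : f ∈ Rf k ↔ ∃ F : ModularForm 𝒮ℒ k, ⇑F = f := Iff.rfl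

/-- Restriction of a level one form to `Γ₀(N)`. -/
def restr (N : ℕ) {k : ℤ} (r : ModularForm 𝒮ℒ k) : ModularForm (G0 N) k where
  toFun := r
  slash_action_eq' A hA := r.slash_action_eq' A (Subgroup.map_le_range _ _ hA)
  holo' := r.holo'
  bdd_at_cusps' hc := r.bdd_at_cusps' (hc.mono (Subgroup.map_le_range _ _))

@[simp] theorem coe_restr (N : ℕ) {k : ℤ} (r : ModularForm 𝒮ℒ k) : ⇑(restr N r) = ⇑r := rfl

variable {N : ℕ} [NeZero N]

/-- The first `B + 1` coefficients of the `q`-expansion, as a linear map. -/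
def coeffLM (N : ℕ) [NeZero N] (k : ℤ) (B : ℕ) :
    ModularForm (G0 N) k →ₗ[ℂ] (Fin (B + 1) → ℂ) where
  toFun f := fun n => (qExpansion 1 f).coeff n
  map_add' f g := by
    funext n
    rw [FunLike.coe_add, ModularForm.qExpansion_add one_pos (one_mem_strictPeriods_Gamma0 N) f g]
    simp
  map_smul' c f := by
    funext n
    rw [FunLike.coe_smul,
      ModularForm.qExpansion_smul one_pos (one_mem_strictPeriods_Gamma0 N) c f]
    simp

theorem coeffLM_injective (N : ℕ) [NeZero N] (k : ℤ) :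
    Function.Injective (coeffLM N k ((k * ((Gamma0 N).index : ℤ)).toNat / 12)) := by
  rw [← LinearMap.ker_eq_bot, LinearMap.ker_eq_bot']
  intro f hf
  apply ModularForm.sturm_bound_Gamma0 N
  intro n hn
  exact congrFun hf ⟨n, Nat.lt_succ_of_le hn⟩

theorem finite_modularForm (N : ℕ) [NeZero N] (k : ℤ) : Module.Finite ℂ (ModularForm (G0 N) k) :=
  Module.Finite.of_injective _ (coeffLM_injective N k)

theorem finrank_modularForm_le (N : ℕ) [NeZero N] (k : ℤ) :
    Module.finrank ℂ (ModularForm (G0 N) k) ≤ (k * ((Gamma0 N).index : ℤ)).toNat / 12 + 1 := by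
  have h := LinearMap.finrank_le_finrank_of_injective (coeffLM_injective N k)
  rwa [Module.finrank_fin_fun] at h

theorem finrank_Mf_le (N : ℕ) [NeZero N] (k : ℤ) :
    Module.finrank ℂ (Mf N k) ≤ (k * ((Gamma0 N).index : ℤ)).toNat / 12 + 1 := by
  have := finite_modularForm N k
  exact (LinearMap.finrank_range_le _).trans (finrank_modularForm_le N k)

theorem exists_E4_ne_zero : ∃ z : ℍ, E₄ z ≠ 0 := by
  by_contra h
  push Not at h
  have h0 : S23.LevelOne.monoFun 1 0 = 0 := by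
    ext z
    simp [S23.LevelOne.monoFun, h z]
  have h1 := S23.LevelOne.coeff_zero_monoFun 1 0
  rw [h0, qExpansion_zero] at h1
  simp at h1

theorem exists_E6_ne_zero : ∃ z : ℍ, E₆ z ≠ 0 := by
  by_contra h
  push Not at h
  have h0 : S23.LevelOne.monoFun 0 1 = 0 := by
    ext z
    simp [S23.LevelOne.monoFun, h z]
  have h1 := S23.LevelOne.coeff_zero_monoFun 0 1
  rw [h0, qExpansion_zero] at h1
  simp at h1

omit [NeZero N] in
theorem eq_zero_of_mul_eq_zero {e : ℍ → ℂ} (he : S23.JN.Holo e) (hne : ∃ z, e z ≠ 0) {k : ℤ}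
    {f : ℍ → ℂ} (hf : f ∈ Mf N k) (h : e * f = 0) : f = 0 := by
  obtain ⟨F, rfl⟩ := hf
  by_contra hcon
  have hne' : ∃ z, F z ≠ 0 := by
    by_contra h'
    push Not at h'
    exact hcon (funext h')
  have hF : S23.JN.Holo (⇑F) := S23.JN.holo_iff_mdiff.mpr (ModularFormClass.holo F)
  obtain ⟨z, hz⟩ := S23.JN.exists_common_ne_zero (ι := Bool)
    (fun b => if b then e else (coeLM (G0 N) k F))
    (fun b => by cases b <;> simp [he, hF, coeLM])
    (fun b => by cases b <;> simpa [coeLM] using ‹_›)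
  have h1 := hz true
  have h2 := hz false
  simp only [if_true, Bool.false_eq_true, if_false] at h1 h2
  exact mul_ne_zero h1 h2 (congrFun h z)

/-- Level one decomposition `r = E₄ a + c E₆ ^ b`. -/
theorem decomp_of_mem_span {m : ℤ} {x : ℍ → ℂ}
    (hx : x ∈ Submodule.span ℂ (S23.LevelOne.monoSet m)) :
    ∃ a ∈ Rf (m - 4), ∃ (c : ℂ) (b : ℕ), (c = 0 ∨ 6 * (b : ℤ) = m) ∧
      x = ⇑E₄ * a + c • (⇑E₆ : ℍ → ℂ) ^ b := by
  induction hx using Submodule.span_induction with
  | mem x hx =>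
    obtain ⟨a0, b0, hab, rfl⟩ := hx
    rcases Nat.eq_zero_or_pos a0 with rfl | ha0
    · refine ⟨0, Submodule.zero_mem _, 1, b0, Or.inr (by simpa using hab), ?_⟩
      funext z
      simp [S23.LevelOne.monoFun]
    · obtain ⟨a1, rfl⟩ : ∃ a1, a0 = a1 + 1 := ⟨a0 - 1, by omega⟩
      have hab' : 4 * (a1 : ℤ) + 6 * (b0 : ℤ) = m - 4 := by push_cast at hab; linarith
      refine ⟨S23.LevelOne.monoFun a1 b0,
        ⟨S23.LevelOne.monoForm a1 b0 hab', S23.LevelOne.coe_monoForm a1 b0 hab'⟩,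
        0, 0, Or.inl rfl, ?_⟩
      funext z
      simp only [S23.LevelOne.monoFun, Pi.add_apply, Pi.mul_apply, Pi.smul_apply, Pi.pow_apply,
        smul_eq_mul]
      ring
  | zero => exact ⟨0, Submodule.zero_mem _, 0, 0, Or.inl rfl, by simp⟩
  | add x y _ _ hx hy =>
    obtain ⟨a1, ha1, c1, b1, h1, rfl⟩ := hx
    obtain ⟨a2, ha2, c2, b2, h2, rfl⟩ := hy
    by_cases hc1 : c1 = 0
    · refine ⟨a1 + a2, Submodule.add_mem _ ha1 ha2, c2, b2, h2, ?_⟩
      funext z
      simp only [hc1, Pi.add_apply, Pi.mul_apply, Pi.smul_apply, Pi.pow_apply, smul_eq_mul]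
      ring
    · by_cases hc2 : c2 = 0
      · refine ⟨a1 + a2, Submodule.add_mem _ ha1 ha2, c1, b1, h1, ?_⟩
        funext z
        simp only [hc2, Pi.add_apply, Pi.mul_apply, Pi.smul_apply, Pi.pow_apply, smul_eq_mul]
        ring
      · have e1 := h1.resolve_left hc1
        have e2 := h2.resolve_left hc2
        have hb : b1 = b2 := by omega
        subst hb
        refine ⟨a1 + a2, Submodule.add_mem _ ha1 ha2, c1 + c2, b1, Or.inr e1, ?_⟩
        funext z
        simp only [Pi.add_apply, Pi.mul_apply, Pi.smul_apply, Pi.pow_apply, smul_eq_mul]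
        ring
  | smul t x _ hx =>
    obtain ⟨a, ha, c, b, h, rfl⟩ := hx
    refine ⟨t • a, Submodule.smul_mem _ _ ha, t * c, b, ?_, ?_⟩
    · rcases h with h | h
      · left; rw [h, mul_zero]
      · right; exact h
    · funext z
      simp only [Pi.add_apply, Pi.mul_apply, Pi.smul_apply, Pi.pow_apply, smul_eq_mul]
      ring

/-- The graded module of modular forms on `Γ₀(N)` satisfies the hypotheses of the abstract
freeness criterion, given that `(E₄, E₆)` is a regular sequence on it. -/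
theorem gradedData (N : ℕ) [NeZero N]
    (hreg : ∀ (k : ℤ) (f : ModularForm (G0 N) k) (g : ModularForm (G0 N) (k + 2)),
      (∀ z, E₆ z * f z = E₄ z * g z) →
        ∃ f' : ModularForm (G0 N) (k - 4), ∀ z, f z = E₄ z * f' z) :
    FreeAbs.GradedData (Mf N) Rf (⇑E₄ : ℍ → ℂ) (⇑E₆ : ℍ → ℂ) where
  mul_mem := by
    rintro a b _ _ ⟨r, rfl⟩ ⟨f, rfl⟩
    exact ⟨(restr N r).mul f, rfl⟩
  finite := fun k => by
    have := finite_modularForm N k
    exact Module.Finite.range _
  M_neg := by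
    intro k hk
    rw [eq_bot_iff]
    rintro _ ⟨f, rfl⟩
    rw [ModularForm.isZero_of_neg_weight hk f, map_zero]
    exact Submodule.zero_mem _
  R_neg := by
    intro k hk
    rw [eq_bot_iff]
    rintro _ ⟨r, rfl⟩
    rw [Submodule.mem_bot]
    exact ModularFormClass.levelOne_neg_weight_eq_zero hk r
  R_const := fun c => ⟨ModularForm.const c, rfl⟩
  e4_mem := ⟨E₄, rfl⟩
  e6_mem := ⟨E₆, rfl⟩
  R_mul := by
    rintro a b _ _ ⟨r, rfl⟩ ⟨s, rfl⟩
    exact ⟨r.mul s, rfl⟩
  R_decomp := by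
    rintro m _ ⟨r, rfl⟩
    exact decomp_of_mem_span (S23.LevelOne.coe_mem_span_monoSet r)
  regular := by
    rintro k _ _ ⟨f, rfl⟩ ⟨g, rfl⟩ h
    obtain ⟨f', hf'⟩ := hreg k f g (fun z => congrFun h z)
    exact ⟨⇑f', ⟨f', rfl⟩, funext hf'⟩
  e4_cancel := fun k f hf h =>
    eq_zero_of_mul_eq_zero (S23.JN.holo_iff_mdiff.mpr (ModularFormClass.holo E₄))
      exists_E4_ne_zero hf h
  e6_cancel := fun k f hf h =>
    eq_zero_of_mul_eq_zero (S23.JN.holo_iff_mdiff.mpr (ModularFormClass.holo E₆))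
      exists_E6_ne_zero hf h
  growth := by
    refine ⟨(Gamma0 N).index + 1, fun k => (finrank_Mf_le N k).trans ?_⟩
    have h1 : ((k : ℤ) * ((Gamma0 N).index : ℤ)).toNat = k * (Gamma0 N).index := by
      rw [← Nat.cast_mul, Int.toNat_natCast]
    rw [h1]
    have h2 : k * (Gamma0 N).index / 12 ≤ k * (Gamma0 N).index := Nat.div_le_self _ _
    nlinarith

/-- **Existence of a frame**, given that `(E₄, E₆)` is a regular sequence on `⊕ M_k(Γ₀(N))`. -/
theorem exists_frame_of_regular (N : ℕ) [NeZero N]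
    (hreg : ∀ (k : ℤ) (f : ModularForm (G0 N) k) (g : ModularForm (G0 N) (k + 2)),
      (∀ z, E₆ z * f z = E₄ z * g z) →
        ∃ f' : ModularForm (G0 N) (k - 4), ∀ z, f z = E₄ z * f' z) :
    ∃ (n : ℕ) (w : Fin n → ℤ) (F : (i : Fin n) → ModularForm (G0 N) (w i)), IsFrame N w F := by
  obtain ⟨n, w, F, hF, hspan, hind⟩ := FreeAbs.exists_frame (gradedData N hreg)
  choose F' hF' using hF
  refine ⟨n, w, F', ⟨?_, ?_⟩⟩
  · intro k f
    obtain ⟨r, hr, hfr⟩ := hspan k ⇑f ⟨f, rfl⟩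
    choose r' hr' using hr
    refine ⟨r', fun z => ?_⟩
    have := congrFun hfr z
    rw [this, Finset.sum_apply]
    refine Finset.sum_congr rfl fun i _ => ?_
    rw [Pi.mul_apply, ← hr' i, ← hF' i]
    rfl
  · intro k r hr i
    have h0 : ∑ i, (coeLM 𝒮ℒ (k - w i) (r i)) * F i = 0 := by
      funext z
      rw [Finset.sum_apply, Pi.zero_apply, ← hr z]
      refine Finset.sum_congr rfl fun i _ => ?_
      rw [Pi.mul_apply, ← hF' i]
      rfl
    have h1 := hind k (fun i => coeLM 𝒮ℒ (k - w i) (r i)) (fun i => ⟨r i, rfl⟩) h0 i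
    exact DFunLike.coe_injective h1

end Free

end Fermat.Agent.S20.Frame
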