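/-
S20 Frame route, piece FREE: existence of a frame, i.e. of a homogeneous basis of the graded
module `⊕ M_k(Γ₀(N))` over the ring `ℂ[E₄, E₆]` of level one forms.

The abstract graded-module argument is in `FreeAbs.lean`, the verification of its hypotheses for
modular forms in `FreeCore.lean`; the regular sequence property is `Quot.div_E4_of_mul`.
-/
import Mathlib
import Fermat.Agent.S20.Frame.Defs
import Fermat.Agent.S20.Frame.QuotCore
import Fermat.Agent.S20.Frame.FreeCore

set_option autoImplicit false

open UpperHalfPlane ModularForm CongruenceSubgroup Matrix.SpecialLinearGroup EisensteinSeries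

open scoped MatrixGroups ModularForm Manifold Topology

noncomputable section

namespace Fermat.Agent.S20.Frame

/-! ### FREE : existence of a frame (file Free.lean) -/
theorem exists_frame (N : ℕ) [NeZero N] :
    ∃ (n : ℕ) (w : Fin n → ℤ) (F : (i : Fin n) → ModularForm (G0 N) (w i)), IsFrame N w F :=
  Free.exists_frame_of_regular N fun _ f g h => Quot.div_E4_of_mul f g h

end Fermat.Agent.S20.Frame
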