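/-
S20 Frame route: final assembly.  `dim S₂(Γ₀(N))` is the number of frame members of weight `10`,
and the weights of a frame are determined by the index, the numbers of elliptic points and the
number of cusps.
-/
import Mathlib
import Fermat.Prelude.Def_ModularCurve_GenusNumerics
import Fermat.Agent.S20.Frame.Defs
import Fermat.Agent.S20.Frame.Arith
import Fermat.Agent.S20.Frame.Basic
import Fermat.Agent.S20.Frame.Card
import Fermat.Agent.S20.Frame.Comb
import Fermat.Agent.S20.Frame.ConstCore
import Fermat.Agent.S20.Frame.Cusp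
import Fermat.Agent.S20.Frame.DualCore
import Fermat.Agent.S20.Frame.Elliptic
import Fermat.Agent.S20.Frame.Free
import Fermat.Agent.S20.Frame.Generic

set_option autoImplicit false

open UpperHalfPlane ModularForm CongruenceSubgroup Matrix.SpecialLinearGroup EisensteinSeries
open scoped MatrixGroups ModularForm Manifold Topology

noncomputable section

namespace Fermat.Agent.S20.Frame

/-- **S20**: the dimension of `S₂(Γ₀(N))` is given by the genus formula. -/
theorem final (N : ℕ) [NeZero N] :
    (Module.finrank ℂ (CuspForm (CongruenceSubgroup.Gamma0 N) 2) : ℚ) =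
      ModularCurve.genusFormula N := by
  obtain ⟨n, w, F, hF⟩ := exists_frame N
  have hcard : n = Nat.card (Q N) := frame_card hF
  have hfinite : Finite (Q N) := inferInstance
  let e : Fin n ≃ Q N := (Finite.equivFinOfCardEq hcard.symm).symm
  obtain ⟨c, hc, hlim⟩ := tendsto_det_sq hF e
  obtain ⟨hdet, hsum⟩ := ConstCore.main e (Nat.card (Q N) - orbT N) hc hlim
    (fun z₀ h4 h6 c hc => indep_generic hF z₀ h4 h6 c hc) (fun c hc => indep_I hF c hc)
    (fun c hc => indep_rho hF c hc)
  have hdual : ∀ i j, Filter.Tendsto (fun z : ℍ => ModularForm.discriminant z * (Phi F e z)⁻¹ j i)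
      atImInfty (𝓝 0) := fun i j => tendsto_dual hF e i j
  have hle : ∀ i, w i ≤ 10 := Dual.weight_le_core e hdet hdual (weight_even hF)
  have hfin := Dual.finrank_core e hdet hdual hle
  have hsum' : ∑ i, w i = 6 * ((Nat.card (Q N) : ℤ) - orbT N) := by
    rw [hsum, Nat.cast_sub (ConstCore.orbT_le N)]
  have h := arith n w (Nat.card (Q N)) (fixS N) (fixU N) (orbT N) (weight_nonneg hF) hle
    (weight_even hF) (card_weight_zero hF) hcard (card_mod_four hF) (card_mod_six hF).1
    (card_mod_six hF).2 hsum'
  rw [show Module.finrank ℂ (CuspForm (CongruenceSubgroup.Gamma0 N) 2) =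
    Module.finrank ℂ (CuspForm (G0 N) 2) from rfl, hfin, h, card_Q, fixS_eq, fixU_eq, orbT_eq]
  rfl

end Fermat.Agent.S20.Frame
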