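/-
S20 Frame route: shared lemmas on the translates `tr F q` (slash action, holomorphy, boundedness at
the cusp) and on level one monomials.  (The restriction `lvl` and the combinations `comb` live in
`Core.lean`.)
-/
import Mathlib
import Fermat.Agent.S20.Frame.Defs
import Fermat.Agent.S23.NormPoly
import Fermat.Agent.S23.LevelOne
import Fermat.Agent.S24.JLocal

set_option autoImplicit false

open UpperHalfPlane ModularForm CongruenceSubgroup Matrix.SpecialLinearGroup EisensteinSeries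
open scoped MatrixGroups ModularForm Manifold Topology

noncomputable section

namespace Fermat.Agent.S20.Frame

variable {N : ℕ} {k : ℤ}

/-! ### Translates -/

theorem tr_mk (F : ModularForm (G0 N) k) (h : 𝒮ℒ) :
    tr F (h : Q N) = (F : ℍ → ℂ) ∣[k] (h : GL (Fin 2) ℝ)⁻¹ := rfl

/-- The translate by the trivial coset is the form itself. -/
theorem tr_one (F : ModularForm (G0 N) k) : tr F ((1 : 𝒮ℒ) : Q N) = F := by
  rw [tr_mk]
  simp

theorem tr_one_apply (F : ModularForm (G0 N) k) (z : ℍ) : tr F ((1 : 𝒮ℒ) : Q N) z = F z := by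
  rw [tr_one]

theorem tr_smul (F : ModularForm (G0 N) k) (g : 𝒮ℒ) (q : Q N) :
    tr F (g⁻¹ • q) = tr F q ∣[k] (g : GL (Fin 2) ℝ) :=
  (SlashInvariantForm.quotientFunc_smul F g.2 q).symm

theorem coe_toSL (γ : SL(2, ℤ)) : ((toSL γ : 𝒮ℒ) : GL (Fin 2) ℝ) = mapGL ℝ γ := rfl

/-- Slashing a translate by an element of `SL(2, ℤ)` permutes the translates. -/
theorem tr_slash (F : ModularForm (G0 N) k) (γ : SL(2, ℤ)) (q : Q N) :
    tr F q ∣[k] γ = tr F ((toSL γ)⁻¹ • q) := by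
  rw [tr_smul, coe_toSL]
  rfl

/-- The transformation rule of the translates under `SL(2, ℤ)`. -/
theorem tr_smul_apply (F : ModularForm (G0 N) k) (γ : SL(2, ℤ)) (q : Q N) (z : ℍ) :
    tr F q (γ • z) = denom γ z ^ k * tr F ((toSL γ)⁻¹ • q) z := by
  rw [← tr_slash, ModularForm.SL_slash_apply]
  have h : denom γ z ≠ 0 := denom_ne_zero _ z
  rw [mul_comm, mul_assoc, ← zpow_add₀ h]
  simp

/-- Every translate is holomorphic. -/
theorem tr_mdiff (F : ModularForm (G0 N) k) (q : Q N) : MDiff (tr F q) :=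
  Fermat.Agent.S23.NormPoly.mdiff_quotientFunc 𝒮ℒ F q

theorem tr_differentiableAt (F : ModularForm (G0 N) k) (q : Q N) (z : ℍ) :
    DifferentiableAt ℂ (tr F q ∘ ofComplex) z :=
  UpperHalfPlane.mdifferentiableAt_iff.mp (tr_mdiff F q z)

/-- Every translate is bounded at every cusp. -/
theorem tr_slash_bdd [NeZero N] (F : ModularForm (G0 N) k) (q : Q N) (γ : SL(2, ℤ)) :
    IsBoundedAtImInfty (tr F q ∣[k] γ) := by
  have hc : IsCusp ((mapGL ℝ γ : GL (Fin 2) ℝ) • OnePoint.infty) 𝒮ℒ := by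
    rw [isCusp_SL2Z_iff']
    exact ⟨γ, rfl⟩
  exact Fermat.Agent.S23.NormPoly.isBoundedAtImInfty_quotientFunc_slash 𝒮ℒ F q hc

/-- Every translate is bounded at `i∞`. -/
theorem tr_bdd [NeZero N] (F : ModularForm (G0 N) k) (q : Q N) : IsBoundedAtImInfty (tr F q) := by
  have h1 : (toSL (1 : SL(2, ℤ)))⁻¹ • q = q := by
    have : toSL (1 : SL(2, ℤ)) = 1 := Subtype.ext (map_one _)
    rw [this, inv_one, one_smul]
  have h := tr_slash_bdd F q 1
  rwa [tr_slash, h1] at h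

/-- A form all of whose values vanish has vanishing translates. -/
theorem tr_eq_zero_of_eq_zero (F : ModularForm (G0 N) k) (hF : F = 0) (q : Q N) (z : ℍ) :
    tr F q z = 0 := by
  subst hF
  induction q using Quotient.inductionOn with
  | h r =>
    show (((0 : ModularForm (G0 N) k) : ℍ → ℂ) ∣[k] (r : GL (Fin 2) ℝ)⁻¹) z = 0
    rw [FunLike.coe_zero, SlashAction.zero_slash]
    rfl

/-! ### Level one monomials -/

/-- For even `m` with `m = 0` or `4 ≤ m` there is a level one monomial `E₄ ^ a * E₆ ^ b` of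
weight `m`. -/
theorem exists_mono {m : ℤ} (hm : Even m) (h : m = 0 ∨ 4 ≤ m) :
    ∃ (a b : ℕ) (P : ModularForm 𝒮ℒ m), ∀ z, P z = E₄ z ^ a * E₆ z ^ b := by
  have key : ∃ a b : ℕ, (4 * (a : ℤ) + 6 * (b : ℤ)) = m := by
    rcases h with h | h
    · exact ⟨0, 0, by simp [h]⟩
    · exact Fermat.Agent.S23.LevelOne.exists_weight_decomp hm h
  obtain ⟨a, b, hab⟩ := key
  refine ⟨a, b, Fermat.Agent.S23.LevelOne.monoForm a b hab, fun z => ?_⟩
  rw [Fermat.Agent.S23.LevelOne.coe_monoForm]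
  rfl

/-- The power `E₄ ^ a` as a level one form of weight `m = 4 a`. -/
theorem exists_mono_four {m : ℤ} (h0 : 0 ≤ m) (h : (4 : ℤ) ∣ m) :
    ∃ (a : ℕ) (P : ModularForm 𝒮ℒ m), ∀ z, P z = E₄ z ^ a := by
  obtain ⟨c, rfl⟩ := h
  have hc : 0 ≤ c := by omega
  have hab : (4 * ((c.toNat : ℕ) : ℤ) + 6 * ((0 : ℕ) : ℤ)) = 4 * c := by
    rw [Int.toNat_of_nonneg hc]; simp
  refine ⟨c.toNat, Fermat.Agent.S23.LevelOne.monoForm c.toNat 0 hab, fun z => ?_⟩
  rw [Fermat.Agent.S23.LevelOne.coe_monoForm]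
  simp [Fermat.Agent.S23.LevelOne.monoFun]

/-- The power `E₆ ^ b` as a level one form of weight `m = 6 b`. -/
theorem exists_mono_six {m : ℤ} (h0 : 0 ≤ m) (h : (6 : ℤ) ∣ m) :
    ∃ (b : ℕ) (P : ModularForm 𝒮ℒ m), ∀ z, P z = E₆ z ^ b := by
  obtain ⟨c, rfl⟩ := h
  have hc : 0 ≤ c := by omega
  have hab : (4 * ((0 : ℕ) : ℤ) + 6 * ((c.toNat : ℕ) : ℤ)) = 6 * c := by
    rw [Int.toNat_of_nonneg hc]; simp
  refine ⟨c.toNat, Fermat.Agent.S23.LevelOne.monoForm 0 c.toNat hab, fun z => ?_⟩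
  rw [Fermat.Agent.S23.LevelOne.coe_monoForm]
  simp [Fermat.Agent.S23.LevelOne.monoFun]

/-- A level one form of weight `m` not vanishing at a generic point. -/
theorem exists_mono_ne_zero {m : ℤ} (hm : Even m) (h : m = 0 ∨ 4 ≤ m) (z₀ : ℍ) (h4 : E₄ z₀ ≠ 0)
    (h6 : E₆ z₀ ≠ 0) : ∃ P : ModularForm 𝒮ℒ m, P z₀ ≠ 0 := by
  obtain ⟨a, b, P, hP⟩ := exists_mono hm h
  exact ⟨P, by rw [hP]; exact mul_ne_zero (pow_ne_zero _ h4) (pow_ne_zero _ h6)⟩

/-- A level one form of weight `m` with value `1` at the cusp. -/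
theorem exists_mono_tendsto {m : ℤ} (hm : Even m) (h : m = 0 ∨ 4 ≤ m) :
    ∃ P : ModularForm 𝒮ℒ m, Filter.Tendsto (fun z : ℍ => P z) atImInfty (𝓝 1) := by
  obtain ⟨a, b, P, hP⟩ := exists_mono hm h
  refine ⟨P, ?_⟩
  have h1 : Filter.Tendsto (fun z : ℍ => E₄ z ^ a * E₆ z ^ b) atImInfty (𝓝 (1 ^ a * 1 ^ b)) :=
    (Fermat.Agent.S24.JLocal.tendsto_E4.pow a).mul (Fermat.Agent.S24.JLocal.tendsto_E6.pow b)
  simp only [one_pow, mul_one] at h1
  exact h1.congr fun z => (hP z).symm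

/-! ### The elliptic points -/

theorem rho_eq : rho = Fermat.Agent.S24.JLocal.rho := rfl

theorem S_smul_I : ModularGroup.S • UpperHalfPlane.I = UpperHalfPlane.I :=
  Fermat.Agent.S24.JLocal.S_smul_I

theorem ST_smul_rho : (ModularGroup.S * ModularGroup.T : SL(2, ℤ)) • rho = rho := by
  rw [← Fermat.Agent.S24.JLocal.gST_eq, rho_eq]
  exact Fermat.Agent.S24.JLocal.gST_smul_rho

theorem denom_ST_rho :
    denom ((ModularGroup.S * ModularGroup.T : SL(2, ℤ))) rho = (rho : ℂ) + 1 := by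
  rw [← Fermat.Agent.S24.JLocal.gST_eq, rho_eq]
  exact Fermat.Agent.S24.JLocal.denom_gST_rho

end Fermat.Agent.S20.Frame
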