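/-
S20 Frame route, slice CUSPINV of CUSP: invertibility of the leading matrix at the cusp, in
convention-free form: if `∑ i, c i * tr (F i) q` is `O(exp (-2π im z))` for every coset `q`,
then `c = 0`.
-/
import Mathlib
import Fermat.Agent.S20.Frame.Defs
import Fermat.Agent.S20.Frame.Core
import Fermat.Agent.S20.Frame.Common
import Fermat.Agent.S20.Frame.Basic
import Fermat.Agent.S20.Frame.QuotCore
import Fermat.Agent.S23.UV

set_option autoImplicit false

open UpperHalfPlane ModularForm CongruenceSubgroup Matrix.SpecialLinearGroup EisensteinSeries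
open Filter
open scoped MatrixGroups ModularForm Manifold Topology

noncomputable section

namespace Fermat.Agent.S20.Frame

local notation "Δ" => ModularForm.discriminant

variable {N : ℕ} [NeZero N]

variable {n : ℕ} {w : Fin n → ℤ} {F : (i : Fin n) → ModularForm (G0 N) (w i)}

namespace CuspInv

/-- A level one form with value `1` at `i∞` is `1 + O(q)`. -/
theorem levelOne_sub_isBigO {m : ℤ} (P : ModularForm 𝒮ℒ m)
    (hP : Tendsto (fun z : ℍ => P z) atImInfty (𝓝 1)) :
    (fun z : ℍ => P z - 1) =O[atImInfty] (fun z : ℍ => Real.exp (-2 * Real.pi * z.im)) := by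
  have hzero : IsZeroAtImInfty (fun z : ℍ => P z - 1) := by
    have h := hP.sub_const 1
    rw [sub_self] at h
    exact h
  have hper : Function.Periodic ((fun z : ℍ => P z - 1) ∘ ofComplex) (1 : ℝ) := by
    have h := SlashInvariantFormClass.periodic_comp_ofComplex P one_mem_strictPeriods_SL
    intro x
    have hx := h x
    simp only [Function.comp_apply] at hx ⊢
    rw [hx]
  have hhol : MDiff (fun z : ℍ => P z - 1) := P.holo'.sub mdifferentiable_const
  have hbdd : IsBoundedAtImInfty (fun z : ℍ => P z - 1) := hzero.boundedAtFilter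
  have h := UpperHalfPlane.IsZeroAtImInfty.exp_decay_atImInfty hzero one_pos hper hhol hbdd
  simpa using h

/-- All weights of a frame are at most `∑ i, w i` (they are nonnegative). -/
theorem weight_le_sum (hF : IsFrame N w F) (i : Fin n) : w i ≤ ∑ j, w j :=
  Finset.single_le_sum (fun j _ => weight_nonneg hF j) (Finset.mem_univ i)

theorem even_sum (hF : IsFrame N w F) : Even (∑ j, w j) :=
  Finset.even_sum _ fun j _ => weight_even hF j

end CuspInv

theorem Cusp.eq_zero_of_isBigO (hF : IsFrame N w F) (c : Fin n → ℂ)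
    (hc : ∀ q : Q N, (fun z : ℍ => ∑ i, c i * tr (F i) q z) =O[atImInfty]
      (fun z : ℍ => Real.exp (-2 * Real.pi * z.im))) : c = 0 := by
  -- the common weight
  set K : ℤ := ∑ j, w j + 4 with hK
  have hev : ∀ i, Even (K - w i) := fun i => by
    have h1 : Even (∑ j, w j) := CuspInv.even_sum hF
    have h2 : Even (w i) := weight_even hF i
    have h4 : Even (4 : ℤ) := ⟨2, rfl⟩
    exact (h1.add h4).sub h2
  have hge : ∀ i, (4 : ℤ) ≤ K - w i := fun i => by
    have := CuspInv.weight_le_sum hF i
    rw [hK]
    linarith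
  choose P hP using fun i => exists_mono_tendsto (hev i) (Or.inr (hge i))
  -- the form `G = ∑ c i P i F i`
  let G : ModularForm (G0 N) K := Core.comb F K (fun i => c i • P i)
  have hGtr : ∀ (q : Q N) (z : ℍ), tr G q z =
      ∑ i, c i * tr (F i) q z + ∑ i, c i * ((P i z - 1) * tr (F i) q z) := by
    intro q z
    rw [Core.tr_comb, ← Finset.sum_add_distrib]
    refine Finset.sum_congr rfl fun i _ => ?_
    change (c i • P i z) * tr (F i) q z = _
    rw [smul_eq_mul]
    ring
  have hG : ∀ q : Q N, (tr G q) =O[atImInfty] (fun z : ℍ => Real.exp (-2 * Real.pi * z.im)) := by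
    intro q
    have h2 : (fun z : ℍ => ∑ i, c i * ((P i z - 1) * tr (F i) q z)) =O[atImInfty]
        (fun z : ℍ => Real.exp (-2 * Real.pi * z.im)) := by
      refine Asymptotics.IsBigO.fun_sum fun i _ => ?_
      have h3 := (CuspInv.levelOne_sub_isBigO (P i) (hP i)).mul (tr_bdd (F i) q)
      simp only [Pi.one_apply, mul_one] at h3
      exact h3.const_mul_left (c i)
    have h1 := (hc q).add h2
    exact h1.congr_left fun z => (hGtr q z).symm
  obtain ⟨g, hg⟩ := Quot.div_Delta G hG
  obtain ⟨s, hs⟩ := Core.exists_eq_mul_of_comb_eq_mul hF (fun i => c i • P i)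
    Fermat.Agent.S23.UV.DeltaMF g (fun z => by rw [Fermat.Agent.S23.UV.DeltaMF_apply]; exact hg z)
  funext i
  -- `c i * P i z = Δ z * s i z`, and the right hand side tends to `0`
  have hlim1 : Tendsto (fun z : ℍ => c i * P i z) atImInfty (𝓝 (c i * 1)) :=
    tendsto_const_nhds.mul (hP i)
  have hsb : IsBoundedAtImInfty (fun z : ℍ => s i z) :=
    (Fermat.Agent.S24.JLocal.tendsto_modularForm (s i)).isBigO_one ℝ
  have hlim2 : Tendsto (fun z : ℍ => Δ z * s i z) atImInfty (𝓝 0) := by
    have hz : IsZeroAtImInfty (fun z : ℍ => Δ z) := ModularForm.discriminant_isZeroAtImInfty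
    exact hz.mul_boundedAtFilter hsb
  have heq : (fun z : ℍ => c i * P i z) = fun z : ℍ => Δ z * s i z := by
    funext z
    have := hs i z
    rw [Fermat.Agent.S23.UV.DeltaMF_apply] at this
    rw [← this]
    rfl
  rw [heq] at hlim1
  have := tendsto_nhds_unique hlim1 hlim2
  simpa using this

end Fermat.Agent.S20.Frame
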