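import Mathlib

/-!
# S20 (frame route), piece CUSP-LA: spectral projectors of a permutation of finite order

Pure linear algebra (Mathlib only).  For a permutation `τ` of a finite set `Q` with `τ ^ N = 1`,
`proj N τ s` is a spectral projector of the permutation action of `τ` on row vectors
(`(v ᵥ* proj N τ s) q = N⁻¹ * ∑ k < N, ζ ^ (s * k) * v (τ ^ k • q)`), and
`Em N τ x = ∑ s < N, x ^ s • proj N τ s`.  Main results: `Em_mul`, `Em_one` and
`det_Em_sq : det (Em x) ^ 2 = (x ^ N) ^ (card Q - number of orbits of τ)`.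
-/

set_option autoImplicit false
set_option linter.unusedSectionVars false

noncomputable section

namespace Fermat.Agent.S20.Frame.CuspLA

open Complex Finset

variable {Q : Type*} [Fintype Q] [DecidableEq Q]

/-- The primitive `N`-th root of unity `exp (2 π i / N)`. -/
def zeta (N : ℕ) : ℂ := Complex.exp (2 * Real.pi * Complex.I / N)

/-- Spectral projector: `(v ᵥ* proj N τ s) q = N⁻¹ * ∑ k < N, ζ ^ (s * k) * v (τ ^ k • q)`. -/
def proj (N : ℕ) (τ : Equiv.Perm Q) (s : ℕ) : Matrix Q Q ℂ :=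
  Matrix.of fun q' q =>
    (N : ℂ)⁻¹ * ∑ k ∈ Finset.range N, zeta N ^ (s * k) * (if q' = (τ ^ k) q then 1 else 0)

/-- `Em N τ x = ∑ s < N, x ^ s • proj N τ s`. -/
def Em (N : ℕ) (τ : Equiv.Perm Q) (x : ℂ) : Matrix Q Q ℂ :=
  ∑ s ∈ Finset.range N, x ^ s • proj N τ s

/-! ### Roots of unity -/

theorem zeta_isPrimitiveRoot {N : ℕ} (hN : 0 < N) : IsPrimitiveRoot (zeta N) N :=
  Complex.isPrimitiveRoot_exp N hN.ne'

theorem zeta_pow_self {N : ℕ} (hN : 0 < N) : zeta N ^ N = 1 :=
  (zeta_isPrimitiveRoot hN).pow_eq_one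

theorem zeta_ne_zero (N : ℕ) : zeta N ≠ 0 := Complex.exp_ne_zero _

/-- geometric sum of an `N`-th root of unity -/
theorem sum_pow_of_pow_eq_one {N : ℕ} {r : ℂ} (hr : r ^ N = 1) :
    ∑ k ∈ range N, r ^ k = if r = 1 then (N : ℂ) else 0 := by
  split_ifs with h
  · simp [h]
  · rw [geom_sum_eq h, hr, sub_self, zero_div]

/-- shifting a periodic sum -/
theorem sum_range_shift {M : Type*} [AddCommGroup M] (f : ℕ → M) (N : ℕ)
    (hf : ∀ m, f (m + N) = f m) (k : ℕ) : ∑ l ∈ range N, f (k + l) = ∑ l ∈ range N, f l := by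
  induction k with
  | zero => simp
  | succ k ih =>
    rw [← ih]
    have h1 : ∑ l ∈ range N, f (k + 1 + l) = ∑ l ∈ range N, f (k + (l + 1)) :=
      Finset.sum_congr rfl fun l _ => by rw [add_assoc, add_comm 1 l]
    have h2 := Finset.sum_range_succ (fun l => f (k + l)) N
    have h3 := Finset.sum_range_succ' (fun l => f (k + l)) N
    have h4 : f (k + N) = f (k + 0) := by rw [hf, add_zero]
    rw [h1]
    rw [h2, h4] at h3
    exact add_right_cancel h3.symm

/-! ### Permutation matrices of the powers of `τ` -/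

/-- the matrix `[q' = τ ^ k q]` -/
def pm (τ : Equiv.Perm Q) (k : ℕ) : Matrix Q Q ℂ :=
  Matrix.of fun q' q => if q' = (τ ^ k) q then 1 else 0

theorem pm_apply (τ : Equiv.Perm Q) (k : ℕ) (q' q : Q) :
    pm τ k q' q = if q' = (τ ^ k) q then 1 else 0 := rfl

theorem pm_zero (τ : Equiv.Perm Q) : pm τ 0 = 1 := by
  ext q' q
  simp [pm_apply, Matrix.one_apply]

theorem pm_mul (τ : Equiv.Perm Q) (k l : ℕ) : pm τ k * pm τ l = pm τ (k + l) := by
  ext q' q
  rw [Matrix.mul_apply, pm_apply]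
  rw [Finset.sum_eq_single ((τ ^ l) q)]
  · simp [pm_apply, pow_add]
  · intro b _ hb
    simp [pm_apply, hb]
  · intro h
    exact absurd (Finset.mem_univ _) h

theorem pm_add_self {N : ℕ} {τ : Equiv.Perm Q} (hτ : τ ^ N = 1) (k : ℕ) :
    pm τ (k + N) = pm τ k := by
  ext q' q
  simp [pm_apply, pow_add, hτ]

theorem pm_self {N : ℕ} {τ : Equiv.Perm Q} (hτ : τ ^ N = 1) : pm τ N = 1 := by
  have := pm_add_self hτ 0
  rwa [zero_add, pm_zero] at this

theorem pm_transpose {N : ℕ} {τ : Equiv.Perm Q} (hτ : τ ^ N = 1) {k : ℕ} (hk : k ≤ N) :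
    (pm τ k).transpose = pm τ (N - k) := by
  ext q' q
  rw [Matrix.transpose_apply, pm_apply, pm_apply]
  have h1 : (τ ^ (N - k)) ((τ ^ k) q') = q' := by
    rw [← Equiv.Perm.mul_apply, ← pow_add, Nat.sub_add_cancel hk, hτ, Equiv.Perm.one_apply]
  have h2 : (τ ^ k) ((τ ^ (N - k)) q) = q := by
    rw [← Equiv.Perm.mul_apply, ← pow_add, Nat.add_sub_cancel' hk, hτ, Equiv.Perm.one_apply]
  by_cases h : q = (τ ^ k) q'
  · rw [if_pos h, if_pos]
    rw [h, h1]
  · rw [if_neg h, if_neg]
    intro h'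
    apply h
    rw [h', h2]

theorem proj_eq (N : ℕ) (τ : Equiv.Perm Q) (s : ℕ) :
    proj N τ s = (N : ℂ)⁻¹ • ∑ k ∈ range N, zeta N ^ (s * k) • pm τ k := by
  ext q' q
  simp [proj, Matrix.sum_apply, pm_apply]

/-! ### Orthogonality relations -/

/-- `∑_l ζ^(t l) P_(k+l) = ζ^(-t k) ∑_l ζ^(t l) P_l` -/
theorem sum_zeta_pm_shift {N : ℕ} (hN : 0 < N) {τ : Equiv.Perm Q} (hτ : τ ^ N = 1) (t k : ℕ) :
    zeta N ^ (t * k) • ∑ l ∈ range N, zeta N ^ (t * l) • pm τ (k + l) =
      ∑ l ∈ range N, zeta N ^ (t * l) • pm τ l := by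
  rw [Finset.smul_sum]
  have h := sum_range_shift (fun m => zeta N ^ (t * m) • pm τ m) N (fun m => by
    rw [pm_add_self hτ, mul_add, pow_add, pow_mul' (zeta N) t N, zeta_pow_self hN, one_pow,
      mul_one]) k
  rw [← h]
  refine Finset.sum_congr rfl fun l _ => ?_
  rw [smul_smul, ← pow_add, mul_add]

theorem proj_mul_proj {N : ℕ} (hN : 0 < N) {τ : Equiv.Perm Q} (hτ : τ ^ N = 1) {s t : ℕ}
    (hs : s < N) (ht : t < N) :
    proj N τ s * proj N τ t = if s = t then proj N τ t else 0 := by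
  have hN0 : (N : ℂ) ≠ 0 := Nat.cast_ne_zero.mpr hN.ne'
  have hz := zeta_ne_zero N
  -- the inner sum
  have inner : ∀ k : ℕ, ∑ l ∈ range N, zeta N ^ (t * l) • pm τ (k + l) =
      (zeta N ^ (t * k))⁻¹ • ∑ l ∈ range N, zeta N ^ (t * l) • pm τ l := by
    intro k
    rw [← sum_zeta_pm_shift hN hτ t k, smul_smul, inv_mul_cancel₀ (pow_ne_zero _ hz), one_smul]
  have hterm : ∀ k ∈ range N,
      (zeta N ^ (s * k) • pm τ k) * (∑ l ∈ range N, zeta N ^ (t * l) • pm τ l) =
        ((zeta N ^ s * (zeta N ^ t)⁻¹) ^ k) • ∑ l ∈ range N, zeta N ^ (t * l) • pm τ l := by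
    intro k _
    rw [Matrix.smul_mul, Finset.mul_sum]
    have : ∑ l ∈ range N, pm τ k * zeta N ^ (t * l) • pm τ l =
        ∑ l ∈ range N, zeta N ^ (t * l) • pm τ (k + l) :=
      Finset.sum_congr rfl fun l _ => by rw [Matrix.mul_smul, pm_mul]
    rw [this, inner k, smul_smul]
    congr 1
    rw [mul_pow, inv_pow, ← pow_mul, ← pow_mul]
  have key : proj N τ s * proj N τ t =
      ((N : ℂ)⁻¹ * ∑ k ∈ range N, (zeta N ^ s * (zeta N ^ t)⁻¹) ^ k) • proj N τ t := by
    rw [proj_eq N τ s, proj_eq N τ t, Matrix.smul_mul, Matrix.mul_smul, Finset.sum_mul,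
      Finset.sum_congr rfl hterm, ← Finset.sum_smul, smul_smul, smul_smul, smul_smul]
    congr 1
    ring
  rw [key]
  have hr : (zeta N ^ s * (zeta N ^ t)⁻¹) ^ N = 1 := by
    rw [mul_pow, inv_pow, ← pow_mul, ← pow_mul, mul_comm s N, mul_comm t N, pow_mul, pow_mul,
      zeta_pow_self hN, one_pow, one_pow, inv_one, mul_one]
  rw [sum_pow_of_pow_eq_one hr]
  by_cases hst : s = t
  · subst hst
    rw [if_pos rfl, mul_inv_cancel₀ (pow_ne_zero _ hz), if_pos rfl, inv_mul_cancel₀ hN0, one_smul]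
  · rw [if_neg hst, if_neg, mul_zero, zero_smul]
    intro h
    apply hst
    refine (zeta_isPrimitiveRoot hN).pow_inj hs ht ?_
    have := congrArg (· * zeta N ^ t) h
    simpa [mul_assoc, inv_mul_cancel₀ (pow_ne_zero t hz)] using this

theorem sum_proj {N : ℕ} (hN : 0 < N) (τ : Equiv.Perm Q) :
    ∑ s ∈ range N, proj N τ s = 1 := by
  have hN0 : (N : ℂ) ≠ 0 := Nat.cast_ne_zero.mpr hN.ne'
  have h1 : ∑ s ∈ range N, proj N τ s =
      (N : ℂ)⁻¹ • ∑ k ∈ range N, (∑ s ∈ range N, (zeta N ^ k) ^ s) • pm τ k := by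
    simp_rw [proj_eq, ← Finset.smul_sum]
    congr 1
    rw [Finset.sum_comm]
    refine Finset.sum_congr rfl fun k _ => ?_
    rw [Finset.sum_smul]
    refine Finset.sum_congr rfl fun s _ => ?_
    rw [← pow_mul, mul_comm]
  rw [h1]
  have h2 : ∀ k ∈ range N, (∑ s ∈ range N, (zeta N ^ k) ^ s) • pm τ k =
      if k = 0 then (N : ℂ) • (1 : Matrix Q Q ℂ) else 0 := by
    intro k hk
    have hr : (zeta N ^ k) ^ N = 1 := by
      rw [← pow_mul, mul_comm, pow_mul, zeta_pow_self hN, one_pow]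
    rw [sum_pow_of_pow_eq_one hr]
    by_cases hk0 : k = 0
    · subst hk0
      simp [pm_zero]
    · rw [if_neg hk0, if_neg, zero_smul]
      intro h
      apply hk0
      have := (zeta_isPrimitiveRoot hN).pow_inj (Finset.mem_range.mp hk) hN (by simpa using h)
      exact this
  rw [Finset.sum_congr rfl h2, Finset.sum_ite_eq' (range N) 0, if_pos (Finset.mem_range.mpr hN),
    smul_smul, inv_mul_cancel₀ hN0, one_smul]

theorem Em_mul {N : ℕ} (hN : 0 < N) {τ : Equiv.Perm Q} (hτ : τ ^ N = 1) (x y : ℂ) :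
    Em N τ x * Em N τ y = Em N τ (x * y) := by
  unfold Em
  rw [Finset.sum_mul]
  refine Finset.sum_congr rfl fun s hs => ?_
  rw [Finset.mul_sum, Finset.sum_eq_single s]
  · rw [Matrix.smul_mul, Matrix.mul_smul, proj_mul_proj hN hτ (Finset.mem_range.mp hs)
      (Finset.mem_range.mp hs), if_pos rfl, smul_smul, mul_pow]
  · intro t ht hts
    rw [Matrix.smul_mul, Matrix.mul_smul, proj_mul_proj hN hτ (Finset.mem_range.mp hs)
      (Finset.mem_range.mp ht), if_neg (Ne.symm hts), smul_zero, smul_zero]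
  · intro h
    exact absurd hs h

theorem Em_one {N : ℕ} (hN : 0 < N) {τ : Equiv.Perm Q} (hτ : τ ^ N = 1) :
    Em N τ 1 = 1 := by
  have _ := hτ
  unfold Em
  simp only [one_pow, one_smul]
  exact sum_proj hN τ

/-! ### Transposes -/

theorem proj_self_eq {N : ℕ} (hN : 0 < N) (τ : Equiv.Perm Q) : proj N τ N = proj N τ 0 := by
  rw [proj_eq, proj_eq]
  congr 1
  refine Finset.sum_congr rfl fun k _ => ?_
  rw [pow_mul, zeta_pow_self hN, one_pow, zero_mul, pow_zero]

theorem proj_transpose {N : ℕ} (hN : 0 < N) {τ : Equiv.Perm Q} (hτ : τ ^ N = 1) {s : ℕ}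
    (hs : s ≤ N) : (proj N τ s).transpose = proj N τ (N - s) := by
  rw [proj_eq, proj_eq, Matrix.transpose_smul, Matrix.transpose_sum]
  congr 1
  -- the periodic function
  set g : ℕ → Matrix Q Q ℂ := fun j => zeta N ^ ((N - s) * j) • pm τ j with hg
  have hper : ∀ m, g (m + N) = g m := by
    intro m
    simp only [hg]
    rw [pm_add_self hτ, mul_add, pow_add, pow_mul' (zeta N) (N - s) N, zeta_pow_self hN, one_pow,
      mul_one]
  have h1 : ∀ k ∈ range N, (zeta N ^ (s * k) • pm τ k).transpose = g (N - 1 - k + 1) := by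
    intro k hk
    have hk' : k < N := Finset.mem_range.mp hk
    have hNk : N - 1 - k + 1 = N - k := by omega
    rw [hNk]
    simp only [hg]
    rw [Matrix.transpose_smul, pm_transpose hτ hk'.le]
    congr 1
    -- ζ^(s k) = ζ^((N-s)(N-k))
    have h2 : (N - s) * (N - k) + (s * N + k * N) = N * N + s * k := by
      zify [hs, hk'.le]
      ring
    have h3 : zeta N ^ ((N - s) * (N - k) + (s * N + k * N)) = zeta N ^ ((N - s) * (N - k)) := by
      rw [pow_add, pow_add, pow_mul' (zeta N) s N, pow_mul' (zeta N) k N, zeta_pow_self hN,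
        one_pow, one_pow, mul_one, mul_one]
    rw [← h3, h2, pow_add, pow_mul (zeta N) N N, zeta_pow_self hN, one_pow, one_mul]
  rw [Finset.sum_congr rfl h1, Finset.sum_range_reflect (fun j => g (j + 1)) N]
  have h4 := sum_range_shift g N hper 1
  rw [← h4]
  exact Finset.sum_congr rfl fun l _ => by rw [add_comm]

/-- `Em x * (Em x)ᵀ = proj 0 + x ^ N • (1 - proj 0)` -/
theorem Em_mul_transpose {N : ℕ} (hN : 0 < N) {τ : Equiv.Perm Q} (hτ : τ ^ N = 1) (x : ℂ) :
    Em N τ x * (Em N τ x).transpose = proj N τ 0 + x ^ N • (1 - proj N τ 0) := by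
  obtain ⟨n, rfl⟩ : ∃ n, N = n + 1 := ⟨N - 1, by omega⟩
  -- the transpose
  have hT : (Em (n + 1) τ x).transpose =
      ∑ t ∈ range (n + 1), x ^ t • proj (n + 1) τ (n + 1 - t) := by
    unfold Em
    rw [Matrix.transpose_sum]
    refine Finset.sum_congr rfl fun t ht => ?_
    rw [Matrix.transpose_smul, proj_transpose hN hτ (Finset.mem_range.mp ht).le]
  -- multiplying `Em x` with a projector
  have hmul : ∀ u, u < n + 1 → Em (n + 1) τ x * proj (n + 1) τ u = x ^ u • proj (n + 1) τ u := by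
    intro u hu
    unfold Em
    rw [Finset.sum_mul, Finset.sum_eq_single u]
    · rw [Matrix.smul_mul, proj_mul_proj hN hτ hu hu, if_pos rfl]
    · intro s hs hsu
      rw [Matrix.smul_mul, proj_mul_proj hN hτ (Finset.mem_range.mp hs) hu, if_neg hsu, smul_zero]
    · intro h
      exact absurd (Finset.mem_range.mpr hu) h
  rw [hT, Finset.mul_sum, Finset.sum_range_succ']
  -- the term `t = 0`
  have h0 : Em (n + 1) τ x * x ^ 0 • proj (n + 1) τ (n + 1 - 0) = proj (n + 1) τ 0 := by
    rw [pow_zero, one_smul, Nat.sub_zero, proj_self_eq hN, hmul 0 hN, pow_zero, one_smul]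
  -- the other terms
  have h1 : ∀ t ∈ range n, Em (n + 1) τ x * x ^ (t + 1) • proj (n + 1) τ (n + 1 - (t + 1)) =
      x ^ (n + 1) • proj (n + 1) τ (n - 1 - t + 1) := by
    intro t ht
    have ht' : t < n := Finset.mem_range.mp ht
    have e1 : n + 1 - (t + 1) = n - 1 - t + 1 := by omega
    have e2 : n - 1 - t + 1 < n + 1 := by omega
    rw [e1, Matrix.mul_smul, hmul _ e2, smul_smul, ← pow_add]
    congr 2
    omega
  rw [h0, Finset.sum_congr rfl h1, ← Finset.smul_sum,
    Finset.sum_range_reflect (fun j => proj (n + 1) τ (j + 1)) n]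
  have h2 := sum_proj hN τ
  rw [Finset.sum_range_succ'] at h2
  rw [← h2, add_sub_cancel_right, add_comm]

/-! ### Determinant of `1 + (y - 1) Ψ` for an idempotent `Ψ` -/

theorem det_one_add_smul_of_idem {Ψ : Matrix Q Q ℂ} (hΨ : Ψ * Ψ = Ψ) :
    ∃ d : ℕ, (d : ℂ) = Ψ.trace ∧ ∀ y : ℂ, (1 + (y - 1) • Ψ).det = y ^ d := by
  set p : Polynomial ℂ :=
    (1 + (Polynomial.X : Polynomial ℂ) • Ψ.map Polynomial.C).det with hp
  have heval : ∀ t : ℂ, p.eval t = (1 + t • Ψ).det := by
    intro t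
    have h := RingHom.map_det (Polynomial.evalRingHom t)
      (1 + (Polynomial.X : Polynomial ℂ) • Ψ.map Polynomial.C)
    rw [Polynomial.coe_evalRingHom] at h
    rw [hp, h]
    congr 1
    ext i j
    by_cases hij : i = j
    · subst hij
      simp
      ring
    · simp [hij]
      ring
  set f : ℂ → ℂ := fun y => (1 + (y - 1) • Ψ).det with hf
  have hmul : ∀ y y', f (y * y') = f y * f y' := by
    intro y y'
    simp only [hf]
    rw [← Matrix.det_mul]
    congr 1
    rw [Matrix.add_mul, Matrix.mul_add, Matrix.mul_add, Matrix.one_mul, Matrix.mul_one,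
      Matrix.one_mul, Matrix.smul_mul, Matrix.mul_smul, hΨ]
    module
  have hf1 : f 1 = 1 := by simp [hf]
  have hfne : ∀ y, y ≠ 0 → f y ≠ 0 := by
    intro y hy h0
    have h := hmul y y⁻¹
    rw [mul_inv_cancel₀ hy, hf1, h0, zero_mul] at h
    exact one_ne_zero h
  have hpf : ∀ t, p.eval t = f (t + 1) := by
    intro t
    rw [heval]
    simp [hf]
  have hp0 : p ≠ 0 := by
    intro h
    have h0 := hpf 0
    rw [h, Polynomial.eval_zero, zero_add, hf1] at h0
    exact zero_ne_one h0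
  have hroots : ∀ a ∈ p.roots, a = -1 := by
    intro a ha
    rw [Polynomial.mem_roots hp0, Polynomial.IsRoot.def, hpf] at ha
    by_contra hne
    exact hfne (a + 1) (fun h => hne (by linear_combination h)) ha
  obtain ⟨c, d, hcd⟩ : ∃ (c : ℂ) (d : ℕ),
      p = Polynomial.C c * (Polynomial.X + Polynomial.C 1) ^ d := by
    refine ⟨p.leadingCoeff, Multiset.card p.roots, ?_⟩
    have hsplit := (IsAlgClosed.splits p).eq_prod_roots
    have hrep : p.roots = Multiset.replicate (Multiset.card p.roots) (-1) :=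
      Multiset.eq_replicate.mpr ⟨rfl, hroots⟩
    conv_lhs => rw [hsplit, hrep]
    simp [Multiset.map_replicate, Multiset.prod_replicate]
  have hc : c = 1 := by
    have h0 := hpf 0
    rw [hcd, zero_add, hf1] at h0
    simpa using h0
  rw [hc, Polynomial.C_1, one_mul] at hcd
  refine ⟨d, ?_, ?_⟩
  · have hder := Matrix.derivative_det_one_add_X_smul Ψ
    rw [← hp, hcd, Polynomial.derivative_pow] at hder
    rw [← hder]
    simp
  · intro y
    have h := heval (y - 1)
    rw [hcd] at h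
    rw [← h]
    simp

/-! ### The trace of `proj 0` is the number of orbits -/

theorem proj_zero_apply (N : ℕ) (τ : Equiv.Perm Q) (q' q : Q) :
    proj N τ 0 q' q = (N : ℂ)⁻¹ * ∑ k ∈ range N, (if q' = (τ ^ k) q then 1 else 0) := by
  simp [proj]

/-- `proj 0` is invariant under `τ` in the first index -/
theorem proj_zero_apply_perm {N : ℕ} {τ : Equiv.Perm Q} (hτ : τ ^ N = 1) (q' q : Q) :
    proj N τ 0 (τ q') q = proj N τ 0 q' q := by
  rw [proj_zero_apply, proj_zero_apply]
  congr 1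
  have hper : ∀ m, (fun k : ℕ => (if τ q' = (τ ^ k) q then (1 : ℂ) else 0)) (m + N) =
      (fun k : ℕ => (if τ q' = (τ ^ k) q then (1 : ℂ) else 0)) m := by
    intro m
    simp [pow_add, hτ]
  rw [← sum_range_shift _ N hper 1]
  refine Finset.sum_congr rfl fun k _ => ?_
  have : (τ ^ (1 + k)) q = τ ((τ ^ k) q) := by
    rw [pow_add, pow_one, Equiv.Perm.mul_apply]
  simp only [this, EmbeddingLike.apply_eq_iff_eq]

theorem sum_proj_zero_apply {N : ℕ} (hN : 0 < N) (τ : Equiv.Perm Q) (q' : Q) :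
    ∑ q, proj N τ 0 q' q = 1 := by
  have hN0 : (N : ℂ) ≠ 0 := Nat.cast_ne_zero.mpr hN.ne'
  simp_rw [proj_zero_apply]
  rw [← Finset.mul_sum, Finset.sum_comm]
  have h : ∀ k ∈ range N, ∑ q, (if q' = (τ ^ k) q then (1 : ℂ) else 0) = 1 := by
    intro k _
    rw [Finset.sum_eq_single ((τ ^ k).symm q')]
    · simp
    · intro b _ hb
      rw [if_neg]
      intro h
      apply hb
      rw [h, Equiv.symm_apply_apply]
    · intro h
      exact absurd (Finset.mem_univ _) h
  rw [Finset.sum_congr rfl h, Finset.sum_const, Finset.card_range, nsmul_eq_mul, mul_one,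
    inv_mul_cancel₀ hN0]

theorem proj_zero_apply_ne_zero {N : ℕ} {τ : Equiv.Perm Q} {q' q : Q}
    (h : proj N τ 0 q' q ≠ 0) : ∃ k : ℕ, q' = (τ ^ k) q := by
  by_contra hne
  apply h
  rw [proj_zero_apply]
  have : ∀ k ∈ range N, (if q' = (τ ^ k) q then (1 : ℂ) else 0) = 0 := by
    intro k _
    rw [if_neg]
    exact fun hk => hne ⟨k, hk⟩
  rw [Finset.sum_congr rfl this, Finset.sum_const_zero, mul_zero]

theorem trace_proj_zero {N : ℕ} (hN : 0 < N) {τ : Equiv.Perm Q} (hτ : τ ^ N = 1) :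
    (proj N τ 0).trace =
      (Nat.card (MulAction.orbitRel.Quotient (Subgroup.zpowers τ) Q) : ℂ) := by
  set P0 := proj N τ 0 with hP0
  have hidem : P0 * P0 = P0 := by
    have := proj_mul_proj hN hτ hN hN
    rwa [if_pos rfl] at this
  have hI : IsIdempotentElem (Matrix.toLin' P0) := by
    show Matrix.toLin' P0 * Matrix.toLin' P0 = Matrix.toLin' P0
    rw [Module.End.mul_eq_comp, ← Matrix.toLin'_mul, hidem]
  rw [← Matrix.trace_toLin'_eq, (LinearMap.IsIdempotentElem.isProj_range _ hI).trace]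
  congr 1
  -- the range consists of the functions which are constant on the orbits
  have hq_surj : Function.Surjective (Quotient.mk'' :
      Q → MulAction.orbitRel.Quotient (Subgroup.zpowers τ) Q) := Quotient.mk''_surjective
  have hinj := LinearMap.funLeft_injective_of_surjective ℂ ℂ _ hq_surj
  have hrange : LinearMap.range (Matrix.toLin' P0) = LinearMap.range (LinearMap.funLeft ℂ ℂ
      (Quotient.mk'' : Q → MulAction.orbitRel.Quotient (Subgroup.zpowers τ) Q)) := by
    apply le_antisymm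
    · rintro _ ⟨v, rfl⟩
      -- invariance under `τ`
      have h1 : ∀ q' : Q, Matrix.toLin' P0 v (τ q') = Matrix.toLin' P0 v q' := by
        intro q'
        rw [Matrix.toLin'_apply, Matrix.mulVec, Matrix.mulVec]
        simp only [dotProduct]
        exact Finset.sum_congr rfl fun q _ => by rw [hP0, proj_zero_apply_perm hτ]
      have key : ∀ g ∈ Subgroup.zpowers τ, ∀ x, Matrix.toLin' P0 v (g • x) = Matrix.toLin' P0 v x := by
        intro g hg
        rw [Subgroup.zpowers_eq_closure] at hg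
        induction hg using Subgroup.closure_induction with
        | mem y hy => rw [Set.mem_singleton_iff] at hy; subst hy; exact h1
        | one => intro x; rw [one_smul]
        | mul a b _ _ ha hb => intro x; rw [mul_smul, ha, hb]
        | inv a _ ha => intro x; rw [← ha (a⁻¹ • x), smul_inv_smul]
      refine ⟨Quotient.lift (Matrix.toLin' P0 v) ?_, ?_⟩
      · rintro a b ⟨h, rfl⟩
        exact key h.1 h.2 b
      · funext x
        rfl
    · rintro _ ⟨u, rfl⟩
      refine ⟨LinearMap.funLeft ℂ ℂ Quotient.mk'' u, ?_⟩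
      funext q'
      rw [Matrix.toLin'_apply, Matrix.mulVec]
      simp only [dotProduct]
      have h2 : ∀ q ∈ (Finset.univ : Finset Q), P0 q' q * (LinearMap.funLeft ℂ ℂ (Quotient.mk'' :
          Q → MulAction.orbitRel.Quotient (Subgroup.zpowers τ) Q) u) q =
          P0 q' q * (LinearMap.funLeft ℂ ℂ (Quotient.mk'' :
          Q → MulAction.orbitRel.Quotient (Subgroup.zpowers τ) Q) u) q' := by
        intro q _
        by_cases h0 : P0 q' q = 0
        · rw [h0, zero_mul, zero_mul]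
        · obtain ⟨k, hk⟩ := proj_zero_apply_ne_zero h0
          congr 1
          show u (Quotient.mk'' q) = u (Quotient.mk'' q')
          congr 1
          apply Quotient.sound'
          refine ⟨⟨(τ ^ k)⁻¹, Subgroup.inv_mem _ (Subgroup.pow_mem _ (Subgroup.mem_zpowers τ) k)⟩, ?_⟩
          show (τ ^ k)⁻¹ • q' = q
          rw [hk]
          exact Equiv.symm_apply_apply _ _
      rw [Finset.sum_congr rfl h2, ← Finset.sum_mul, hP0, sum_proj_zero_apply hN, one_mul]
  rw [hrange, LinearMap.finrank_range_of_inj hinj]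
  have : Fintype (MulAction.orbitRel.Quotient (Subgroup.zpowers τ) Q) := Fintype.ofFinite _
  rw [Module.finrank_fintype_fun_eq_card, Nat.card_eq_fintype_card]

/-! ### The determinant -/

/-- `det (Em x) ^ 2 = (x ^ N) ^ (card Q - number of orbits of τ)`. -/
theorem det_Em_sq {N : ℕ} (hN : 0 < N) {τ : Equiv.Perm Q} (hτ : τ ^ N = 1) (x : ℂ) :
    (Em N τ x).det ^ 2 =
      (x ^ N) ^ (Fintype.card Q -
        Nat.card (MulAction.orbitRel.Quotient (Subgroup.zpowers τ) Q)) := by
  have hidem : proj N τ 0 * proj N τ 0 = proj N τ 0 := by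
    have := proj_mul_proj hN hτ hN hN
    rwa [if_pos rfl] at this
  have hΨ : (1 - proj N τ 0) * (1 - proj N τ 0) = 1 - proj N τ 0 := by
    rw [Matrix.sub_mul, Matrix.mul_sub, Matrix.mul_sub, Matrix.one_mul, Matrix.mul_one,
      Matrix.one_mul, hidem, sub_self, sub_zero]
  obtain ⟨d, hd, hdet⟩ := det_one_add_smul_of_idem hΨ
  have hd' : d = Fintype.card Q -
      Nat.card (MulAction.orbitRel.Quotient (Subgroup.zpowers τ) Q) := by
    rw [Matrix.trace_sub, Matrix.trace_one, trace_proj_zero hN hτ] at hd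
    have h : ((d + Nat.card (MulAction.orbitRel.Quotient (Subgroup.zpowers τ) Q) : ℕ) : ℂ) =
        (Fintype.card Q : ℂ) := by
      push_cast
      rw [hd]
      ring
    have h' := Nat.cast_injective h
    omega
  rw [← hd', ← hdet (x ^ N), pow_two]
  nth_rewrite 2 [← Matrix.det_transpose]
  rw [← Matrix.det_mul, Em_mul_transpose hN hτ]
  congr 1
  module

/-! ### Auxiliary statements for the consumers -/

theorem vecMul_proj (N : ℕ) (τ : Equiv.Perm Q) (s : ℕ) (v : Q → ℂ) (q : Q) :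
    (Matrix.vecMul v (proj N τ s)) q =
      (N : ℂ)⁻¹ * ∑ k ∈ range N, zeta N ^ (s * k) * v ((τ ^ k) q) := by
  simp only [Matrix.vecMul, dotProduct, proj, Matrix.of_apply]
  simp_rw [Finset.mul_sum]
  rw [Finset.sum_comm]
  refine Finset.sum_congr rfl fun k _ => ?_
  rw [Finset.sum_eq_single ((τ ^ k) q)]
  · simp
    ring
  · intro b _ hb
    simp [hb]
  · intro h
    exact absurd (Finset.mem_univ _) h

theorem norm_zeta (N : ℕ) : ‖zeta N‖ = 1 := by
  unfold zeta
  rw [Complex.norm_exp]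
  simp

theorem norm_proj_apply_le {N : ℕ} (hN : 0 < N) (τ : Equiv.Perm Q) (s : ℕ) (q' q : Q) :
    ‖proj N τ s q' q‖ ≤ 1 := by
  have hN0 : (0 : ℝ) < N := Nat.cast_pos.mpr hN
  simp only [proj, Matrix.of_apply]
  rw [norm_mul, norm_inv, Complex.norm_natCast]
  have h : ‖∑ k ∈ range N, zeta N ^ (s * k) * (if q' = (τ ^ k) q then (1 : ℂ) else 0)‖ ≤ N := by
    refine (norm_sum_le _ _).trans ?_
    have : ∀ k ∈ range N, ‖zeta N ^ (s * k) * (if q' = (τ ^ k) q then (1 : ℂ) else 0)‖ ≤ 1 := by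
      intro k _
      rw [norm_mul, norm_pow, norm_zeta, one_pow, one_mul]
      split_ifs <;> simp
    refine (Finset.sum_le_sum this).trans ?_
    simp
  calc (N : ℝ)⁻¹ * ‖∑ k ∈ range N, zeta N ^ (s * k) * (if q' = (τ ^ k) q then (1 : ℂ) else 0)‖
      ≤ (N : ℝ)⁻¹ * N := mul_le_mul_of_nonneg_left h (inv_nonneg.mpr hN0.le)
    _ = 1 := inv_mul_cancel₀ hN0.ne'

theorem norm_Em_apply_le {N : ℕ} (hN : 0 < N) (τ : Equiv.Perm Q) (x : ℂ) (q' q : Q) :
    ‖Em N τ x q' q‖ ≤ ∑ s ∈ range N, ‖x‖ ^ s := by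
  unfold Em
  rw [Matrix.sum_apply]
  refine (norm_sum_le _ _).trans (Finset.sum_le_sum fun s _ => ?_)
  rw [Matrix.smul_apply, smul_eq_mul, norm_mul, norm_pow]
  exact mul_le_of_le_one_right (pow_nonneg (norm_nonneg _) _) (norm_proj_apply_le hN τ s q' q)

end Fermat.Agent.S20.Frame.CuspLA
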