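/-
S20 (frame route), analytic scalar slice of CUSP.

A holomorphic function on the upper half plane which is `1`-periodic and grows at most like
`exp (2 π c im z)` with `c < 1` is bounded at `i∞`, hence has a limit there and approaches it
exponentially fast.  Applied to the "twisted" pieces `g(z) q_N(z)^{-s}` of an `N`-periodic
function (`g(z+1) = ζ_N^s g(z)`, `s < N`).
-/
import Mathlib

set_option autoImplicit false

open UpperHalfPlane Filter Topology Function
open scoped Real Manifold

noncomputable section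

namespace Fermat.Agent.S20.Frame.CuspScalar

local notation "𝕢" => Periodic.qParam

/-- Periodicity of `h ∘ ofComplex` from periodicity on `ℍ`. -/
theorem periodic_comp_ofComplex {h : ℍ → ℂ} (hper : ∀ z : ℍ, h ((1 : ℝ) +ᵥ z) = h z) :
    Periodic (h ∘ ofComplex) ((1 : ℝ) : ℂ) := by
  intro w
  by_cases hw : 0 < Complex.im w
  · have hw1 : 0 < Complex.im (w + ((1 : ℝ) : ℂ)) := by simpa using hw
    simp only [comp_apply, ofComplex_apply_of_im_pos hw1, ofComplex_apply_of_im_pos hw]
    rw [← hper ⟨w, hw⟩]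
    congr 1
    ext
    simp [add_comm]
  · have hw' : Complex.im w ≤ 0 := not_lt.mp hw
    have hw1 : Complex.im (w + ((1 : ℝ) : ℂ)) ≤ 0 := by simpa using hw'
    simp only [comp_apply, ofComplex_apply_of_im_nonpos hw1, ofComplex_apply_of_im_nonpos hw']

theorem qParam_one_vadd (z : ℍ) : 𝕢 1 (((1 : ℝ) +ᵥ z : ℍ) : ℂ) = 𝕢 1 (z : ℂ) := by
  rw [coe_vadd]
  simp only [Periodic.qParam, Complex.ofReal_one, div_one]
  rw [mul_add, Complex.exp_add]
  simp

theorem mdiff_qParam (h : ℝ) : MDiff (fun z : ℍ => 𝕢 h (z : ℂ)) := by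
  rw [UpperHalfPlane.mdifferentiable_iff]
  have h1 : DifferentiableOn ℂ (𝕢 h) {z : ℂ | 0 < z.im} :=
    (Periodic.differentiable_qParam (h := h)).differentiableOn
  refine h1.congr fun w hw => ?_
  simp only [comp_apply, ofComplex_apply_of_im_pos hw]

theorem mdiff_mul {f g : ℍ → ℂ} (hf : MDiff f) (hg : MDiff g) : MDiff (fun z => f z * g z) := by
  rw [UpperHalfPlane.mdifferentiable_iff] at hf hg ⊢
  exact hf.mul hg

/-- A `1`-periodic holomorphic function of growth `O(exp (2 π c im z))`, `c < 1`, is bounded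
at `i∞`. -/
theorem isBoundedAtImInfty_of_growth {h : ℍ → ℂ} (hhol : MDiff h)
    (hper : ∀ z : ℍ, h ((1 : ℝ) +ᵥ z) = h z) {c : ℝ} (hc : c < 1)
    (hgr : h =O[atImInfty] (fun z : ℍ => Real.exp (2 * π * c * z.im))) :
    IsBoundedAtImInfty h := by
  set F : ℍ → ℂ := fun z => h z * 𝕢 1 (z : ℂ) with hF
  have hFper : Periodic (F ∘ ofComplex) ((1 : ℝ) : ℂ) :=
    periodic_comp_ofComplex fun z => by
      simp only [hF]
      rw [hper z, qParam_one_vadd]
  have hFhol : MDiff F := mdiff_mul hhol (mdiff_qParam 1)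
  have hq : (fun z : ℍ => 𝕢 1 (z : ℂ)) =O[atImInfty] (fun z : ℍ => Real.exp (-2 * π * z.im)) := by
    refine Asymptotics.IsBigO.of_bound 1 (Eventually.of_forall fun z => ?_)
    rw [Periodic.norm_qParam, Real.norm_eq_abs, abs_of_pos (Real.exp_pos _), one_mul, div_one]
    rfl
  have hFO : F =O[atImInfty] (fun z : ℍ => Real.exp (-2 * π * (1 - c) * z.im)) := by
    have := hgr.mul hq
    refine this.congr_right fun z => ?_
    rw [← Real.exp_add]
    congr 1
    ring
  have hlim : Tendsto (fun z : ℍ => Real.exp (-2 * π * (1 - c) * z.im)) atImInfty (𝓝 0) := by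
    have h1 : Tendsto (fun z : ℍ => z.im) atImInfty atTop := tendsto_comap
    have h2 : Tendsto (fun z : ℍ => -2 * π * (1 - c) * z.im) atImInfty atBot := by
      have hneg : -2 * π * (1 - c) < 0 := by
        have : 0 < π * (1 - c) := mul_pos Real.pi_pos (by linarith)
        linarith
      exact h1.const_mul_atTop_of_neg hneg
    exact Real.tendsto_exp_atBot.comp h2
  have hFzero : IsZeroAtImInfty F := hFO.trans_tendsto hlim
  have hFbdd : IsBoundedAtImInfty F := hFzero.isBoundedAtImInfty
  have hG : DifferentiableAt ℂ (cuspFunction 1 F) 0 :=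
    differentiableAt_cuspFunction one_pos hFper hFhol hFbdd (by simp)
  have hG0 : cuspFunction 1 F 0 = 0 := by
    rw [cuspFunction_apply_zero one_pos
      (analyticAt_cuspFunction_zero one_pos hFper hFhol hFbdd) hFper]
    exact hFzero.valueAtInfty_eq_zero
  have hO := hG.isBigO_sub.comp_tendsto (qParam_tendsto_atImInfty one_pos)
  simp only [hG0, sub_zero] at hO
  obtain ⟨C, hC⟩ := hO.bound
  refine Asymptotics.IsBigO.of_bound C ?_
  filter_upwards [hC] with z hz
  simp only [comp_apply] at hz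
  rw [eq_cuspFunction z one_ne_zero hFper] at hz
  have hqz : 𝕢 1 (z : ℂ) ≠ 0 := Periodic.qParam_ne_zero _
  have hqn : 0 < ‖𝕢 1 (z : ℂ)‖ := norm_pos_iff.mpr hqz
  simp only [hF, norm_mul] at hz
  have : ‖h z‖ ≤ C := le_of_mul_le_mul_right hz hqn
  simpa using this

/-- A `1`-periodic holomorphic function of growth `O(exp (2 π c im z))`, `c < 1`, has a limit
at `i∞` and approaches it exponentially fast. -/
theorem exists_limit_of_growth {h : ℍ → ℂ} (hhol : MDiff h)
    (hper : ∀ z : ℍ, h ((1 : ℝ) +ᵥ z) = h z) {c : ℝ} (hc : c < 1)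
    (hgr : h =O[atImInfty] (fun z : ℍ => Real.exp (2 * π * c * z.im))) :
    ∃ a : ℂ, Tendsto h atImInfty (𝓝 a) ∧
      (fun z : ℍ => h z - a) =O[atImInfty] (fun z : ℍ => Real.exp (-2 * π * z.im)) := by
  have hb := isBoundedAtImInfty_of_growth hhol hper hc hgr
  have hperC := periodic_comp_ofComplex hper
  refine ⟨valueAtInfty h, ?_, ?_⟩
  · have han := analyticAt_cuspFunction_zero one_pos hperC hhol hb
    have := han.continuousAt.tendsto.comp (qParam_tendsto_atImInfty one_pos)
    rw [cuspFunction_apply_zero one_pos han hperC] at this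
    refine this.congr fun z => ?_
    simpa using eq_cuspFunction z one_ne_zero hperC
  · have := exp_decay_sub_atImInfty one_pos hperC hhol hb
    simpa using this

theorem mdiff_of_differentiable {f : ℂ → ℂ} (hf : Differentiable ℂ f) :
    MDiff (fun z : ℍ => f (z : ℂ)) := by
  rw [UpperHalfPlane.mdifferentiable_iff]
  refine hf.differentiableOn.congr fun w hw => ?_
  simp only [comp_apply, ofComplex_apply_of_im_pos hw]

theorem norm_exp_twist (N s : ℕ) (z : ℍ) :
    ‖Complex.exp (-(2 * π * Complex.I * s * (z : ℂ) / N))‖ = Real.exp (2 * π * (s / N) * z.im) := by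
  rw [Complex.norm_exp]
  congr 1
  have : -(2 * (π : ℂ) * Complex.I * s * (z : ℂ) / N) =
      ((2 * π * (s / N) : ℝ) : ℂ) * (-(Complex.I * (z : ℂ))) := by
    push_cast
    ring
  rw [this, Complex.re_ofReal_mul]
  simp

/-- The twisted pieces of an `N`-periodic bounded holomorphic function: if
`g (z + 1) = ζ_N ^ s * g z` with `s < N`, then `g z * exp (-2 π i s z / N)` has a limit `a` at
`i∞`, with error `O(exp (-2 π im z))`. -/
theorem exists_limit_twisted {N : ℕ} [NeZero N] {s : ℕ} (hs : s < N) {g : ℍ → ℂ} (hg : MDiff g)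
    (hb : IsBoundedAtImInfty g)
    (htw : ∀ z : ℍ, g ((1 : ℝ) +ᵥ z) = Complex.exp (2 * π * Complex.I * s / N) * g z) :
    ∃ a : ℂ,
      Tendsto (fun z : ℍ => g z * Complex.exp (-(2 * π * Complex.I * s * (z : ℂ) / N)))
        atImInfty (𝓝 a) ∧
      (fun z : ℍ => g z * Complex.exp (-(2 * π * Complex.I * s * (z : ℂ) / N)) - a) =O[atImInfty]
        (fun z : ℍ => Real.exp (-2 * π * z.im)) := by
  have hN : (0 : ℝ) < N := Nat.cast_pos.mpr (NeZero.pos N)
  have hNC : (N : ℂ) ≠ 0 := Nat.cast_ne_zero.mpr (NeZero.ne N)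
  refine exists_limit_of_growth (c := (s : ℝ) / N) ?_ ?_ ?_ ?_
  · exact mdiff_mul hg (mdiff_of_differentiable
      (f := fun w : ℂ => Complex.exp (-(2 * π * Complex.I * s * w / N))) (by fun_prop))
  · intro z
    have e : Complex.exp (2 * π * Complex.I * s / N) *
        Complex.exp (-(2 * π * Complex.I * s * (((1 : ℝ) : ℂ) + (z : ℂ)) / N)) =
        Complex.exp (-(2 * π * Complex.I * s * (z : ℂ) / N)) := by
      rw [← Complex.exp_add]
      congr 1
      push_cast
      field_simp
      ring
    rw [htw z, coe_vadd, mul_right_comm, e, mul_comm]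
  · rw [div_lt_one hN]
    exact_mod_cast hs
  · have h1 : (fun z : ℍ => Complex.exp (-(2 * π * Complex.I * s * (z : ℂ) / N))) =O[atImInfty]
        (fun z : ℍ => Real.exp (2 * π * ((s : ℝ) / N) * z.im)) := by
      refine Asymptotics.IsBigO.of_bound 1 (Eventually.of_forall fun z => ?_)
      rw [norm_exp_twist, Real.norm_eq_abs, abs_of_pos (Real.exp_pos _), one_mul]
    have h2 := Asymptotics.IsBigO.mul hb h1
    refine h2.congr_right fun z => ?_
    simp

end Fermat.Agent.S20.Frame.CuspScalar
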