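/-
S20 Frame route, piece CUSP, slice T: the action of `T` on the cosets and the expansion of a row
of translates at `i∞`.

* `tau N` is the permutation of `Q N` induced by `T`; `tau N ^ N = 1`; its cycles are the
  `T`-orbits (`card_orbits_tau`).
* `tr f q (z + 1) = tr f ((tau N)⁻¹ q) z` (`tr_vadd`).
* `qN N z = exp (2 π i z / N)`.
* `exists_limit_row`: the row vector `(tr f q z)_q` times `Em N (tau N) (qN N z)⁻¹` converges at
  `i∞`, with rate `O(exp (-2 π im z))`.
-/
import Mathlib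
import Fermat.Agent.S20.Frame.Defs
import Fermat.Agent.S20.Frame.Common
import Fermat.Agent.S20.Frame.Comb
import Fermat.Agent.S20.Frame.CuspLA
import Fermat.Agent.S20.Frame.CuspScalar

set_option autoImplicit false
set_option linter.unusedSectionVars false

open UpperHalfPlane ModularForm CongruenceSubgroup Matrix.SpecialLinearGroup Filter
open scoped MatrixGroups ModularForm Manifold Topology Real

noncomputable section

namespace Fermat.Agent.S20.Frame.CuspT

/-! ### The permutation induced by `T` -/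

/-- The permutation of the cosets induced by `T`. -/
def tau (N : ℕ) : Equiv.Perm (Q N) := MulAction.toPerm Tg

theorem tau_apply (N : ℕ) (q : Q N) : tau N q = Tg • q := rfl

theorem tau_inv_apply (N : ℕ) (q : Q N) : (tau N)⁻¹ q = Tg⁻¹ • q := rfl

theorem tau_zpow_apply (N : ℕ) (j : ℤ) (q : Q N) : (tau N ^ j) q = Tg ^ j • q := by
  have h : tau N ^ j = MulAction.toPerm (Tg ^ j) :=
    (map_zpow (MulAction.toPermHom 𝒮ℒ (Q N)) Tg j).symm
  rw [h]
  rfl

theorem tau_pow_apply (N : ℕ) (j : ℕ) (q : Q N) : (tau N ^ j) q = Tg ^ j • q := by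
  have h := tau_zpow_apply N j q
  simpa using h

theorem Gamma_le_Gamma0 (N : ℕ) : Gamma N ≤ Gamma0 N := by
  intro x hx
  rw [Gamma_mem] at hx
  rw [Gamma0_mem]
  exact hx.2.2.1

theorem Tg_pow_smul (N : ℕ) (q : Q N) : Tg ^ N • q = q := by
  induction q using QuotientGroup.induction_on with
  | H h =>
    obtain ⟨g, rfl⟩ := Comb.toSL_surjective h
    have hT : ModularGroup.T ^ N ∈ Gamma N := by
      have := ModularGroup_T_pow_mem_Gamma (N : ℤ) (N : ℤ) dvd_rfl
      simpa using this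
    have hmem : g⁻¹ * (ModularGroup.T ^ N)⁻¹ * g ∈ Gamma0 N := by
      have h1 : (ModularGroup.T ^ N)⁻¹ ∈ Gamma N := (Gamma N).inv_mem hT
      have h2 := (Gamma_normal N).conj_mem _ h1 g⁻¹
      rw [inv_inv] at h2
      exact Gamma_le_Gamma0 N h2
    rw [MulAction.Quotient.smul_mk, smul_eq_mul, QuotientGroup.eq]
    have h3 : (Tg ^ N * toSL g)⁻¹ * toSL g = toSL (g⁻¹ * (ModularGroup.T ^ N)⁻¹ * g) := by
      rw [Comb.toSL_mul, Comb.toSL_mul]
      have e1 : toSL g⁻¹ = (toSL g)⁻¹ := map_inv Comb.toSLEquiv g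
      have e2 : toSL (ModularGroup.T ^ N)⁻¹ = (toSL (ModularGroup.T ^ N))⁻¹ :=
        map_inv Comb.toSLEquiv _
      have e3 : toSL (ModularGroup.T ^ N) = Tg ^ N := map_pow Comb.toSLEquiv ModularGroup.T N
      rw [e1, e2, e3, mul_inv_rev]
    rw [h3, Comb.toSL_mem_iff]
    exact hmem

theorem tau_pow (N : ℕ) : tau N ^ N = 1 := by
  ext q
  rw [tau_pow_apply, Tg_pow_smul]
  rfl

theorem card_orbits_tau (N : ℕ) :
    Nat.card (MulAction.orbitRel.Quotient (Subgroup.zpowers (tau N)) (Q N)) = orbT N := by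
  rw [orbT]
  refine Nat.card_congr (Quotient.congr (Equiv.refl _) fun x y => ?_)
  rw [MulAction.orbitRel_apply, MulAction.orbitRel_apply, MulAction.mem_orbit_iff,
    MulAction.mem_orbit_iff]
  constructor
  · rintro ⟨⟨t, j, rfl⟩, h⟩
    refine ⟨⟨Tg ^ j, j, rfl⟩, ?_⟩
    change Tg ^ j • y = x
    rw [← tau_zpow_apply]
    exact h
  · rintro ⟨⟨t, j, rfl⟩, h⟩
    refine ⟨⟨tau N ^ j, j, rfl⟩, ?_⟩
    change (tau N ^ j) y = x
    rw [tau_zpow_apply]
    exact h

/-! ### Translation by one -/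

theorem tr_vadd {N : ℕ} {k : ℤ} (f : ModularForm (G0 N) k) (q : Q N) (z : ℍ) :
    tr f q ((1 : ℝ) +ᵥ z) = tr f ((tau N)⁻¹ q) z := by
  rw [← modular_T_smul, tr_smul_apply]
  have h : denom ModularGroup.T z = 1 := by
    simp [denom, ModularGroup.T]
  rw [h, one_zpow, one_mul]
  rfl

/-! ### The local parameter -/

/-- `q_N = exp (2 π i z / N)`. -/
def qN (N : ℕ) (z : ℍ) : ℂ := Complex.exp (2 * π * Complex.I * z / N)

theorem qN_ne_zero (N : ℕ) (z : ℍ) : qN N z ≠ 0 := Complex.exp_ne_zero _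

theorem qN_pow (N : ℕ) [NeZero N] (z : ℍ) :
    qN N z ^ N = Complex.exp (2 * π * Complex.I * z) := by
  have hN : (N : ℂ) ≠ 0 := Nat.cast_ne_zero.mpr (NeZero.ne N)
  rw [qN, ← Complex.exp_nat_mul]
  congr 1
  field_simp

theorem qN_inv_pow (N s : ℕ) (z : ℍ) :
    ((qN N z)⁻¹) ^ s = Complex.exp (-(2 * π * Complex.I * s * (z : ℂ) / N)) := by
  rw [qN, ← Complex.exp_neg, ← Complex.exp_nat_mul]
  congr 1
  ring

theorem norm_qN (N : ℕ) (z : ℍ) : ‖qN N z‖ = Real.exp (-2 * π * z.im / N) := by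
  rw [qN, Complex.norm_exp]
  congr 1
  have : 2 * (π : ℂ) * Complex.I * (z : ℂ) / N =
      ((2 * π / N : ℝ) : ℂ) * (Complex.I * (z : ℂ)) := by
    push_cast
    ring
  rw [this, Complex.re_ofReal_mul]
  simp
  ring

/-! ### Twisted averages of the translates -/

section avg

variable {N : ℕ} [NeZero N] {k : ℤ}

/-- The twisted average of the translates along a `T`-orbit. -/
def avg (f : ModularForm (G0 N) k) (s : ℕ) (q : Q N) (z : ℍ) : ℂ :=
  (N : ℂ)⁻¹ * ∑ j ∈ Finset.range N, CuspLA.zeta N ^ (s * j) * tr f ((tau N ^ j) q) z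

theorem vecMul_proj_eq [Fintype (Q N)] [DecidableEq (Q N)] (f : ModularForm (G0 N) k) (s : ℕ)
    (q : Q N) (z : ℍ) :
    Matrix.vecMul (fun q' => tr f q' z) (CuspLA.proj N (tau N) s) q = avg f s q z :=
  CuspLA.vecMul_proj N (tau N) s _ q

theorem avg_mdiff (f : ModularForm (G0 N) k) (s : ℕ) (q : Q N) : MDiff (avg f s q) := by
  rw [UpperHalfPlane.mdifferentiable_iff]
  have h : ∀ j ∈ Finset.range N, DifferentiableOn ℂ
      (fun w : ℂ => CuspLA.zeta N ^ (s * j) * (tr f ((tau N ^ j) q) ∘ ofComplex) w)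
      {w : ℂ | 0 < w.im} := fun j _ =>
    (UpperHalfPlane.mdifferentiable_iff.mp (tr_mdiff f ((tau N ^ j) q))).const_mul _
  exact (DifferentiableOn.fun_sum h).const_mul ((N : ℂ)⁻¹)

theorem avg_bdd (f : ModularForm (G0 N) k) (s : ℕ) (q : Q N) : IsBoundedAtImInfty (avg f s q) := by
  have h : ∀ j ∈ Finset.range N, (fun z : ℍ => CuspLA.zeta N ^ (s * j) * tr f ((tau N ^ j) q) z)
      =O[atImInfty] (1 : ℍ → ℝ) := fun j _ =>
    Asymptotics.IsBigO.const_mul_left (tr_bdd f ((tau N ^ j) q)) _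
  exact Asymptotics.IsBigO.const_mul_left (Asymptotics.IsBigO.fun_sum h) _

theorem zeta_pow_eq (N s : ℕ) :
    CuspLA.zeta N ^ s = Complex.exp (2 * π * Complex.I * s / N) := by
  rw [CuspLA.zeta, ← Complex.exp_nat_mul]
  congr 1
  ring

theorem avg_vadd (f : ModularForm (G0 N) k) (s : ℕ) (q : Q N) (z : ℍ) :
    avg f s q ((1 : ℝ) +ᵥ z) = Complex.exp (2 * π * Complex.I * s / N) * avg f s q z := by
  have hN : 0 < N := NeZero.pos N
  set h : ℕ → ℂ := fun j => CuspLA.zeta N ^ (s * j) * tr f ((tau N ^ j) ((tau N)⁻¹ q)) z with hh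
  have hper : ∀ m, h (m + N) = h m := by
    intro m
    simp only [hh]
    rw [pow_add (tau N), tau_pow, mul_one, mul_add, pow_add, pow_mul' _ s N,
      CuspLA.zeta_pow_self hN, one_pow, mul_one]
  have hshift := CuspLA.sum_range_shift h N hper 1
  have h1 : ∀ l ∈ Finset.range N, h (1 + l) =
      CuspLA.zeta N ^ s * (CuspLA.zeta N ^ (s * l) * tr f ((tau N ^ l) q) z) := by
    intro l _
    simp only [hh]
    have e : (tau N ^ (1 + l)) ((tau N)⁻¹ q) = (tau N ^ l) q := by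
      rw [add_comm, pow_succ, Equiv.Perm.mul_apply]
      congr 1
      exact (tau N).apply_symm_apply q
    rw [e, mul_add, mul_one, pow_add]
    ring
  have h2 : ∀ l ∈ Finset.range N, h l =
      CuspLA.zeta N ^ (s * l) * tr f ((tau N ^ l) q) ((1 : ℝ) +ᵥ z) := by
    intro l _
    simp only [hh]
    rw [tr_vadd]
    have e : (tau N ^ l) ((tau N)⁻¹ q) = (tau N)⁻¹ ((tau N ^ l) q) := by
      rw [← Equiv.Perm.mul_apply, ← Equiv.Perm.mul_apply]
      congr 1
      exact ((Commute.refl (tau N)).pow_left l).inv_right.eq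
    rw [e]
  rw [Finset.sum_congr rfl h1, Finset.sum_congr rfl h2, ← Finset.mul_sum] at hshift
  unfold avg
  rw [← hshift, zeta_pow_eq]
  ring

/-- The twisted averages have limits at `i∞` after removing the twist. -/
theorem exists_limit_avg (f : ModularForm (G0 N) k) {s : ℕ} (hs : s < N) (q : Q N) :
    ∃ a : ℂ, (fun z : ℍ => avg f s q z * Complex.exp (-(2 * π * Complex.I * s * (z : ℂ) / N)) - a)
      =O[atImInfty] (fun z : ℍ => Real.exp (-2 * π * z.im)) := by
  obtain ⟨a, -, ha⟩ := CuspScalar.exists_limit_twisted hs (avg_mdiff f s q) (avg_bdd f s q)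
    (avg_vadd f s q)
  exact ⟨a, ha⟩

theorem vecMul_Em [Fintype (Q N)] [DecidableEq (Q N)] (v : Q N → ℂ) (x : ℂ) (q : Q N) :
    Matrix.vecMul v (CuspLA.Em N (tau N) x) q =
      ∑ s ∈ Finset.range N, x ^ s * Matrix.vecMul v (CuspLA.proj N (tau N) s) q := by
  simp only [CuspLA.Em, Matrix.vecMul, dotProduct, Matrix.sum_apply, Matrix.smul_apply,
    smul_eq_mul, Finset.mul_sum]
  rw [Finset.sum_comm]
  exact Finset.sum_congr rfl fun s _ => Finset.sum_congr rfl fun q' _ => by ring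

/-- **Expansion of a row of translates at `i∞`.**  The row vector `(tr f q z)_q` times
`Em N (tau N) (qN N z)⁻¹` converges at `i∞`, with rate `O(exp (-2 π im z))`. -/
theorem exists_limit_row [Fintype (Q N)] [DecidableEq (Q N)] (f : ModularForm (G0 N) k) :
    ∃ a : Q N → ℂ, ∀ q, (fun z : ℍ =>
      Matrix.vecMul (fun q' => tr f q' z) (CuspLA.Em N (tau N) (qN N z)⁻¹) q - a q)
        =O[atImInfty] fun z : ℍ => Real.exp (-2 * π * z.im) := by
  have h : ∀ s ∈ Finset.range N, ∀ q : Q N, ∃ a : ℂ,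
      (fun z : ℍ => avg f s q z * Complex.exp (-(2 * π * Complex.I * s * (z : ℂ) / N)) - a)
        =O[atImInfty] (fun z : ℍ => Real.exp (-2 * π * z.im)) := fun s hs q =>
    exists_limit_avg f (Finset.mem_range.mp hs) q
  choose! a ha using h
  refine ⟨fun q => ∑ s ∈ Finset.range N, a s q, fun q => ?_⟩
  have hsum : ∀ z : ℍ,
      Matrix.vecMul (fun q' => tr f q' z) (CuspLA.Em N (tau N) (qN N z)⁻¹) q -
        ∑ s ∈ Finset.range N, a s q =
      ∑ s ∈ Finset.range N,
        (avg f s q z * Complex.exp (-(2 * π * Complex.I * s * (z : ℂ) / N)) - a s q) := by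
    intro z
    rw [vecMul_Em, Finset.sum_sub_distrib]
    congr 1
    refine Finset.sum_congr rfl fun s _ => ?_
    rw [vecMul_proj_eq, qN_inv_pow, mul_comm]
  simp_rw [hsum]
  exact Asymptotics.IsBigO.fun_sum fun s hs => ha s hs q

/-- `Em x⁻¹ * Em x = 1` for `x ≠ 0`. -/
theorem Em_inv_mul [Fintype (Q N)] [DecidableEq (Q N)] {x : ℂ} (hx : x ≠ 0) :
    CuspLA.Em N (tau N) x⁻¹ * CuspLA.Em N (tau N) x = 1 := by
  rw [CuspLA.Em_mul (NeZero.pos N) (tau_pow N), inv_mul_cancel₀ hx,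
    CuspLA.Em_one (NeZero.pos N) (tau_pow N)]

/-- `Em x * Em x⁻¹ = 1` for `x ≠ 0`. -/
theorem Em_mul_inv [Fintype (Q N)] [DecidableEq (Q N)] {x : ℂ} (hx : x ≠ 0) :
    CuspLA.Em N (tau N) x * CuspLA.Em N (tau N) x⁻¹ = 1 := by
  rw [CuspLA.Em_mul (NeZero.pos N) (tau_pow N), mul_inv_cancel₀ hx,
    CuspLA.Em_one (NeZero.pos N) (tau_pow N)]

end avg

end Fermat.Agent.S20.Frame.CuspT
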