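/-
S20 Frame route, piece CUSP: end-to-end assembly of the behaviour of the matrix of translates at
`i∞`, from the landed slices `CuspLA` (spectral projectors), `CuspScalar` (twisted periodic
functions), `CuspT` (expansion of a row of translates) and `CuspInv` (invertibility in
convention-free form).

With `Ψ(z) = (tr (F i) q z)_(i,q)` and `B(z) = Ψ(z) * Em (q_N(z))⁻¹` we have `Ψ = B * Em (q_N)`,
`B → A` entrywise with `A` of trivial left kernel, `det (Em x) ^ 2 = (x ^ N) ^ (μ - orbT)`,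
`Δ / q → 1`; hence `det Φ ^ 2 / Δ ^ (μ - orbT) → det A ^ 2 ≠ 0` and `Δ * Φ⁻¹ → 0`.
-/
import Mathlib
import Fermat.Agent.S20.Frame.Defs
import Fermat.Agent.S20.Frame.Common
import Fermat.Agent.S20.Frame.CuspLA
import Fermat.Agent.S20.Frame.CuspT
import Fermat.Agent.S20.Frame.CuspInv

set_option autoImplicit false
set_option linter.unusedSectionVars false

open UpperHalfPlane ModularForm CongruenceSubgroup Matrix.SpecialLinearGroup Filter
open scoped MatrixGroups ModularForm Manifold Topology Real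

noncomputable section

namespace Fermat.Agent.S20.Frame.CuspFull

local notation "Δ" => ModularForm.discriminant

variable {N : ℕ} [NeZero N]

variable {n : ℕ} {w : Fin n → ℤ} {F : (i : Fin n) → ModularForm (G0 N) (w i)}

/-! ### Scalar limits at `i∞` -/

theorem tendsto_exp_neg :
    Tendsto (fun z : ℍ => Real.exp (-2 * π * z.im)) atImInfty (𝓝 0) := by
  have h1 : Tendsto (fun z : ℍ => z.im) atImInfty atTop := tendsto_comap
  have h2 : Tendsto (fun z : ℍ => -2 * π * z.im) atImInfty atBot :=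
    h1.const_mul_atTop_of_neg (by nlinarith [Real.pi_pos])
  exact Real.tendsto_exp_atBot.comp h2

theorem tendsto_qN (N : ℕ) [NeZero N] : Tendsto (fun z : ℍ => CuspT.qN N z) atImInfty (𝓝 0) := by
  rw [tendsto_zero_iff_norm_tendsto_zero]
  have hN : (0 : ℝ) < N := Nat.cast_pos.mpr (NeZero.pos N)
  have h1 : Tendsto (fun z : ℍ => z.im) atImInfty atTop := tendsto_comap
  have h2 : Tendsto (fun z : ℍ => (-2 * π / N) * z.im) atImInfty atBot :=
    h1.const_mul_atTop_of_neg (div_neg_of_neg_of_pos (by nlinarith [Real.pi_pos]) hN)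
  refine (Real.tendsto_exp_atBot.comp h2).congr fun z => ?_
  rw [CuspT.norm_qN, Function.comp_apply]
  congr 1
  ring

/-- `Δ z = q * P z` with `P → 1`. -/
theorem exists_discriminant_eq :
    ∃ P : ℍ → ℂ, Tendsto P atImInfty (𝓝 1) ∧ (∀ z, P z ≠ 0) ∧
      ∀ z : ℍ, Δ z = Complex.exp (2 * π * Complex.I * z) * P z := by
  refine ⟨fun z => Δ z / Complex.exp (2 * π * Complex.I * z), ?_, fun z => ?_, fun z => ?_⟩
  · refine tendsto_atImInfty_tprod_one_sub_eta_q_pow.congr fun z => ?_
    rw [discriminant_eq_q_prod z]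
    have h : Function.Periodic.qParam 1 (z : ℂ) = Complex.exp (2 * π * Complex.I * z) := by
      simp [Function.Periodic.qParam]
    rw [h, mul_div_cancel_left₀ _ (Complex.exp_ne_zero _)]
  · exact div_ne_zero (discriminant_ne_zero z) (Complex.exp_ne_zero _)
  · rw [mul_div_cancel₀ _ (Complex.exp_ne_zero _)]

/-! ### The matrix of translates and its leading matrix -/

/-- The matrix of translates, with columns indexed by the cosets. -/
def Psi (F : (i : Fin n) → ModularForm (G0 N) (w i)) (z : ℍ) : Matrix (Fin n) (Q N) ℂ :=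
  Matrix.of fun i q => tr (F i) q z

theorem Phi_eq (F : (i : Fin n) → ModularForm (G0 N) (w i)) (e : Fin n ≃ Q N) (z : ℍ) :
    Phi F e z = (Psi F z).submatrix id e := rfl

section fin

variable [Fintype (Q N)] [DecidableEq (Q N)]

/-- `B(z) = Ψ(z) * Em (q_N(z))⁻¹`. -/
def Bm (F : (i : Fin n) → ModularForm (G0 N) (w i)) (z : ℍ) : Matrix (Fin n) (Q N) ℂ :=
  Psi F z * CuspLA.Em N (CuspT.tau N) (CuspT.qN N z)⁻¹

theorem Psi_eq (F : (i : Fin n) → ModularForm (G0 N) (w i)) (z : ℍ) :
    Psi F z = Bm F z * CuspLA.Em N (CuspT.tau N) (CuspT.qN N z) := by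
  rw [Bm, Matrix.mul_assoc, CuspT.Em_inv_mul (CuspT.qN_ne_zero N z), Matrix.mul_one]

/-- The leading matrix exists. -/
theorem exists_leading (F : (i : Fin n) → ModularForm (G0 N) (w i)) :
    ∃ A : Matrix (Fin n) (Q N) ℂ, ∀ i q,
      (fun z : ℍ => Bm F z i q - A i q) =O[atImInfty] fun z : ℍ => Real.exp (-2 * π * z.im) := by
  choose a ha using fun i => CuspT.exists_limit_row (F i)
  exact ⟨Matrix.of a, fun i q => ha i q⟩

theorem norm_Em_qN_le (z : ℍ) (q' q : Q N) :
    ‖CuspLA.Em N (CuspT.tau N) (CuspT.qN N z) q' q‖ ≤ N := by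
  have h := CuspLA.norm_Em_apply_le (NeZero.pos N) (CuspT.tau N) (CuspT.qN N z) q' q
  have hN : (0 : ℝ) < N := Nat.cast_pos.mpr (NeZero.pos N)
  have hle : ‖CuspT.qN N z‖ ≤ 1 := by
    rw [CuspT.norm_qN, Real.exp_le_one_iff]
    have := z.im_pos
    have h2 : 0 ≤ 2 * π * z.im / N := by positivity
    have h3 : -2 * π * z.im / N = -(2 * π * z.im / N) := by ring
    rw [h3]
    linarith
  calc ‖CuspLA.Em N (CuspT.tau N) (CuspT.qN N z) q' q‖
      ≤ ∑ s ∈ Finset.range N, ‖CuspT.qN N z‖ ^ s := h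
    _ ≤ ∑ _s ∈ Finset.range N, (1 : ℝ) :=
        Finset.sum_le_sum fun s _ => pow_le_one₀ (norm_nonneg _) hle
    _ = N := by simp

/-- The leading matrix has trivial left kernel. -/
theorem leading_injective (hF : IsFrame N w F) (A : Matrix (Fin n) (Q N) ℂ)
    (hA : ∀ i q, (fun z : ℍ => Bm F z i q - A i q) =O[atImInfty]
      fun z : ℍ => Real.exp (-2 * π * z.im))
    (c : Fin n → ℂ) (hc : Matrix.vecMul c A = 0) : c = 0 := by
  refine Cusp.eq_zero_of_isBigO hF c fun q => ?_
  have key : ∀ z : ℍ, ∑ i, c i * tr (F i) q z =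
      ∑ q', (∑ i, c i * (Bm F z i q' - A i q')) *
        CuspLA.Em N (CuspT.tau N) (CuspT.qN N z) q' q := by
    intro z
    have h1 : ∀ q', ∑ i, c i * (Bm F z i q' - A i q') = ∑ i, c i * Bm F z i q' := by
      intro q'
      have h := congrFun hc q'
      simp only [Matrix.vecMul, dotProduct, Pi.zero_apply] at h
      simp only [mul_sub, Finset.sum_sub_distrib, h, sub_zero]
    have h2 : ∀ i, tr (F i) q z =
        ∑ q', Bm F z i q' * CuspLA.Em N (CuspT.tau N) (CuspT.qN N z) q' q := by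
      intro i
      have h := congrFun (congrFun (Psi_eq F z) i) q
      rw [Matrix.mul_apply] at h
      exact h
    simp_rw [h1, h2, Finset.mul_sum, Finset.sum_mul]
    rw [Finset.sum_comm]
    exact Finset.sum_congr rfl fun q' _ => Finset.sum_congr rfl fun i _ => by ring
  simp_rw [key]
  refine Asymptotics.IsBigO.fun_sum fun q' _ => ?_
  have hb : (fun z : ℍ => CuspLA.Em N (CuspT.tau N) (CuspT.qN N z) q' q) =O[atImInfty]
      (fun _ : ℍ => (1 : ℝ)) := by
    refine Asymptotics.IsBigO.of_bound N (Eventually.of_forall fun z => ?_)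
    rw [norm_one, mul_one]
    exact norm_Em_qN_le z q' q
  have ha : (fun z : ℍ => ∑ i, c i * (Bm F z i q' - A i q')) =O[atImInfty]
      fun z : ℍ => Real.exp (-2 * π * z.im) :=
    Asymptotics.IsBigO.fun_sum fun i _ => (hA i q').const_mul_left (c i)
  have h := ha.mul hb
  simp only [mul_one] at h
  exact h

end fin

/-! ### Square matrices -/

section square

variable [Fintype (Q N)] [DecidableEq (Q N)]

theorem Phi_eq_mul (F : (i : Fin n) → ModularForm (G0 N) (w i)) (e : Fin n ≃ Q N) (z : ℍ) :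
    Phi F e z = (Bm F z).submatrix id e *
      (CuspLA.Em N (CuspT.tau N) (CuspT.qN N z)).submatrix e e := by
  rw [Phi_eq, Psi_eq F z, Matrix.submatrix_mul_equiv]

/-- The square leading matrix is invertible, and `B → A`. -/
theorem exists_square_leading (hF : IsFrame N w F) (e : Fin n ≃ Q N) :
    ∃ A : Matrix (Fin n) (Fin n) ℂ, A.det ≠ 0 ∧
      Tendsto (fun z : ℍ => (Bm F z).submatrix id e) atImInfty (𝓝 A) := by
  obtain ⟨A, hA⟩ := exists_leading F
  refine ⟨A.submatrix id e, ?_, ?_⟩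
  · intro hdet
    obtain ⟨c, hc0, hc⟩ := Matrix.exists_vecMul_eq_zero_iff.mpr hdet
    apply hc0
    refine leading_injective hF A hA c ?_
    funext q
    have h := congrFun hc (e.symm q)
    simp only [Matrix.vecMul, dotProduct, Matrix.submatrix_apply, id_eq, Equiv.apply_symm_apply,
      Pi.zero_apply] at h ⊢
    exact h
  · refine tendsto_pi_nhds.mpr fun i => tendsto_pi_nhds.mpr fun j => ?_
    have h := (hA i (e j)).trans_tendsto tendsto_exp_neg
    have h2 := h.add_const (A i (e j))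
    simp only [sub_add_cancel, zero_add] at h2
    exact h2

theorem det_Em_sq_eq (z : ℍ) :
    (CuspLA.Em N (CuspT.tau N) (CuspT.qN N z)).det ^ 2 =
      Complex.exp (2 * π * Complex.I * z) ^ (Nat.card (Q N) - orbT N) := by
  rw [CuspLA.det_Em_sq (NeZero.pos N) (CuspT.tau_pow N), CuspT.card_orbits_tau, CuspT.qN_pow,
    Nat.card_eq_fintype_card]

theorem tendsto_det_sq_aux (hF : IsFrame N w F) (e : Fin n ≃ Q N) :
    ∃ c : ℂ, c ≠ 0 ∧ Tendsto
      (fun z : ℍ => (Phi F e z).det ^ 2 / Δ z ^ (Nat.card (Q N) - orbT N)) atImInfty (𝓝 c) := by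
  obtain ⟨A, hdet, hA⟩ := exists_square_leading hF e
  obtain ⟨P, hP, hP0, hΔ⟩ := exists_discriminant_eq
  refine ⟨A.det ^ 2, pow_ne_zero 2 hdet, ?_⟩
  have h1 : Tendsto (fun z : ℍ => ((Bm F z).submatrix id e).det) atImInfty (𝓝 A.det) :=
    ((continuous_id.matrix_det (n := Fin n) (R := ℂ)).tendsto A).comp hA
  have h2 : Tendsto (fun z : ℍ => ((Bm F z).submatrix id e).det ^ 2 *
      ((P z)⁻¹) ^ (Nat.card (Q N) - orbT N)) atImInfty (𝓝 (A.det ^ 2 * (1⁻¹) ^ _)) :=
    (h1.pow 2).mul ((hP.inv₀ one_ne_zero).pow _)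
  rw [inv_one, one_pow, mul_one] at h2
  refine h2.congr fun z => ?_
  rw [Phi_eq_mul F e z, Matrix.det_mul, Matrix.det_submatrix_equiv_self, mul_pow, det_Em_sq_eq,
    hΔ z, mul_pow, inv_pow]
  have hq : Complex.exp (2 * π * Complex.I * z) ^ (Nat.card (Q N) - orbT N) ≠ 0 :=
    pow_ne_zero _ (Complex.exp_ne_zero _)
  have hPz : P z ^ (Nat.card (Q N) - orbT N) ≠ 0 := pow_ne_zero _ (hP0 z)
  field_simp

/-- `Δ * Em (q_N)⁻¹ → 0` entrywise. -/
theorem tendsto_discriminant_mul_Em (q' q : Q N) :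
    Tendsto (fun z : ℍ => Δ z * CuspLA.Em N (CuspT.tau N) (CuspT.qN N z)⁻¹ q' q) atImInfty
      (𝓝 0) := by
  obtain ⟨P, hP, -, hΔ⟩ := exists_discriminant_eq
  have h : ∀ s ∈ Finset.range N, Tendsto (fun z : ℍ => Δ z * ((CuspT.qN N z)⁻¹ ^ s *
      CuspLA.proj N (CuspT.tau N) s q' q)) atImInfty (𝓝 0) := by
    intro s hs
    have hs' : s < N := Finset.mem_range.mp hs
    have h1 : Tendsto (fun z : ℍ => CuspT.qN N z ^ (N - s)) atImInfty (𝓝 0) := by
      have h := (tendsto_qN N).pow (N - s)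
      rwa [zero_pow (by omega : N - s ≠ 0)] at h
    have h2 := (h1.mul hP).mul_const (CuspLA.proj N (CuspT.tau N) s q' q)
    rw [zero_mul, zero_mul] at h2
    refine h2.congr fun z => ?_
    rw [hΔ z, ← CuspT.qN_pow N z]
    have hx : CuspT.qN N z ≠ 0 := CuspT.qN_ne_zero N z
    have hpow : CuspT.qN N z ^ N = CuspT.qN N z ^ (N - s) * CuspT.qN N z ^ s := by
      rw [← pow_add, Nat.sub_add_cancel hs'.le]
    rw [hpow, inv_pow]
    field_simp
  have hsum := tendsto_finsetSum (Finset.range N) h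
  rw [Finset.sum_const_zero] at hsum
  refine hsum.congr fun z => ?_
  rw [CuspLA.Em, Matrix.sum_apply, Finset.mul_sum]
  exact Finset.sum_congr rfl fun s _ => by rw [Matrix.smul_apply, smul_eq_mul]

theorem tendsto_dual_aux (hF : IsFrame N w F) (e : Fin n ≃ Q N) (i j : Fin n) :
    Tendsto (fun z : ℍ => Δ z * (Phi F e z)⁻¹ j i) atImInfty (𝓝 0) := by
  obtain ⟨A, hdet, hA⟩ := exists_square_leading hF e
  -- the inverse of `B` converges
  have hinv : ∀ l, Tendsto (fun z : ℍ => ((Bm F z).submatrix id e)⁻¹ l i) atImInfty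
      (𝓝 (A⁻¹ l i)) := by
    intro l
    have h1 : Tendsto (fun z : ℍ => ((Bm F z).submatrix id e).det) atImInfty (𝓝 A.det) :=
      ((continuous_id.matrix_det (n := Fin n) (R := ℂ)).tendsto A).comp hA
    have h2 : Tendsto (fun z : ℍ => ((Bm F z).submatrix id e).adjugate) atImInfty
        (𝓝 A.adjugate) :=
      ((continuous_id.matrix_adjugate (n := Fin n) (R := ℂ)).tendsto A).comp hA
    have h3 : Tendsto (fun z : ℍ => ((Bm F z).submatrix id e).adjugate l i) atImInfty
        (𝓝 (A.adjugate l i)) :=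
      ((_root_.continuous_apply i).tendsto _).comp (((_root_.continuous_apply l).tendsto _).comp h2)
    have h4 := (h1.inv₀ hdet).mul h3
    refine Tendsto.congr (fun z => ?_) (h4.trans (le_of_eq (congrArg 𝓝 ?_)))
    · rw [Matrix.inv_def, Ring.inverse_eq_inv', Matrix.smul_apply, smul_eq_mul]
    · rw [Matrix.inv_def, Ring.inverse_eq_inv', Matrix.smul_apply, smul_eq_mul]
  -- the inverse of `Em (q_N)`
  have hEinv : ∀ z : ℍ, ((CuspLA.Em N (CuspT.tau N) (CuspT.qN N z)).submatrix e e)⁻¹ =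
      (CuspLA.Em N (CuspT.tau N) (CuspT.qN N z)⁻¹).submatrix e e := by
    intro z
    refine Matrix.inv_eq_right_inv ?_
    rw [Matrix.submatrix_mul_equiv, CuspT.Em_mul_inv (CuspT.qN_ne_zero N z),
      Matrix.submatrix_one_equiv]
  have hterm : ∀ l ∈ (Finset.univ : Finset (Fin n)), Tendsto (fun z : ℍ =>
      (Δ z * CuspLA.Em N (CuspT.tau N) (CuspT.qN N z)⁻¹ (e j) (e l)) *
        ((Bm F z).submatrix id e)⁻¹ l i) atImInfty (𝓝 0) := by
    intro l _
    have h := (tendsto_discriminant_mul_Em (N := N) (e j) (e l)).mul (hinv l)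
    rwa [zero_mul] at h
  have hsum := tendsto_finsetSum (Finset.univ : Finset (Fin n)) hterm
  rw [Finset.sum_const_zero] at hsum
  refine hsum.congr fun z => ?_
  rw [Phi_eq_mul F e z, Matrix.mul_inv_rev, hEinv z, Matrix.mul_apply, Finset.mul_sum]
  exact Finset.sum_congr rfl fun l _ => by rw [Matrix.submatrix_apply, mul_assoc]

end square

/-! ### The two statements of the piece CUSP -/

theorem tendsto_det_sq' (hF : IsFrame N w F) (e : Fin n ≃ Q N) :
    ∃ c : ℂ, c ≠ 0 ∧ Filter.Tendsto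
      (fun z : ℍ => (Phi F e z).det ^ 2 / Δ z ^ (Nat.card (Q N) - orbT N)) atImInfty (𝓝 c) := by
  classical
  have : Fintype (Q N) := Fintype.ofEquiv (Fin n) e
  exact tendsto_det_sq_aux hF e

theorem tendsto_dual' (hF : IsFrame N w F) (e : Fin n ≃ Q N) (i j : Fin n) :
    Filter.Tendsto (fun z : ℍ => Δ z * (Phi F e z)⁻¹ j i) atImInfty (𝓝 0) := by
  classical
  have : Fintype (Q N) := Fintype.ofEquiv (Fin n) e
  exact tendsto_dual_aux hF e i j

end Fermat.Agent.S20.Frame.CuspFull
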