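/-
S20 Frame route, piece CUSP: behaviour of the matrix of translates of a frame at `i∞`
(the two table statements; the proofs are in `CuspFull.lean`, built on the slices `CuspLA`,
`CuspScalar`, `CuspT`, `CuspInv`).
-/
import Mathlib
import Fermat.Agent.S20.Frame.Defs
import Fermat.Prelude.Def_ModularCurve_GenusNumerics
import Fermat.Agent.S20.Frame.CuspFull

set_option autoImplicit false

open UpperHalfPlane ModularForm CongruenceSubgroup Matrix.SpecialLinearGroup EisensteinSeries
open scoped MatrixGroups ModularForm Manifold Topology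

noncomputable section

namespace Fermat.Agent.S20.Frame

local notation "Δ" => ModularForm.discriminant

variable {N : ℕ} [NeZero N]

variable {n : ℕ} {w : Fin n → ℤ} {F : (i : Fin n) → ModularForm (G0 N) (w i)}

/-- `det Φ ^ 2 / Δ ^ (μ - #cusps)` has a nonzero limit at `i∞`. -/
theorem tendsto_det_sq (hF : IsFrame N w F) (e : Fin n ≃ Q N) :
    ∃ c : ℂ, c ≠ 0 ∧ Filter.Tendsto
      (fun z : ℍ => (Phi F e z).det ^ 2 / Δ z ^ (Nat.card (Q N) - orbT N)) atImInfty (𝓝 c) :=
  CuspFull.tendsto_det_sq' hF e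

/-- `Δ * Φ⁻¹` tends to `0` at `i∞`. -/
theorem tendsto_dual (hF : IsFrame N w F) (e : Fin n ≃ Q N) (i j : Fin n) :
    Filter.Tendsto (fun z : ℍ => Δ z * (Phi F e z)⁻¹ j i) atImInfty (𝓝 0) :=
  CuspFull.tendsto_dual' hF e i j

end Fermat.Agent.S20.Frame
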