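/-
S20 Frame route, piece CONST: `det Φ` never vanishes and `∑ w i = 6 (μ - #cusps)`.
-/
import Mathlib
import Fermat.Agent.S20.Frame.Defs
import Fermat.Agent.S20.Frame.ConstCore
import Fermat.Agent.S20.Frame.Cusp
import Fermat.Agent.S20.Frame.Generic
import Fermat.Agent.S20.Frame.Elliptic
import Fermat.Agent.S20.Frame.Card
import Fermat.Prelude.Def_ModularCurve_GenusNumerics

set_option autoImplicit false

open UpperHalfPlane ModularForm CongruenceSubgroup Matrix.SpecialLinearGroup EisensteinSeries
open scoped MatrixGroups ModularForm Manifold Topology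

noncomputable section

namespace Fermat.Agent.S20.Frame

local notation "Δ" => ModularForm.discriminant

variable {N : ℕ} [NeZero N]

variable {n : ℕ} {w : Fin n → ℤ} {F : (i : Fin n) → ModularForm (G0 N) (w i)}

theorem det_ne_zero (hF : IsFrame N w F) (e : Fin n ≃ Q N) (z : ℍ) : (Phi F e z).det ≠ 0 := by
  obtain ⟨c, hc, hlim⟩ := tendsto_det_sq hF e
  exact (ConstCore.main e _ hc hlim (indep_generic hF) (indep_I hF) (indep_rho hF)).1 z

theorem sum_weights (hF : IsFrame N w F) :
    ∑ i, w i = 6 * ((Nat.card (Q N) : ℤ) - orbT N) := by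
  have hcard : Nat.card (Q N) = n := (frame_card hF).symm
  let e : Fin n ≃ Q N := (Finite.equivFinOfCardEq hcard).symm
  obtain ⟨c, hc, hlim⟩ := tendsto_det_sq hF e
  have h := (ConstCore.main e _ hc hlim (indep_generic hF) (indep_I hF) (indep_rho hF)).2
  rw [h, Nat.cast_sub (ConstCore.orbT_le N)]

end Fermat.Agent.S20.Frame
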