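/-
S20 Frame route, side lemmas for piece CUSP:
* `T ^ N` acts trivially on the cosets `Q N`, i.e. the permutation `τ` induced by `T` satisfies
  `τ ^ N = 1`;
* the number of orbits of `τ` is `orbT N`;
* `Δ(z) / exp(2πiz) → 1` at `i∞`.
-/
import Mathlib
import Fermat.Agent.S20.Frame.Defs
import Fermat.Agent.S20.Frame.Comb
import Fermat.Agent.S21.ParBound

set_option autoImplicit false

open UpperHalfPlane ModularForm CongruenceSubgroup Matrix.SpecialLinearGroup EisensteinSeries
open Filter Real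
open scoped MatrixGroups ModularForm Manifold Topology

noncomputable section

namespace Fermat.Agent.S20.Frame.CuspAux

local notation "Δ" => ModularForm.discriminant

/-- `T ^ N` acts trivially on the cosets of `Γ₀(N)`. -/
theorem Tg_pow_smul (N : ℕ) (q : Q N) : Tg ^ N • q = q := by
  obtain ⟨x, rfl⟩ := (Comb.cosetEquiv N).surjective q
  have h := Fermat.Agent.S21.ParBound.T_pow_smul N x
  have h2 := congrArg (Comb.cosetEquiv N) h
  rw [Comb.cosetEquiv_smul] at h2
  have h3 : toSL (ModularGroup.T ^ N) = Tg ^ N := map_pow Comb.toSLEquiv ModularGroup.T N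
  rwa [h3] at h2

theorem toPerm_zpow_apply {G X : Type*} [Group G] [MulAction G X] (g : G) (k : ℤ) (x : X) :
    ((MulAction.toPerm g : Equiv.Perm X) ^ k) x = g ^ k • x := by
  have h : (MulAction.toPermHom G X) (g ^ k) = (MulAction.toPermHom G X g) ^ k :=
    map_zpow (MulAction.toPermHom G X) g k
  have h' : (MulAction.toPerm g : Equiv.Perm X) ^ k = MulAction.toPerm (g ^ k) := h.symm
  rw [h']
  rfl

theorem toPerm_pow_apply {G X : Type*} [Group G] [MulAction G X] (g : G) (k : ℕ) (x : X) :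
    ((MulAction.toPerm g : Equiv.Perm X) ^ k) x = g ^ k • x := by
  have h := toPerm_zpow_apply g (k : ℤ) x
  rwa [zpow_natCast, zpow_natCast] at h

/-- (1) the permutation of the cosets induced by `T` has order dividing `N`. -/
theorem tau_pow (N : ℕ) : (MulAction.toPerm Tg : Equiv.Perm (Q N)) ^ N = 1 := by
  ext q
  rw [toPerm_pow_apply, Tg_pow_smul]
  rfl

/-- (2) the orbits of the permutation induced by `T` are the `⟨T⟩`-orbits. -/
theorem card_orbits (N : ℕ) :
    Nat.card (MulAction.orbitRel.Quotient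
      (Subgroup.zpowers (MulAction.toPerm Tg : Equiv.Perm (Q N))) (Q N)) = orbT N := by
  unfold orbT
  refine Nat.card_congr (Quotient.congr (Equiv.refl _) fun x y => ?_)
  rw [MulAction.orbitRel_apply, MulAction.orbitRel_apply, MulAction.mem_orbit_iff,
    MulAction.mem_orbit_iff]
  constructor
  · rintro ⟨⟨g, hg⟩, hgx⟩
    obtain ⟨k, rfl⟩ := Subgroup.mem_zpowers_iff.1 hg
    exact ⟨⟨Tg ^ k, Subgroup.zpow_mem_zpowers _ _⟩, (toPerm_zpow_apply Tg k y).symm.trans hgx⟩
  · rintro ⟨⟨g, hg⟩, hgx⟩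
    obtain ⟨k, rfl⟩ := Subgroup.mem_zpowers_iff.1 hg
    exact ⟨⟨(MulAction.toPerm Tg : Equiv.Perm (Q N)) ^ k, Subgroup.zpow_mem_zpowers _ _⟩,
      (toPerm_zpow_apply Tg k y).trans hgx⟩

/-- (3) `Δ(z) / q → 1` at `i∞`. -/
theorem discriminant_div_q :
    Tendsto (fun z : ℍ => Δ z / Complex.exp (2 * π * Complex.I * z)) atImInfty (𝓝 1) := by
  refine tendsto_atImInfty_tprod_one_sub_eta_q_pow.congr fun z => ?_
  rw [discriminant_eq_q_prod]
  have h : Function.Periodic.qParam 1 (z : ℂ) = Complex.exp (2 * π * Complex.I * z) := by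
    simp [Function.Periodic.qParam]
  rw [h, mul_div_cancel_left₀ _ (Complex.exp_ne_zero _)]

end Fermat.Agent.S20.Frame.CuspAux
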