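/-
S20 Frame route, piece CUSP, slice L: the leading matrix of the matrix of translates at `i∞`
exists and has trivial left kernel (table shape; the proofs are in `CuspFull.lean`).
-/
import Mathlib
import Fermat.Agent.S20.Frame.Defs
import Fermat.Agent.S20.Frame.CuspLA
import Fermat.Agent.S20.Frame.CuspT
import Fermat.Agent.S20.Frame.CuspFull

set_option autoImplicit false
set_option linter.unusedSectionVars false

open UpperHalfPlane ModularForm CongruenceSubgroup Matrix.SpecialLinearGroup Filter
open scoped MatrixGroups ModularForm Manifold Topology Real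

noncomputable section

namespace Fermat.Agent.S20.Frame.CuspLead

variable {N : ℕ} [NeZero N]

variable {n : ℕ} {w : Fin n → ℤ} {F : (i : Fin n) → ModularForm (G0 N) (w i)}

/-- The matrix of translates, with columns indexed by the cosets. -/
def PsiM (F : (i : Fin n) → ModularForm (G0 N) (w i)) (z : ℍ) : Matrix (Fin n) (Q N) ℂ :=
  Matrix.of fun i q => tr (F i) q z

theorem Phi_eq_submatrix (F : (i : Fin n) → ModularForm (G0 N) (w i)) (e : Fin n ≃ Q N) (z : ℍ) :
    Phi F e z = (PsiM F z).submatrix id e := rfl

/-- The leading matrix of `PsiM F z * Em (q_N z)⁻¹` at `i∞` exists and has trivial left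
kernel. -/
theorem exists_leading [Fintype (Q N)] [DecidableEq (Q N)] (hF : IsFrame N w F) :
    ∃ A : Matrix (Fin n) (Q N) ℂ,
      (∀ i q, (fun z : ℍ =>
        (PsiM F z * CuspLA.Em N (CuspT.tau N) (CuspT.qN N z)⁻¹) i q - A i q) =O[atImInfty]
          fun z : ℍ => Real.exp (-2 * π * z.im)) ∧
      ∀ c : Fin n → ℂ, Matrix.vecMul c A = 0 → c = 0 := by
  obtain ⟨A, hA⟩ := CuspFull.exists_leading F
  exact ⟨A, hA, fun c hc => CuspFull.leading_injective hF A hA c hc⟩

end Fermat.Agent.S20.Frame.CuspLead
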