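/-
S20 Frame route, CUSP assembly, abstract limit step: if `Φ z = B z * E z` with
`B z → A` entrywise, `det A ≠ 0`, `det (E z) ^ 2 = q ^ m` and `Δ • (E z)⁻¹ → 0`, then
`det Φ ^ 2 / Δ ^ m → det A ^ 2` and `Δ • Φ⁻¹ → 0`; and the specialisation to
`E z = Em N τ (q_N z)` of `CuspLA` (`CuspLimit.main`).
-/
import Mathlib
import Fermat.Agent.S20.Frame.CuspLA

set_option autoImplicit false

open UpperHalfPlane ModularForm Filter
open scoped Topology

noncomputable section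

namespace Fermat.Agent.S20.Frame.CuspLimit

local notation "Δ" => ModularForm.discriminant

/-- `q / Δ → 1` at `i∞`. -/
theorem tendsto_q_div_discriminant :
    Tendsto (fun z : ℍ => Function.Periodic.qParam 1 (z : ℂ) / Δ z) atImInfty (𝓝 1) := by
  have h := ModularForm.tendsto_atImInfty_tprod_one_sub_eta_q_pow
  have h2 := h.inv₀ one_ne_zero
  rw [inv_one] at h2
  refine h2.congr fun z => ?_
  rw [ModularForm.discriminant_eq_q_prod z]
  have hq : Function.Periodic.qParam 1 (z : ℂ) ≠ 0 := Complex.exp_ne_zero _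
  rw [div_mul_cancel_left₀ hq]

variable {n : ℕ}

theorem tendsto_matrix {B : ℍ → Matrix (Fin n) (Fin n) ℂ} {A : Matrix (Fin n) (Fin n) ℂ}
    (hB : ∀ i j, Tendsto (fun z => B z i j) atImInfty (𝓝 (A i j))) :
    Tendsto B atImInfty (𝓝 A) := by
  show Tendsto (fun z => (B z : Fin n → Fin n → ℂ)) atImInfty (𝓝 (A : Fin n → Fin n → ℂ))
  exact tendsto_pi_nhds.mpr fun i => tendsto_pi_nhds.mpr fun j => hB i j

theorem tendsto_det {B : ℍ → Matrix (Fin n) (Fin n) ℂ} {A : Matrix (Fin n) (Fin n) ℂ}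
    (hB : ∀ i j, Tendsto (fun z => B z i j) atImInfty (𝓝 (A i j))) :
    Tendsto (fun z => (B z).det) atImInfty (𝓝 A.det) :=
  ((continuous_id.matrix_det).tendsto A).comp (tendsto_matrix hB)

theorem tendsto_inv {B : ℍ → Matrix (Fin n) (Fin n) ℂ} {A : Matrix (Fin n) (Fin n) ℂ}
    (hB : ∀ i j, Tendsto (fun z => B z i j) atImInfty (𝓝 (A i j))) (hA : A.det ≠ 0)
    (i j : Fin n) : Tendsto (fun z => (B z)⁻¹ i j) atImInfty (𝓝 (A⁻¹ i j)) := by
  have hadj : Tendsto (fun z => (B z).adjugate) atImInfty (𝓝 A.adjugate) :=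
    ((continuous_id.matrix_adjugate).tendsto A).comp (tendsto_matrix hB)
  have hadj' : Tendsto (fun z => (B z).adjugate i j) atImInfty (𝓝 (A.adjugate i j)) :=
    ((continuous_apply j).tendsto _).comp (((continuous_apply i).tendsto _).comp hadj)
  have hdet := (tendsto_det hB).inv₀ hA
  have key : ∀ M : Matrix (Fin n) (Fin n) ℂ, M⁻¹ i j = (M.det)⁻¹ * M.adjugate i j := by
    intro M
    rw [Matrix.inv_def, Ring.inverse_eq_inv', Matrix.smul_apply, smul_eq_mul]
  rw [key A]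
  exact (hdet.mul hadj').congr fun z => (key (B z)).symm

/-- `exp (2 π i z) / Δ → 1` at `i∞`. -/
theorem tendsto_exp_div_discriminant :
    Tendsto (fun z : ℍ => Complex.exp (2 * Real.pi * Complex.I * z) / Δ z) atImInfty (𝓝 1) := by
  refine tendsto_q_div_discriminant.congr fun z => ?_
  simp [Function.Periodic.qParam]

/-- Abstract form of `tendsto_det_sq`. -/
theorem tendsto_det_sq_of_factor {Φ B E : ℍ → Matrix (Fin n) (Fin n) ℂ}
    {A : Matrix (Fin n) (Fin n) ℂ} (m : ℕ) (hΦ : ∀ z, Φ z = B z * E z)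
    (hB : ∀ i j, Tendsto (fun z => B z i j) atImInfty (𝓝 (A i j)))
    (hE : ∀ z : ℍ, (E z).det ^ 2 = Complex.exp (2 * Real.pi * Complex.I * z) ^ m) :
    Tendsto (fun z => (Φ z).det ^ 2 / Δ z ^ m) atImInfty (𝓝 (A.det ^ 2)) := by
  have h1 := ((tendsto_det hB).pow 2).mul (tendsto_exp_div_discriminant.pow m)
  rw [one_pow, mul_one] at h1
  refine h1.congr fun z => ?_
  rw [hΦ z, Matrix.det_mul, mul_pow, hE z, div_pow, mul_div_assoc]

/-- Abstract form of `tendsto_dual`. -/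
theorem tendsto_dual_of_factor {Φ B E E' : ℍ → Matrix (Fin n) (Fin n) ℂ}
    {A : Matrix (Fin n) (Fin n) ℂ} (hΦ : ∀ z, Φ z = B z * E z)
    (hB : ∀ i j, Tendsto (fun z => B z i j) atImInfty (𝓝 (A i j))) (hA : A.det ≠ 0)
    (hE : ∀ z : ℍ, E z * E' z = 1)
    (hE' : ∀ i j, Tendsto (fun z => Δ z * E' z i j) atImInfty (𝓝 0)) (i j : Fin n) :
    Tendsto (fun z => Δ z * (Φ z)⁻¹ j i) atImInfty (𝓝 0) := by
  have h1 : ∀ z, Δ z * (Φ z)⁻¹ j i = ∑ l, (Δ z * E' z j l) * (B z)⁻¹ l i := by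
    intro z
    rw [hΦ z, Matrix.mul_inv_rev, Matrix.inv_eq_right_inv (hE z), Matrix.mul_apply,
      Finset.mul_sum]
    refine Finset.sum_congr rfl fun l _ => ?_
    ring
  have h2 : Tendsto (fun z => ∑ l, (Δ z * E' z j l) * (B z)⁻¹ l i) atImInfty
      (𝓝 (∑ l : Fin n, (0 : ℂ) * A⁻¹ l i)) :=
    tendsto_finsetSum _ fun l _ => (hE' j l).mul (tendsto_inv hB hA l i)
  simp only [zero_mul, Finset.sum_const_zero] at h2
  exact h2.congr fun z => (h1 z).symm

/-! ### Specialisation to `E z = Em N τ (x z)` -/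

/-- `Δ` times a function bounded by `∑ s < N, ‖x⁻¹‖ ^ s` (with `‖x z‖ = exp (-2π im z / N)`)
tends to `0` at `i∞`. -/
theorem tendsto_discriminant_mul {N : ℕ} (hN : 0 < N) (f : ℍ → ℂ)
    (hf : ∀ z : ℍ, ‖f z‖ ≤ ∑ s ∈ Finset.range N, Real.exp (2 * Real.pi * z.im / N) ^ s) :
    Tendsto (fun z => Δ z * f z) atImInfty (𝓝 0) := by
  have hN0 : (0 : ℝ) < N := Nat.cast_pos.mpr hN
  have hΔ : (fun z : ℍ => Δ z) =O[atImInfty] fun z : ℍ => Real.exp (-2 * Real.pi * z.im) := by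
    have h := CuspFormClass.exp_decay_atImInfty (h := 1) CuspForm.discriminant one_pos
      one_mem_strictPeriods_SL
    simpa using h
  have hfO : f =O[atImInfty]
      fun z : ℍ => Real.exp (2 * Real.pi * z.im / N) ^ (N - 1) := by
    refine Asymptotics.IsBigO.of_bound N (Filter.Eventually.of_forall fun z => ?_)
    have hy : (1 : ℝ) ≤ Real.exp (2 * Real.pi * z.im / N) := by
      apply Real.one_le_exp
      have := z.im_pos
      positivity
    have h1 : ∑ s ∈ Finset.range N, Real.exp (2 * Real.pi * z.im / N) ^ s ≤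
        ∑ _s ∈ Finset.range N, Real.exp (2 * Real.pi * z.im / N) ^ (N - 1) :=
      Finset.sum_le_sum fun s hs =>
        pow_le_pow_right₀ hy (Nat.le_sub_one_of_lt (Finset.mem_range.mp hs))
    rw [Finset.sum_const, Finset.card_range, nsmul_eq_mul] at h1
    rw [Real.norm_of_nonneg (pow_nonneg (Real.exp_pos _).le _)]
    exact (hf z).trans h1
  have hprod := hΔ.mul hfO
  have hlim : Tendsto (fun z : ℍ => Real.exp (-2 * Real.pi * z.im) *
      Real.exp (2 * Real.pi * z.im / N) ^ (N - 1)) atImInfty (𝓝 0) := by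
    have h1 : ∀ z : ℍ, Real.exp (-2 * Real.pi * z.im) *
        Real.exp (2 * Real.pi * z.im / N) ^ (N - 1) = Real.exp (-(2 * Real.pi / N) * z.im) := by
      intro z
      rw [← Real.exp_nat_mul, ← Real.exp_add]
      congr 1
      have hN1 : ((N - 1 : ℕ) : ℝ) = (N : ℝ) - 1 := by
        rw [Nat.cast_sub hN, Nat.cast_one]
      rw [hN1]
      field_simp
      ring
    simp only [h1]
    have h2 : Tendsto (fun z : ℍ => z.im) atImInfty atTop := tendsto_comap
    have hc : -(2 * Real.pi / N) < 0 := by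
      have : (0 : ℝ) < 2 * Real.pi / N := by positivity
      linarith
    exact Real.tendsto_exp_atBot.comp (h2.const_mul_atTop_of_neg hc)
  exact hprod.trans_tendsto hlim

/-- **CUSP, abstract assembly.** Let `Ψ z : Matrix (Fin n) Q ℂ`, `τ` a permutation of `Q` with
`τ ^ N = 1`, `x z` an `N`-th root of `exp (2 π i z)` with `‖x z‖ = exp (-2π im z / N)`.  If
`Ψ z * Em N τ (x z)⁻¹ → A` entrywise and `A` has independent rows, then for every reindexing
`e : Fin n ≃ Q` the square matrix `Φ z = (Ψ z).submatrix id e` satisfies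
`det Φ ^ 2 / Δ ^ (card Q - #orbits τ) → c ≠ 0` and `Δ • Φ⁻¹ → 0`. -/
theorem main {Q : Type*} [Fintype Q] [DecidableEq Q] (e : Fin n ≃ Q) {N : ℕ} (hN : 0 < N)
    {τ : Equiv.Perm Q} (hτ : τ ^ N = 1) (x : ℍ → ℂ) (hx0 : ∀ z, x z ≠ 0)
    (hxN : ∀ z : ℍ, x z ^ N = Complex.exp (2 * Real.pi * Complex.I * z))
    (hxnorm : ∀ z : ℍ, ‖x z‖ = Real.exp (-2 * Real.pi * z.im / N))
    (Ψ : ℍ → Matrix (Fin n) Q ℂ) (A : Matrix (Fin n) Q ℂ)
    (hlim : ∀ i q, Tendsto (fun z => (Ψ z * CuspLA.Em N τ (x z)⁻¹) i q) atImInfty (𝓝 (A i q)))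
    (hinj : ∀ c : Fin n → ℂ, Matrix.vecMul c A = 0 → c = 0) :
    (∃ c : ℂ, c ≠ 0 ∧ Tendsto (fun z => ((Ψ z).submatrix id e).det ^ 2 /
        Δ z ^ (Fintype.card Q - Nat.card (MulAction.orbitRel.Quotient (Subgroup.zpowers τ) Q)))
        atImInfty (𝓝 c)) ∧
      ∀ i j, Tendsto (fun z => Δ z * ((Ψ z).submatrix id e)⁻¹ j i) atImInfty (𝓝 0) := by
  set Φ : ℍ → Matrix (Fin n) (Fin n) ℂ := fun z => (Ψ z).submatrix id e with hΦdef
  set B : ℍ → Matrix (Fin n) (Fin n) ℂ :=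
    fun z => (Ψ z * CuspLA.Em N τ (x z)⁻¹).submatrix id e with hBdef
  set E : ℍ → Matrix (Fin n) (Fin n) ℂ := fun z => (CuspLA.Em N τ (x z)).submatrix e e with hEdef
  set E' : ℍ → Matrix (Fin n) (Fin n) ℂ :=
    fun z => (CuspLA.Em N τ (x z)⁻¹).submatrix e e with hE'def
  set Af : Matrix (Fin n) (Fin n) ℂ := A.submatrix id e with hAfdef
  have hinv1 : ∀ z, CuspLA.Em N τ (x z)⁻¹ * CuspLA.Em N τ (x z) = 1 := fun z => by
    rw [CuspLA.Em_mul hN hτ, inv_mul_cancel₀ (hx0 z), CuspLA.Em_one hN hτ]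
  have hinv2 : ∀ z, CuspLA.Em N τ (x z) * CuspLA.Em N τ (x z)⁻¹ = 1 := fun z => by
    rw [CuspLA.Em_mul hN hτ, mul_inv_cancel₀ (hx0 z), CuspLA.Em_one hN hτ]
  have hΦ : ∀ z, Φ z = B z * E z := fun z => by
    simp only [hΦdef, hBdef, hEdef]
    rw [Matrix.submatrix_mul_equiv, Matrix.mul_assoc, hinv1, Matrix.mul_one]
  have hB : ∀ i j, Tendsto (fun z => B z i j) atImInfty (𝓝 (Af i j)) := fun i j => hlim i (e j)
  have hAdet : Af.det ≠ 0 := by
    intro hdet
    obtain ⟨v, hv, hv0⟩ := Matrix.exists_vecMul_eq_zero_iff.mpr hdet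
    refine hv (hinj v ?_)
    funext q
    have := congrFun hv0 (e.symm q)
    simpa [Matrix.vecMul, dotProduct, hAfdef] using this
  have hEdet : ∀ z : ℍ, (E z).det ^ 2 = Complex.exp (2 * Real.pi * Complex.I * z) ^
      (Fintype.card Q - Nat.card (MulAction.orbitRel.Quotient (Subgroup.zpowers τ) Q)) :=
    fun z => by
      simp only [hEdef]
      rw [Matrix.det_submatrix_equiv_self, CuspLA.det_Em_sq hN hτ, hxN]
  have hEE' : ∀ z : ℍ, E z * E' z = 1 := fun z => by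
    simp only [hEdef, hE'def]
    rw [Matrix.submatrix_mul_equiv, hinv2, Matrix.submatrix_one_equiv]
  have hE'lim : ∀ i j, Tendsto (fun z => Δ z * E' z i j) atImInfty (𝓝 0) := fun i j => by
    refine tendsto_discriminant_mul hN (fun z => E' z i j) fun z => ?_
    have h := CuspLA.norm_Em_apply_le hN τ (x z)⁻¹ (e i) (e j)
    have hnorm : ‖(x z)⁻¹‖ = Real.exp (2 * Real.pi * z.im / N) := by
      rw [norm_inv, hxnorm, ← Real.exp_neg]
      congr 1
      ring
    rw [hnorm] at h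
    exact h
  exact ⟨⟨Af.det ^ 2, pow_ne_zero _ hAdet, tendsto_det_sq_of_factor _ hΦ hB hEdet⟩,
    fun i j => tendsto_dual_of_factor hΦ hB hAdet hEE' hE'lim i j⟩

end Fermat.Agent.S20.Frame.CuspLimit
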