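/-
S20 Frame route, piece DUALB: the trace pairing of a cusp form with a modular form of level
`Γ₀(N)` is a level one cusp form, hence `Δ` times a level one modular form.
-/
import Mathlib
import Fermat.Agent.S20.Frame.Defs

set_option autoImplicit false

open UpperHalfPlane ModularForm CongruenceSubgroup Matrix.SpecialLinearGroup EisensteinSeries
open scoped MatrixGroups ModularForm Manifold Topology

noncomputable section

namespace Fermat.Agent.S20.Frame

local notation "Δ" => ModularForm.discriminant

variable {N : ℕ} [NeZero N]

namespace DualTrace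

/-- A translate of a product is the product of the translates. -/
theorem quotientFunc_mul {k₁ k₂ : ℤ} (f : CuspForm (G0 N) k₁) (G : ModularForm (G0 N) k₂)
    (q : Q N) (z : ℍ) :
    SlashInvariantForm.quotientFunc (f.mulModularForm G) q z =
      SlashInvariantForm.quotientFunc f q z * tr G q z := by
  induction q using Quotient.inductionOn with
  | h g =>
    simp only [tr, SlashInvariantForm.quotientFunc_mk]
    have hdet : |((g : GL (Fin 2) ℝ)⁻¹).det.val| = 1 := by
      obtain ⟨γ, hγ⟩ := g.2
      rw [← hγ]
      simp
    rw [CuspForm.coe_mulModularForm, ModularForm.mul_slash, hdet, one_smul, Pi.mul_apply]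

end DualTrace

theorem Dual.exists_trace_eq {k₁ k₂ : ℤ} (f : CuspForm (G0 N) k₁) (G : ModularForm (G0 N) k₂)
    [Fintype (Q N)] :
    ∃ r : ModularForm 𝒮ℒ (k₁ + k₂ - 12), ∀ z : ℍ,
      ∑ q : Q N, SlashInvariantForm.quotientFunc f q z * tr G q z = Δ z * r z := by
  refine ⟨CuspForm.discriminantEquiv (CuspForm.trace 𝒮ℒ (f.mulModularForm G)), fun z => ?_⟩
  rw [ModularForm.discriminant_mul_discriminantEquiv_apply, CuspForm.coe_trace, Finset.sum_apply]
  simp only [DualTrace.quotientFunc_mul]
  exact Finset.sum_congr (by ext; simp) fun _ _ => rfl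

end Fermat.Agent.S20.Frame

end
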