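/-
S20 Frame route, piece FREE: partial frames.

A partial frame up to weight `k₀` is a finite homogeneous family whose members of each weight are
linearly independent modulo `E₄ M + E₆ M` and which spans (with level one coefficients) all forms
of weight `< k₀`.  `exists_frame` is obtained by enlarging partial frames one member at a time;
the process stops because a partial frame has at most `[SL₂(ℤ) : Γ₀(N)]` members.
-/
import Mathlib
import Fermat.Agent.S20.Frame.Defs

set_option autoImplicit false

open UpperHalfPlane ModularForm CongruenceSubgroup Matrix.SpecialLinearGroup EisensteinSeries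
open scoped MatrixGroups ModularForm Manifold Topology

noncomputable section

namespace Fermat.Agent.S20.Frame

namespace Free

variable {N : ℕ}

/-- `f` is a combination of the `F i` with level one coefficients. -/
def InSpan {n : ℕ} {w : Fin n → ℤ} (F : (i : Fin n) → ModularForm (G0 N) (w i)) {k : ℤ}
    (f : ModularForm (G0 N) k) : Prop :=
  ∃ r : (i : Fin n) → ModularForm 𝒮ℒ (k - w i), ∀ z, f z = ∑ i, r i z * F i z

/-- Minimality: the members of each weight `k` are linearly independent modulo
`E₄ M_(k-4) + E₆ M_(k-6)`. -/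
def IsMin {n : ℕ} (w : Fin n → ℤ) (F : (i : Fin n) → ModularForm (G0 N) (w i)) : Prop :=
  ∀ (k : ℤ) (c : Fin n → ℂ) (a : ModularForm (G0 N) (k - 4)) (b : ModularForm (G0 N) (k - 6)),
    (∀ z, ∑ i, (if w i = k then c i else 0) * F i z = E₄ z * a z + E₆ z * b z) →
    ∀ i, w i = k → c i = 0

/-- Independence over the ring of level one forms (the `indep` field of `IsFrame`). -/
def IsIndep {n : ℕ} (w : Fin n → ℤ) (F : (i : Fin n) → ModularForm (G0 N) (w i)) : Prop :=
  ∀ (k : ℤ) (r : (i : Fin n) → ModularForm 𝒮ℒ (k - w i)),
    (∀ z, ∑ i, r i z * F i z = 0) → ∀ i, r i = 0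

/-- A partial frame up to weight `k₀`. -/
structure IsPartial (N : ℕ) (k₀ : ℤ) {n : ℕ} (w : Fin n → ℤ)
    (F : (i : Fin n) → ModularForm (G0 N) (w i)) : Prop where
  min : IsMin w F
  span : ∀ (k : ℤ), k < k₀ → ∀ f : ModularForm (G0 N) k, InSpan F f
  nonneg : ∀ i, 0 ≤ w i
  le : ∀ i, w i ≤ k₀

end Free

end Fermat.Agent.S20.Frame
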